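import Fermat.Agent.PT.Local.Basic
import Fermat.Agent.PT.Hens.Kh

/-!
# S55: glue between block L (`PT/Local`, `Plc`, `pl`, `lg`, `lf`) and block HENS (`PT/Hens`,
`plOf`, `Vof`, `kh`)
-/

set_option autoImplicit false

namespace Fermat.Agent.PT.Local

open IsDedekindDomain NumberField Fermat.Agent.CFT Fermat.Agent.PT

theorem isFin (P : Plc) : Place.IsFin P.A := ⟨⟨P.ℓ, P.prime⟩, P.liesOver⟩

theorem lg_eq (P : Plc) (K : Fld) : lg P K = Vof K ⊓ Dec P.A := by
  rw [lg, Vof_intermediateField, inf_comm]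

theorem li_eq (P : Plc) (K : Fld) : li P K = Vof K ⊓ Ine P.A := by
  rw [li, Vof_intermediateField, inf_comm]

theorem lf_eq_kh (P : Plc) (K : Fld) : lf P K = kh K P.A := by
  rw [lf, kh, lg_eq]

theorem pl_eq_plOf (P : Plc) (K : Fld) [FiniteDimensional ℚ K] :
    pl P K = plOf K P.A (isFin P) := by
  apply HeightOneSpectrum.ext
  ext x
  rw [mem_plOf]
  change x ∈ plIdeal P K ↔ _
  rw [mem_plIdeal, ValuationSubring.mem_nonunits_iff]
  rfl

end Fermat.Agent.PT.Local
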