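import Fermat.Agent.PT.Local.Norm
import Fermat.Agent.PT.Local.HensGlue
import Fermat.Agent.PT.Hens.Closed

/-!
# S55, block L, leaf L02: the local Galois groups are closed; open subgroups of local Galois groups
are local Galois groups

(Wrappers around `PT/Hens/Closed.lean`.)
-/

set_option autoImplicit false

namespace Fermat.Agent.PT.Local

open IntermediateField Fermat.Agent.PT

/-- `lg P K` is closed for the Krull topology, hence it is the fixing subgroup of its fixed field.
Proof: `σ` fixing `lf P K`.  By `InfiniteGalois.fixingSubgroup_fixedField` it is enough that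
`lg P K` is closed: `K.fixingSubgroup` is closed, and `P.dec` is closed because `σ ∈ closure` means
that for every `x` there is `τ ∈ P.dec` with `τ x = σ x` (and `τ⁻¹`..), now use `mem_dec_iff`. -/
theorem fixingSubgroup_lf (P : Plc) (K : Fld) : (lf P K).fixingSubgroup = lg P K := by
  rw [lf_eq_kh, lg_eq]
  exact fixingSubgroup_kh K P.A

/-- Every open subgroup of a local Galois group is the local Galois group of a number field.
Proof: enlarge `N` to a finite Galois extension `N'` of `ℚ` containing `K`; put
`K' = N' ⊓ fixedField E`.  `E ≤ lg P K'` is clear.  If `σ ∈ lg P K'` then by finite Galois theory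
for `N'/ℚ` (the subgroup `E|N'` of `Gal(N'/ℚ)` has fixed field `K'`) there is `e ∈ E` with
`σ = e` on `N'`; then `e⁻¹ σ ∈ lg P K ⊓ N'.fixingSubgroup ≤ E`. -/
theorem exists_lg_eq (P : Plc) (K : Fld) [FiniteDimensional ℚ K] {E : Subgroup GQ}
    (hE : IsOpenIn E (lg P K)) :
    ∃ K' : Fld, FiniteDimensional ℚ K' ∧ K ≤ K' ∧ lg P K' = E := by
  obtain ⟨hle, N, hN, hopen⟩ := hE
  rw [lg_eq] at hle hopen
  obtain ⟨K', hK', hKK', hEq⟩ := exists_numberField_of_open (N := K) (𝒜 := P.A) hle N hopen
  refine ⟨K', hK', fun x hx => hKK' ⟨x, hx⟩, ?_⟩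
  rw [lg_eq, Vof_intermediateField]
  exact hEq

/-- The local Galois correspondence is injective on fields: `lg P K₁ = lg P K` forces
`lf P K₁ = lf P K`; an element of `lg P K` fixing `lf P K₁` is in `lg P K₁`. -/
theorem mem_lg_of_fixes (P : Plc) (K₁ : Fld) {σ : GQ} (h : ∀ y ∈ lf P K₁, σ y = y) :
    σ ∈ lg P K₁ := by
  rw [← fixingSubgroup_lf, IntermediateField.mem_fixingSubgroup_iff]
  exact h

end Fermat.Agent.PT.Local
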