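import Fermat.Agent.PT.Local.Frob
import Fermat.Agent.PT.Local.Closed

/-!
# S55, block L, leaf L08: the unramified extensions of a local field
-/

set_option autoImplicit false

namespace Fermat.Agent.PT.Local

open IsDedekindDomain NumberField Fermat.Agent.CFT

variable (P : Plc) (K : Fld) [FiniteDimensional ℚ K]

theorem le_unr (m : ℕ) : K ≤ unr P K m := le_sup_left

/-! ### helper lemmas -/

theorem Unram_fixes_adjoin (σ : GQ) (S : Set Qb) (h : ∀ x ∈ S, σ x = x) :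
    ∀ x ∈ IntermediateField.adjoin ℚ S, σ x = x := by
  intro x hx
  induction hx using IntermediateField.adjoin_induction with
  | mem x hx => exact h x hx
  | algebraMap x => exact σ.commutes x
  | add x y _ _ hx hy => rw [map_add, hx, hy]
  | inv x _ hx => rw [map_inv₀, hx]
  | mul x y _ _ hx hy => rw [map_mul, hx, hy]

theorem Unram_exists_prim {n : ℕ} (hn : 0 < n) : ∃ ζ : Qb, IsPrimitiveRoot ζ n := by
  have : NeZero (n : Qb) := ⟨by exact_mod_cast hn.ne'⟩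
  exact HasEnoughRootsOfUnity.exists_primitiveRoot Qb n

/-- `q ^ m - 1 > 0`. -/
theorem Unram_pos {m : ℕ} (hm : 0 < m) : 0 < rq P K ^ m - 1 := by
  have h1 := one_lt_rq P K
  have h2 : 1 < rq P K ^ m := Nat.one_lt_pow hm.ne' h1
  omega

/-- `ℓ ∤ q ^ m - 1`. -/
theorem Unram_not_dvd {m : ℕ} (hm : 0 < m) : ¬ P.ℓ ∣ rq P K ^ m - 1 := by
  obtain ⟨f, hf, hq⟩ := exists_rq_eq P K
  intro h
  have h0 := Unram_pos P K hm
  have h1 : P.ℓ ∣ rq P K ^ m := by
    rw [hq, ← pow_mul]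
    exact dvd_pow_self _ (Nat.mul_pos hf hm).ne'
  have h2 : P.ℓ ∣ 1 := by
    have := (Nat.dvd_sub h1 h)
    have e : rq P K ^ m - (rq P K ^ m - 1) = 1 := by omega
    rwa [e] at this
  exact P.prime.one_lt.ne' (Nat.dvd_one.1 h2)

theorem Unram_v_eq_one {n : ℕ} (hn : 0 < n) {x : Qb} (hx : x ^ n = 1) : P.v x = 1 := by
  have h : P.v x ^ n = 1 := by rw [← map_pow, hx, map_one]
  exact (pow_eq_one_iff_of_nonneg zero_le hn.ne').1 h

theorem Unram_mem_A {x : Qb} (hx : P.v x ≤ 1) : x ∈ P.A := (P.A.valuation_le_one_iff x).1 hx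

/-- arithmetic: `q ^ j ≡ q ^ i mod q ^ m - 1` with `i, j < m` forces `i = j`. -/
theorem Unram_pow_inj {q m i j : ℕ} (hq : 1 < q) (hi : i < m) (hj : j < m)
    (h : q ^ i ≡ q ^ j [MOD q ^ m - 1]) : i = j := by
  wlog hij : i ≤ j generalizing i j
  · exact (this hj hi h.symm (le_of_not_ge hij)).symm
  by_contra hne
  have hlt : i < j := lt_of_le_of_ne hij hne
  have h1 : q ^ i < q ^ j := Nat.pow_lt_pow_right hq hlt
  have h2 : q ^ j * q ≤ q ^ m := by
    rw [← pow_succ]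
    exact Nat.pow_le_pow_right hq.le hj
  have h3 : q ^ m - 1 ∣ q ^ j - q ^ i := (Nat.modEq_iff_dvd' h1.le).1 h
  have h4 : 0 < q ^ j - q ^ i := by omega
  have h5 := Nat.le_of_dvd h4 h3
  have h6 : 0 < q ^ i := pow_pos (by omega) _
  have h7 : q ^ j * 2 ≤ q ^ j * q := Nat.mul_le_mul_left _ hq
  omega

theorem Unram_pow_modEq_one_iff {q m j : ℕ} (hq : 1 < q) (hm : 0 < m) :
    q ^ j ≡ 1 [MOD q ^ m - 1] ↔ m ∣ j := by
  have hqm : q ^ m ≡ 1 [MOD q ^ m - 1] := by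
    have h1 : 1 ≤ q ^ m := Nat.one_le_pow _ _ (by omega)
    exact ((Nat.modEq_iff_dvd' h1).2 dvd_rfl).symm
  have key : q ^ j ≡ q ^ (j % m) [MOD q ^ m - 1] := by
    conv_lhs => rw [← Nat.div_add_mod j m, pow_add, pow_mul]
    have := (hqm.pow (j / m)).mul_right (q ^ (j % m))
    simpa using this
  constructor
  · intro h
    have h2 : q ^ (j % m) ≡ q ^ 0 [MOD q ^ m - 1] := by
      rw [pow_zero]; exact key.symm.trans h
    have := Unram_pow_inj hq (Nat.mod_lt _ hm) hm h2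
    exact Nat.dvd_of_mod_eq_zero this
  · intro h
    rw [Nat.mod_eq_zero_of_dvd h, pow_zero] at key
    exact key

theorem Unram_pow_eq_pow_iff {n : ℕ} (hn : 0 < n) {ζ : Qb} (hζ : IsPrimitiveRoot ζ n) (a b : ℕ) :
    ζ ^ a = ζ ^ b ↔ a ≡ b [MOD n] := by
  have hfin : IsOfFinOrder ζ := by
    rw [← orderOf_pos_iff, ← hζ.eq_orderOf]
    exact hn
  rw [hfin.pow_eq_pow_iff_modEq, ← hζ.eq_orderOf]

/-- the action of (a power of) Frobenius on roots of unity. -/
theorem Unram_frob_zeta {m : ℕ} (hm : 0 < m) {x : Qb} (hx : x ^ (rq P K ^ m - 1) = 1)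
    {φ : GQ} (hF : IsFrob P (rq P K) φ) (j : ℕ) : (φ ^ j) x = x ^ (rq P K ^ j) := by
  have hF' := hF.pow j
  have hn := Unram_pos P K hm
  apply eq_of_v_sub_lt_one P (Unram_not_dvd P K hm)
  · rw [← map_pow, hx, map_one]
  · rw [← pow_mul, mul_comm, pow_mul, hx, one_pow]
  · exact hF'.2 x (Unram_mem_A P (Unram_v_eq_one P hn hx).le)

theorem Unram_mem_roots_iff {m : ℕ} (hm : 0 < m) (x : Qb) :
    x ∈ ((Polynomial.nthRootsFinset (rq P K ^ m - 1) (1 : Qb) : Finset Qb) : Set Qb) ↔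
      x ^ (rq P K ^ m - 1) = 1 := by
  rw [Finset.mem_coe, Polynomial.mem_nthRootsFinset (Unram_pos P K hm)]

theorem Unram_zeta_mem {m : ℕ} (hm : 0 < m) {x : Qb} (hx : x ^ (rq P K ^ m - 1) = 1) :
    x ∈ unr P K m := by
  have h1 : x ∈ IntermediateField.adjoin ℚ
      ((Polynomial.nthRootsFinset (rq P K ^ m - 1) (1 : Qb) : Finset Qb) : Set Qb) :=
    IntermediateField.subset_adjoin _ _ ((Unram_mem_roots_iff P K hm x).2 hx)
  exact (le_sup_right : _ ≤ unr P K m) h1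

/-- membership in `lg P (unr P K m)` in terms of one primitive root of unity -/
theorem mem_lg_unr_iff {m : ℕ} (hm : 0 < m) {ζ : Qb} (hζ : IsPrimitiveRoot ζ (rq P K ^ m - 1))
    (σ : GQ) :
    σ ∈ lg P (unr P K m) ↔ σ ∈ lg P K ∧ σ ζ = ζ := by
  have hn := Unram_pos P K hm
  unfold unr
  rw [lg_sup, Subgroup.mem_inf, IntermediateField.mem_fixingSubgroup_iff]
  refine and_congr Iff.rfl ⟨fun h => ?_, fun h => ?_⟩
  · exact h ζ (IntermediateField.subset_adjoin _ _ ((Unram_mem_roots_iff P K hm ζ).2 hζ.pow_eq_one))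
  · apply Unram_fixes_adjoin
    intro x hx
    rw [Unram_mem_roots_iff P K hm] at hx
    have : NeZero (rq P K ^ m - 1) := ⟨hn.ne'⟩
    obtain ⟨i, -, rfl⟩ := hζ.eq_pow_of_pow_eq_one hx
    rw [map_pow, h]

/-- Inertia fixes the roots of unity of order prime to `ℓ` (`eq_of_v_sub_lt_one`). -/
theorem li_le_unr (m : ℕ) : li P K ≤ lg P (unr P K m) := by
  intro σ hσ
  have hσ' := (mem_li_iff P K σ).1 hσ
  unfold unr
  rw [lg_sup, Subgroup.mem_inf, IntermediateField.mem_fixingSubgroup_iff]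
  refine ⟨li_le_lg P K hσ, ?_⟩
  apply Unram_fixes_adjoin
  intro x hx
  rcases Nat.eq_zero_or_pos m with rfl | hm
  · simp at hx
  rw [Unram_mem_roots_iff P K hm] at hx
  have hn := Unram_pos P K hm
  apply eq_of_v_sub_lt_one P (Unram_not_dvd P K hm) _ hx
  · exact ((mem_ine_iff P σ).1 hσ'.1).2 x (Unram_mem_A P (Unram_v_eq_one P hn hx).le)
  · rw [← map_pow, hx, map_one]

theorem li_unr (m : ℕ) : li P (unr P K m) = li P K := by
  apply le_antisymm (li_anti P (le_unr P K m))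
  intro σ hσ
  rw [mem_li_iff]
  exact ⟨((mem_li_iff P K σ).1 hσ).1, ((mem_lg_iff P _ σ).1 (li_le_unr P K m hσ)).2⟩

theorem Unram_pow_mem_iff {m : ℕ} (hm : 0 < m) {φ : GQ} (hφ : φ ∈ lg P K)
    (hF : IsFrob P (rq P K) φ) (j : ℕ) : φ ^ j ∈ lg P (unr P K m) ↔ m ∣ j := by
  have hn := Unram_pos P K hm
  obtain ⟨ζ, hζ⟩ := Unram_exists_prim hn
  rw [mem_lg_unr_iff P K hm hζ, Unram_frob_zeta P K hm hζ.pow_eq_one hF j]
  have h1 : ζ ^ (rq P K ^ j) = ζ ↔ ζ ^ (rq P K ^ j) = ζ ^ 1 := by rw [pow_one]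
  rw [h1, Unram_pow_eq_pow_iff hn hζ, Unram_pow_modEq_one_iff (one_lt_rq P K) hm]
  exact ⟨fun h => h.2, fun h => ⟨(lg P K).pow_mem hφ j, h⟩⟩

/-- `lg P K / lg P (unr P K m)` is cyclic of order `m`, generated by Frobenius.
Proof: normal since `unr` is generated over `K` by roots of unity; `gen` from `frob_gen` with
`N = unr P K m` and `li_le_unr`; `φ^j ζ = ζ^(q^j)` by `eq_of_v_sub_lt_one`, and
`q^j ≡ 1 mod q^m - 1 ↔ m ∣ j`. -/
theorem isCyc_unr {m : ℕ} (hm : 0 < m) {φ : GQ} (hφ : φ ∈ lg P K) (hF : IsFrob P (rq P K) φ) :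
    IsCyc m (lg P K) (lg P (unr P K m)) φ := by
  have hn := Unram_pos P K hm
  obtain ⟨ζ, hζ⟩ := Unram_exists_prim hn
  have : NeZero (rq P K ^ m - 1) := ⟨hn.ne'⟩
  refine ⟨isOpenIn_lg P (le_unr P K m), ?_, hφ, ?_, Unram_pow_mem_iff P K hm hφ hF⟩
  · intro g hg h hh
    rw [mem_lg_unr_iff P K hm hζ] at hh ⊢
    refine ⟨(lg P K).mul_mem ((lg P K).mul_mem hg hh.1) ((lg P K).inv_mem hg), ?_⟩
    have h1 : (g⁻¹ ζ) ^ (rq P K ^ m - 1) = 1 := by rw [← map_pow, hζ.pow_eq_one, map_one]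
    obtain ⟨i, -, hi⟩ := hζ.eq_pow_of_pow_eq_one h1
    rw [AlgEquiv.mul_apply, AlgEquiv.mul_apply, ← hi, map_pow, hh.2, hi]
    exact AlgEquiv.apply_symm_apply g ζ
  · intro g hg
    obtain ⟨j, τ, hτ, u, hu, rfl⟩ := frob_gen P K hφ hF (unr P K m) hg
    refine ⟨j % m, Nat.mod_lt _ hm, ?_⟩
    have h1 : (φ ^ (j % m))⁻¹ * (φ ^ j * τ * u) = φ ^ (m * (j / m)) * τ * u := by
      conv_lhs => rw [← Nat.mod_add_div j m, pow_add]
      simp only [Nat.mod_add_div]
      group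
    rw [h1]
    refine (lg P _).mul_mem ((lg P _).mul_mem ?_ (li_le_unr P K m hτ)) (lg_anti P le_sup_right hu)
    exact (Unram_pow_mem_iff P K hm hφ hF _).2 (dvd_mul_right _ _)

/-- Uniqueness of the unramified subgroup of index `p`.  Proof: choose `N ⊇ unr P K p` with
`lg P K ⊓ N.fixingSubgroup ≤ E₁`; write `g = φ^j τ u` (`frob_gen`); `τ, u` lie in both subgroups;
`φ ∉ E₁` (otherwise `E₁ = lg P K`), so `φ^j ∈ E₁ ↔ p ∣ j ↔ φ^j ∈ lg P (unr P K p)`. -/
theorem eq_unr_of_li_le {p : ℕ} (hp : p.Prime) {E₁ : Subgroup GQ} {σ : GQ}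
    (h : IsCyc p (lg P K) E₁ σ) (hli : li P K ≤ E₁) : E₁ = lg P (unr P K p) := by
  obtain ⟨φ, hφ, hF⟩ := exists_frob P K
  obtain ⟨hle, N, hN, hNE⟩ := h.isOpenIn
  have hC := isCyc_unr P K hp.pos hφ hF
  -- decomposition of an arbitrary element
  have hdec : ∀ g ∈ lg P K, ∃ j : ℕ, ∃ t : GQ, t ∈ E₁ ∧ t ∈ lg P (unr P K p) ∧ g = φ ^ j * t := by
    intro g hg
    obtain ⟨j, τ, hτ, u, hu, rfl⟩ := frob_gen P K hφ hF (N ⊔ unr P K p) hg
    refine ⟨j, τ * u, E₁.mul_mem (hli hτ) ?_, (lg P _).mul_mem (li_le_unr P K p hτ) ?_,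
      by rw [mul_assoc]⟩
    · apply hNE
      rw [lg_sup] at hu
      exact ⟨hu.1, IntermediateField.fixingSubgroup_antitone le_sup_left hu.2⟩
    · exact lg_anti P (le_sup_right.trans le_sup_right) hu
  have hφE : φ ∉ E₁ := by
    intro hφE
    have h1 : σ ∈ E₁ := by
      obtain ⟨j, t, ht, -, hg⟩ := hdec σ h.mem
      rw [hg]
      exact E₁.mul_mem (E₁.pow_mem hφE j) ht
    have h2 := (h.pow_mem_iff 1).1 (by rwa [pow_one])
    exact hp.one_lt.ne' (Nat.dvd_one.1 h2)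
  have hC' := h.of_not_mem hp hφ hφE
  ext g
  constructor
  · intro hg
    obtain ⟨j, t, ht, ht', rfl⟩ := hdec g (hle hg)
    have h1 : φ ^ j ∈ E₁ := by
      have := E₁.mul_mem hg (E₁.inv_mem ht)
      rwa [mul_inv_cancel_right] at this
    exact (lg P _).mul_mem ((hC.pow_mem_iff j).2 ((hC'.pow_mem_iff j).1 h1)) ht'
  · intro hg
    obtain ⟨j, t, ht, ht', rfl⟩ := hdec g (hC.le hg)
    have h1 : φ ^ j ∈ lg P (unr P K p) := by
      have := (lg P (unr P K p)).mul_mem hg ((lg P (unr P K p)).inv_mem ht')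
      rwa [mul_inv_cancel_right] at this
    exact E₁.mul_mem ((hC'.pow_mem_iff j).2 ((hC.pow_mem_iff j).1 h1)) ht

/-- The residue field of `unr P K m` has `q ^ m` elements.  Proof: `≥`: the `q^m - 1` roots of unity
are distinct mod `𝔪` and, with `0`, satisfy..; `≤`: `φ^m` fixes `unr P K m` and acts as
`x ↦ x^(q^m)`, then `rq_le_of_forall`.  (`rq` is a power of `ℓ`, or count classes.) -/
theorem rq_unr {m : ℕ} (hm : 0 < m) : rq P (unr P K m) = rq P K ^ m := by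
  obtain ⟨φ, hφ, hF⟩ := exists_frob P K
  have hq := one_lt_rq P K
  have hqm : 1 < rq P K ^ m := Nat.one_lt_pow hm.ne' hq
  have hn := Unram_pos P K hm
  apply le_antisymm
  · apply rq_le_of_forall P (unr P K m) hqm
    intro a
    have h1 : φ ^ m ∈ lg P (unr P K m) := (Unram_pow_mem_iff P K hm hφ hF m).2 dvd_rfl
    have h2 : (φ ^ m) (((a : unr P K m) : Qb)) = ((a : unr P K m) : Qb) :=
      ((mem_lg_iff P _ _).1 h1).2 _ (a : unr P K m).2
    have h3 : P.v (((a : unr P K m) : Qb)) ≤ 1 := by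
      apply v_le_one_of_isIntegral
      exact map_isIntegral_int (algebraMap (unr P K m) Qb) (RingOfIntegers.isIntegral_coe a)
    have h4 := (hF.pow m).2 _ (Unram_mem_A P h3)
    rw [h2, Valuation.map_sub_swap] at h4
    exact h4
  · obtain ⟨ζ, hζ⟩ := Unram_exists_prim hn
    have hζu : ζ ∈ lf P (unr P K m) := le_lf P _ (Unram_zeta_mem P K hm hζ.pow_eq_one)
    have h1 := v_pow_rq_sub P (unr P K m) hζu (Unram_v_eq_one P hn hζ.pow_eq_one).le
    have h2 : ζ ^ rq P (unr P K m) = ζ := by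
      apply eq_of_v_sub_lt_one P (Unram_not_dvd P K hm) _ hζ.pow_eq_one h1
      rw [← pow_mul, mul_comm, pow_mul, hζ.pow_eq_one, one_pow]
    have h3 : ζ ^ rq P (unr P K m) = ζ ^ 1 := by rw [pow_one, h2]
    rw [Unram_pow_eq_pow_iff hn hζ] at h3
    have h4 := one_lt_rq P (unr P K m)
    have h5 : rq P K ^ m - 1 ∣ rq P (unr P K m) - 1 := (Nat.modEq_iff_dvd' h4.le).1 h3.symm
    have h6 := Nat.le_of_dvd (by omega) h5
    omega

theorem unr_unr {m n : ℕ} (hm : 0 < m) (hn : 0 < n) :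
    unr P (unr P K m) n = unr P K (m * n) := by
  have hmn : 0 < m * n := Nat.mul_pos hm hn
  have e : unr P (unr P K m) n = unr P K m ⊔ IntermediateField.adjoin ℚ
    ((Polynomial.nthRootsFinset (rq P K ^ (m * n) - 1) (1 : Qb) : Finset Qb) : Set Qb) := by
    have h1 : unr P (unr P K m) n = unr P K m ⊔ IntermediateField.adjoin ℚ
      ((Polynomial.nthRootsFinset (rq P (unr P K m) ^ n - 1) (1 : Qb) : Finset Qb) : Set Qb) := rfl
    rw [h1, rq_unr P K hm, ← pow_mul]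
  rw [e]
  unfold unr
  rw [sup_assoc]
  congr 1
  rw [sup_eq_right]
  apply IntermediateField.adjoin.mono
  intro x hx
  rw [Unram_mem_roots_iff P K hm] at hx
  rw [Unram_mem_roots_iff P K hmn]
  have hd : rq P K ^ m - 1 ∣ rq P K ^ (m * n) - 1 :=
    Nat.pow_sub_one_dvd_pow_sub_one _ (dvd_mul_right m n)
  obtain ⟨c, hc⟩ := hd
  rw [hc, pow_mul, hx, one_pow]

omit [FiniteDimensional ℚ K] in
theorem Unram_le_of_lt_one {π : Qb} (hπ : IsUnif P K π) {x : Qb} (hx : x ∈ lf P K)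
    (hx1 : P.v x < 1) : P.v x ≤ P.v π := by
  rcases eq_or_ne x 0 with rfl | hx0
  · simp
  obtain ⟨n, hn⟩ := hπ.2.2 x hx hx0
  rw [hn] at hx1 ⊢
  have h1 : ¬ (n ≤ 0) := by
    intro h
    have := (v_zpow_le_iff P hπ.ne_zero hπ.2.1 (a := 0) (b := n)).2 h
    rw [zpow_zero] at this
    exact absurd hx1 (not_lt.2 this)
  have := (v_zpow_le_iff P hπ.ne_zero hπ.2.1 (a := n) (b := 1)).2 (by omega)
  rwa [zpow_one] at this

theorem Unram_det_mem {n : ℕ} (M : Matrix (Fin n) (Fin n) Qb) (h : ∀ i j, M i j ∈ P.A) :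
    M.det ∈ P.A := by
  rw [Matrix.det_apply']
  exact sum_mem fun σ _ => mul_mem (intCast_mem _ _) (prod_mem fun i _ => h _ _)

theorem Unram_adj_mem {n : ℕ} (M : Matrix (Fin n) (Fin n) Qb) (h : ∀ i j, M i j ∈ P.A)
    (i j : Fin n) : M.adjugate i j ∈ P.A := by
  rw [Matrix.adjugate_apply]
  apply Unram_det_mem
  intro a b
  rw [Matrix.updateRow_apply]
  split_ifs
  · rw [Pi.single_apply]
    split_ifs
    · exact one_mem _
    · exact zero_mem _
  · exact h a b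

theorem Unram_core {m : ℕ} (hm : 0 < m) {π : Qb} (hπ : IsUnif P K π) {y : Qb}
    (hy : y ∈ lf P (unr P K m)) (hy1 : P.v y < 1) : P.v y ≤ P.v π := by
  obtain ⟨φ, hφ, hF⟩ := exists_frob P K
  have hn := Unram_pos P K hm
  obtain ⟨ζ, hζ⟩ := Unram_exists_prim hn
  have hC := isCyc_unr P K hm hφ hF
  have hq := one_lt_rq P K
  let z : Fin m → Qb := fun j => ζ ^ (rq P K ^ (j : ℕ))
  let w : Fin m → Qb := fun j => (φ ^ (j : ℕ)) y
  let V := Matrix.vandermonde z
  let t : Fin m → Qb := Matrix.vecMul w V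
  have hz1 : ∀ j, z j ^ (rq P K ^ m - 1) = 1 := by
    intro j
    simp only [z]
    rw [← pow_mul, mul_comm, pow_mul, hζ.pow_eq_one, one_pow]
  have hzv : ∀ j, P.v (z j) = 1 := fun j => Unram_v_eq_one P hn (hz1 j)
  have ht : ∀ i, t i = ∑ j ∈ Finset.range m, (φ ^ j) (y * ζ ^ (i : ℕ)) := by
    intro i
    rw [← Fin.sum_univ_eq_sum_range (fun j => (φ ^ j) (y * ζ ^ (i : ℕ))) m]
    simp only [t, Matrix.vecMul, dotProduct, V, Matrix.vandermonde_apply, w, z]
    refine Finset.sum_congr rfl fun j _ => ?_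
    rw [map_mul, map_pow, Unram_frob_zeta P K hm hζ.pow_eq_one hF]
  have htv : ∀ i, P.v (t i) ≤ P.v π := by
    intro i
    apply Unram_le_of_lt_one P K hπ
    · rw [ht]
      exact hC.cycTrace_mem
        (mul_mem hy (pow_mem (le_lf P _ (Unram_zeta_mem P K hm hζ.pow_eq_one)) _))
    · rw [ht]
      apply Valuation.map_sum_lt _ one_ne_zero
      intro j _
      rw [v_map P (P.dec.pow_mem (lg_le_dec P K hφ) j), map_mul, map_pow,
        Unram_v_eq_one P hn hζ.pow_eq_one, one_pow, mul_one]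
      exact hy1
  have hdet : P.v V.det = 1 := by
    simp only [V]
    rw [Matrix.det_vandermonde, map_prod]
    refine Finset.prod_eq_one fun i _ => ?_
    rw [map_prod]
    refine Finset.prod_eq_one fun j hj => ?_
    have hij : i < j := Finset.mem_Ioi.1 hj
    apply le_antisymm
    · exact Valuation.map_sub_le _ (hzv j).le (hzv i).le
    · by_contra hlt
      rw [not_le] at hlt
      have h1 := eq_of_v_sub_lt_one P (Unram_not_dvd P K hm) (hz1 j) (hz1 i) hlt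
      simp only [z] at h1
      rw [Unram_pow_eq_pow_iff hn hζ] at h1
      have h2 := Unram_pow_inj hq j.2 i.2 h1
      have h3 : (i : ℕ) < j := hij
      omega
  have hkey : Matrix.vecMul t V.adjugate = V.det • w := by
    simp only [t]
    rw [Matrix.vecMul_vecMul, Matrix.mul_adjugate, Matrix.vecMul_smul, Matrix.vecMul_one]
  have h0 := congrFun hkey ⟨0, hm⟩
  have h1 : (V.det • w) ⟨0, hm⟩ = V.det * y := by
    simp [w]
  rw [h1] at h0
  have h2 : P.v (V.det * y) = P.v y := by rw [map_mul, hdet, one_mul]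
  rw [← h2, ← h0]
  simp only [Matrix.vecMul, dotProduct]
  apply Valuation.map_sum_le
  intro i _
  rw [map_mul]
  have h3 : P.v (V.adjugate i ⟨0, hm⟩) ≤ 1 := by
    rw [P.A.valuation_le_one_iff]
    apply Unram_adj_mem
    intro a b
    simp only [V, Matrix.vandermonde_apply]
    exact pow_mem (Unram_mem_A P (hzv a).le) _
  calc P.v (t i) * P.v (V.adjugate i ⟨0, hm⟩) ≤ P.v π * 1 := mul_le_mul' (htv i) h3
    _ = P.v π := mul_one _

/-- A uniformizer stays a uniformizer in an unramified extension.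
Proof: let `y ∈ lf P (unr P K m)`, after scaling by a power of `π` assume `v π < v y ≤ 1`; we must
show `v y = 1`.  If `v y < 1` then the traces `t_i = ∑_j φ^j (y ζ^i) ∈ lf P K` (`cycTrace_mem`) have
`v t_i < 1`, hence `v t_i ≤ v π`.  The matrix `(ζ^(i q^j))_{i,j<m}` is a Vandermonde matrix with
nodes `ζ^(q^j)`, pairwise distinct mod `𝔪`, so its determinant is a unit of `P.A`, and
`det • y = ∑_i adj_{0 i} t_i` gives `v y ≤ v π`. -/
theorem isUnif_unr {m : ℕ} (hm : 0 < m) {π : Qb} (hπ : IsUnif P K π) :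
    IsUnif P (unr P K m) π := by
  have hπu : π ∈ lf P (unr P K m) := lf_mono P (le_unr P K m) hπ.1
  refine ⟨hπu, hπ.2.1, ?_⟩
  intro y hy hy0
  obtain ⟨φ, hφ, hF⟩ := exists_frob P K
  have hC := isCyc_unr P K hm hφ hF
  have hπ0 := hπ.ne_zero
  have ha0 : P.v π ≠ 0 := (Valuation.ne_zero_iff _).2 hπ0
  obtain ⟨n, hn⟩ := hπ.2.2 _ (hC.cycNorm_mem hy) (cycNorm_ne_zero φ m hy0)
  rw [v_cycNorm P (lg_le_dec P K hφ) m y] at hn
  have hm' : (0 : ℤ) < (m : ℤ) := by exact_mod_cast hm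
  have hr0 := Int.emod_nonneg n hm'.ne'
  have hr1 := Int.emod_lt_of_pos n hm'
  have hdiv := Int.emod_add_mul_ediv n m
  refine ⟨n / m, ?_⟩
  have hy' : y * (π ^ (n / m))⁻¹ ∈ lf P (unr P K m) := mul_mem hy (inv_mem (zpow_mem hπu _))
  have hv : P.v (y * (π ^ (n / m))⁻¹) = P.v y * (P.v π ^ (n / m))⁻¹ := by
    rw [map_mul, map_inv₀, map_zpow₀]
  have hpow : P.v (y * (π ^ (n / m))⁻¹) ^ m = P.v π ^ (n % m) := by
    rw [hv, mul_pow, hn, inv_pow, ← zpow_natCast (P.v π ^ (n / m)) m, ← zpow_mul, ← zpow_neg,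
      ← zpow_add₀ ha0]
    congr 1
    rw [mul_comm (n / (m : ℤ))]
    omega
  have hone : P.v (y * (π ^ (n / m))⁻¹) = 1 := by
    rcases eq_or_lt_of_le hr0 with h0 | h0
    · rw [← h0, zpow_zero] at hpow
      exact (pow_eq_one_iff_of_nonneg zero_le hm.ne').1 hpow
    · exfalso
      have h1 : P.v π ^ (n % m) < 1 := by
        by_contra hcon
        rw [not_lt] at hcon
        have := (v_zpow_le_iff P hπ0 hπ.2.1 (a := 0) (b := n % m)).1 (by rwa [zpow_zero])
        omega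
      have h2 : P.v (y * (π ^ (n / m))⁻¹) < 1 := by
        by_contra hcon
        rw [not_lt] at hcon
        have := one_le_pow_of_one_le' hcon m
        rw [hpow] at this
        exact absurd h1 (not_lt.2 this)
      have h3 := Unram_core P K hm hπ hy' h2
      have h4 : P.v π ^ (n % m) ≤ P.v π ^ ((m : ℕ) : ℤ) := by
        rw [← hpow, zpow_natCast]
        exact pow_le_pow_left' h3 m
      have := (v_zpow_le_iff P hπ0 hπ.2.1).1 h4
      omega
  rw [hv] at hone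
  have hne : P.v π ^ (n / m) ≠ 0 := zpow_ne_zero _ ha0
  field_simp at hone
  exact hone

/-- Norms from the unramified extension of degree `m` have valuation in `v π ^ (m ℤ)`. -/
theorem v_norm_unr {m : ℕ} (hm : 0 < m) {φ : GQ} (hφ : φ ∈ lg P K) {π : Qb} (hπ : IsUnif P K π)
    {y : Qb} (hy : y ∈ lf P (unr P K m)) (hy0 : y ≠ 0) :
    ∃ n : ℤ, P.v (cycNorm φ m y) = P.v π ^ (m * n) := by
  obtain ⟨n, hn⟩ := (isUnif_unr P K hm hπ).2.2 y hy hy0
  refine ⟨n, ?_⟩
  rw [v_cycNorm P (lg_le_dec P K hφ) m y, hn, ← zpow_natCast, ← zpow_mul, mul_comm]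

end Fermat.Agent.PT.Local
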