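import Fermat.Agent.PT.Local.LocalCard

/-!
# S55, block L: corestriction is bijective on `H²(·, μ_p)` of local fields (contract form)
-/

set_option autoImplicit false

namespace Fermat.Agent.PT.Local

open IntermediateField Fermat.Agent.PT

/-- relatively open subgroups in the language of levels -/
theorem isOpenIn_of_level {E E' : Subgroup GQ} (hle : E' ≤ E) (hop : ∃ U ∈ Lall, E ⊓ U ≤ E') :
    IsOpenIn E' E := by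
  obtain ⟨U, ⟨-, N, hN, rfl⟩, hU⟩ := hop
  exact ⟨hle, N, hN, hU⟩

/-- Every relatively open subgroup of `V ⊓ Dec 𝒜` is a local group `V' ⊓ Dec 𝒜`, `V' ≤ V` open. -/
theorem exists_isOpen_inf_Dec {𝒜 : Place} (h𝒜 : 𝒜.IsFin) {V : Subgroup GQ} (hV : Lall.IsOpen V)
    {E' : Subgroup GQ} (hle : E' ≤ V ⊓ Dec 𝒜) (hop : ∃ U ∈ Lall, (V ⊓ Dec 𝒜) ⊓ U ≤ E') :
    ∃ V' : Subgroup GQ, Lall.IsOpen V' ∧ V' ≤ V ∧ V' ⊓ Dec 𝒜 = E' := by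
  obtain ⟨K, hK, rfl, hE⟩ := exists_lg_of_isOpen hV 𝒜 h𝒜
  rw [hE] at hle hop
  obtain ⟨K', hK', hKK', rfl⟩ := exists_lg_eq (plcOf 𝒜 h𝒜) K (isOpenIn_of_level hle hop)
  exact ⟨K'.fixingSubgroup, isOpen_fixingSubgroup K', IntermediateField.fixingSubgroup_antitone hKK',
    fixingSubgroup_inf_Dec 𝒜 h𝒜 K'⟩

/-- **Corestriction `H²(k'_𝒜, μ_p) → H²(k_𝒜, μ_p)` is bijective.** -/
theorem localCores_bijective (p : ℕ) [Fact p.Prime] {𝒜 : Place} (h𝒜 : 𝒜.IsFin)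
    {V : Subgroup GQ} (hV : Lall.IsOpen V) {E' : Subgroup GQ} (hle : E' ≤ V ⊓ Dec 𝒜)
    (hop : ∃ U ∈ Lall, (V ⊓ Dec 𝒜) ⊓ U ≤ E') [hfin : Finite (CosetsIn (V ⊓ Dec 𝒜) E')] :
    Function.Bijective (coresC Lall (cycRep p) (V ⊓ Dec 𝒜) E').H2 := by
  obtain ⟨K, hK, -, hE⟩ := exists_lg_of_isOpen hV 𝒜 h𝒜
  revert hfin
  rw [hE] at hle hop ⊢
  intro hfin
  obtain ⟨K', hK', hKK', rfl⟩ := exists_lg_eq (plcOf 𝒜 h𝒜) K (isOpenIn_of_level hle hop)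
  have h := cor_bijective (locSymQ p) (plcOf 𝒜 h𝒜) hKK'
  have e : (locSymQ p).cor (lg_anti (plcOf 𝒜 h𝒜) hKK') =
      (coresC Lall (cycRep p) (lg (plcOf 𝒜 h𝒜) K) (lg (plcOf 𝒜 h𝒜) K')).H2 := by
    change corQ p _ _ = _
    rw [corQ, dif_pos hfin]
  rw [e] at h
  exact h

/-- Restriction to an index `p` normal subgroup kills `H²(k_𝒜, μ_p)`. -/
theorem localRes_eq_zero (p : ℕ) [Fact p.Prime] {𝒜 : Place} (h𝒜 : 𝒜.IsFin)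
    {V : Subgroup GQ} (hV : Lall.IsOpen V) {E' : Subgroup GQ} {σ : GQ}
    (h : IsCyc p (V ⊓ Dec 𝒜) E' σ) (y : H2 Lall (V ⊓ Dec 𝒜) (cycRep p)) :
    (resC Lall (cycRep p) h.le).H2 y = 0 := by
  obtain ⟨K, hK, -, hE⟩ := exists_lg_of_isOpen hV 𝒜 h𝒜
  revert h y
  rw [hE]
  intro h y
  obtain ⟨K', hK', hKK', rfl⟩ := exists_lg_eq (plcOf 𝒜 h𝒜) K h.isOpenIn
  exact res_eq_zero_of_isCyc (S := locSymQ p) hKK' h y

end Fermat.Agent.PT.Local
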