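import Fermat.Agent.PT.Local.Tower

/-!
# S55, block L: `H²(k, μ_p)` is a line and corestriction is bijective (abstract form)
-/

set_option autoImplicit false

namespace Fermat.Agent.PT.Local

open IntermediateField

variable {p : ℕ} [Fact p.Prime] {S : LocSym p} {P : Plc}

theorem Main_isGalois_conv (N : Fld) (inst inst' : Algebra ℚ N) (h : @IsGalois ℚ _ N _ inst) :
    @IsGalois ℚ _ N _ inst' := by
  have : inst = inst' := Subsingleton.elim _ _
  rw [← this]; exact h

/-- For a finite Galois extension `N/ℚ` the subgroup `lg P (K ⊔ N)` is normal in `lg P K`. -/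
theorem lg_sup_normal (K N : Fld) [IsGalois ℚ N] {g h : GQ} (hg : g ∈ lg P K)
    (hh : h ∈ lg P (K ⊔ N)) : g * h * g⁻¹ ∈ lg P (K ⊔ N) := by
  rw [lg_sup] at hh ⊢
  have hn : N.fixingSubgroup.Normal :=
    @IsGalois.fixingSubgroup_normal_of_isGalois ℚ Qb _ _ _ N _
      (Main_isGalois_conv N _ _ inferInstance)
  exact ⟨(lg P K).mul_mem ((lg P K).mul_mem hg hh.1) ((lg P K).inv_mem hg),
    hn.conj_mem h hh.2 g⟩

/-- Every number field is contained in a finite Galois extension of `ℚ`. -/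
theorem exists_galois_ge (N : Fld) [FiniteDimensional ℚ N] :
    ∃ N' : Fld, FiniteDimensional ℚ N' ∧ IsGalois ℚ N' ∧ N ≤ N' := by
  refine ⟨@IntermediateField.normalClosure ℚ N Qb _ _ _ N.algebra' _, ?_, ?_,
    N.le_normalClosure⟩
  · exact normalClosure.is_finiteDimensional ℚ N Qb
  · apply Main_isGalois_conv _ (IntermediateField.algebra' _)
    have : Normal ℚ (@IntermediateField.normalClosure ℚ N Qb _ _ _ N.algebra' _) :=
      normalClosure.normal ℚ N Qb
    exact ⟨⟩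

theorem Main_fixingSubgroup_adjoin {ζ : Qb} (hζ : IsPrimitiveRoot ζ p) :
    (IntermediateField.adjoin ℚ {ζ}).fixingSubgroup = (hζ.autToPow ℚ).ker := by
  have hp : p.Prime := Fact.out
  ext g
  rw [MonoidHom.mem_ker, IntermediateField.mem_fixingSubgroup_iff]
  constructor
  · intro h
    have h1 : g ζ = ζ := h ζ (IntermediateField.mem_adjoin_simple_self ℚ ζ)
    have h2 := hζ.autToPow_spec ℚ g
    rw [h1] at h2
    have h3 : ζ ^ ((hζ.autToPow ℚ g : ZMod p)).val = ζ ^ 1 := by rw [h2, pow_one]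
    have h4 := hζ.pow_inj (ZMod.val_lt _) hp.one_lt h3
    apply Units.ext
    rw [Units.val_one, ← ZMod.natCast_zmod_val ((hζ.autToPow ℚ g : ZMod p)), h4, Nat.cast_one]
  · intro h x hx
    have h1 : g ζ = ζ := by
      have h2 := hζ.autToPow_spec ℚ g
      have : Fact (1 < p) := ⟨hp.one_lt⟩
      rw [h, Units.val_one, ZMod.val_one, pow_one] at h2
      exact h2.symm
    have hle : IntermediateField.adjoin ℚ {ζ} ≤ IntermediateField.fixedField (Subgroup.zpowers g) := by
      rw [IntermediateField.adjoin_simple_le_iff, IntermediateField.mem_fixedField_iff]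
      intro k hk
      obtain ⟨n, rfl⟩ := Subgroup.mem_zpowers_iff.mp hk
      have hfix : g ∈ MulAction.stabilizer GQ ζ := h1
      exact (MulAction.stabilizer GQ ζ).zpow_mem hfix n
    exact (IntermediateField.mem_fixedField_iff _ _).mp (hle hx) g (Subgroup.mem_zpowers g)

/-- Adjoining `μ_p` has index prime to `p` (the index divides `p - 1`: `lg P K` acts on `⟨ζ⟩` with
kernel `lg P (K ⊔ ℚ(ζ))`). -/
theorem not_dvd_relIndex_zeta (K : Fld) {ζ : Qb} (hζ : IsPrimitiveRoot ζ p) :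
    ¬ p ∣ (lg P (K ⊔ IntermediateField.adjoin ℚ {ζ})).relIndex (lg P K) := by
  have hp : p.Prime := Fact.out
  rw [lg_sup, Subgroup.inf_relIndex_left, Main_fixingSubgroup_adjoin hζ, Subgroup.relIndex_ker]
  intro h
  have h1 : Nat.card ((lg P K).map (hζ.autToPow ℚ)) ∣ Nat.card (ZMod p)ˣ :=
    Subgroup.card_subgroup_dvd_card _
  rw [Nat.card_eq_fintype_card (α := (ZMod p)ˣ), ZMod.card_units] at h1
  have h2 := Nat.le_of_dvd (Nat.sub_pos_of_lt hp.one_lt) (h.trans h1)
  have := hp.pos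
  omega

theorem Main_smul_of_index {M : Type*} [AddCommGroup M] [Module (ZMod p) M] {n : ℕ}
    (hn : ¬ p ∣ n) {x y : M} {a : ZMod p} (h : (n : ZMod p) • y = a • x) :
    ∃ c : ZMod p, y = c • x := by
  have hn0 : (n : ZMod p) ≠ 0 := fun h0 => hn ((ZMod.natCast_eq_zero_iff n p).mp h0)
  refine ⟨(n : ZMod p)⁻¹ * a, ?_⟩
  rw [mul_smul, ← h, smul_smul, inv_mul_cancel₀ hn0, one_smul]

/-- Corestriction from a normal level.  Proof: `exists_sylow_pchain` for `W = lg P (K ⊔ N)` in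
`V = lg P K`; `V₀ = lg P K₀` (`exists_lg_eq`); `PChain.cor_isFund`, `IsFund.cor_prime`,
`cor_cor`. -/
theorem cor_isFund_galois (K : Fld) [FiniteDimensional ℚ K] (N : Fld) [FiniteDimensional ℚ N]
    [IsGalois ℚ N] {x' : S.H (lg P (K ⊔ N))} (hx' : IsFund S P (lg P (K ⊔ N)) x') :
    IsFund S P (lg P K) (S.cor (lg_anti P le_sup_left) x') := by
  have : FiniteDimensional ℚ (K ⊔ N : Fld) := IntermediateField.finiteDimensional_sup K N
  have hopen : IsOpenIn (lg P (K ⊔ N)) (lg P K) := isOpenIn_lg P le_sup_left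
  obtain ⟨V₀, hW, hV, hidx, hch⟩ := exists_sylow_pchain (p := p) hopen
    (fun g hg h hh => lg_sup_normal K N hg hh)
  obtain ⟨K₀, hK₀, hle, hEq⟩ := exists_lg_eq P K (hopen.of_le hW hV).2
  subst hEq
  have h1 := PChain.cor_isFund hch hx'
  have h2 := IsFund.cor_prime hle hidx h1
  rw [S.cor_cor _ _ hopen] at h2
  exact h2

theorem Main_cor_isFund_galois' (K : Fld) [FiniteDimensional ℚ K] (N : Fld)
    [FiniteDimensional ℚ N] [IsGalois ℚ N] (hKN : K ≤ N) {x' : S.H (lg P N)}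
    (hx' : IsFund S P (lg P N) x') : IsFund S P (lg P K) (S.cor (lg_anti P hKN) x') := by
  obtain ⟨M, hM⟩ : ∃ M : Fld, M = K ⊔ N := ⟨_, rfl⟩
  have hMN : N = M := by rw [hM, sup_eq_right.mpr hKN]
  have key : ∀ (N₁ : Fld) (h1 : N₁ = K ⊔ N) (hK1 : K ≤ N₁) {z : S.H (lg P N₁)},
      IsFund S P (lg P N₁) z → IsFund S P (lg P K) (S.cor (lg_anti P hK1) z) := by
    intro N₁ h1 hK1 z hz
    subst h1
    exact cor_isFund_galois K N hz
  exact key N (hMN.trans hM) hKN hx'

/-- **Corestriction maps fundamental classes to fundamental classes** (any `K ≤ K'`).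
Proof: `N/ℚ` finite Galois containing `K'`; `K ⊔ N = N = K' ⊔ N`.  Let `w` be fundamental for
`lg P N`.  `cor^N_{K'} w` is fundamental, so `x' = c • cor^N_{K'} w`; then
`cor x' = c • cor^N_K w` (`cor_cor`), fundamental. -/
theorem cor_isFund {K K' : Fld} [FiniteDimensional ℚ K] [FiniteDimensional ℚ K'] (hK : K ≤ K')
    {x' : S.H (lg P K')} (hx' : IsFund S P (lg P K') x') :
    IsFund S P (lg P K) (S.cor (lg_anti P hK) x') := by
  obtain ⟨N, hN, hG, hle⟩ := exists_galois_ge K'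
  obtain ⟨w, hw⟩ := exists_isFund (S := S) (P := P) (K := N)
  have h1 := Main_cor_isFund_galois' K' N hle hw
  obtain ⟨c, hc, hxc⟩ := h1.exists_smul hx'
  have h2 := Main_cor_isFund_galois' K N (hK.trans hle) hw
  rw [hxc, map_smul, S.cor_cor _ _ (isOpenIn_lg P (hK.trans hle))]
  exact h2.smul hc

/-- `H²` is spanned by a fundamental class, case `μ_p ⊆ K`.  Proof: `y` dies on
`lg P K ⊓ N.fixingSubgroup` (`die`), enlarge `N` to a Galois extension; `exists_sylow_pchain`,
`V₀ = lg P K₀`; `res_{V₀} y = a • x₀` (`PChain.span`), so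
`[V : V₀] • y = cor (res y) = a • cor x₀ = a c • x` (`cor_res`, `IsFund.cor_prime`,
`IsFund.exists_smul`), and `[V : V₀]` is invertible in `ZMod p`. -/
theorem span_of_zeta {K : Fld} [FiniteDimensional ℚ K] {ζ : Qb} (hζ : IsPrimitiveRoot ζ p)
    (hζK : ζ ∈ K) {x : S.H (lg P K)} (hx : IsFund S P (lg P K) x) (y : S.H (lg P K)) :
    ∃ c : ZMod p, y = c • x := by
  obtain ⟨N₀, hN₀, hdie⟩ := S.die y
  obtain ⟨N, hN, hG, hle⟩ := exists_galois_ge N₀
  have : FiniteDimensional ℚ (K ⊔ N : Fld) := IntermediateField.finiteDimensional_sup K N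
  have hopen : IsOpenIn (lg P (K ⊔ N)) (lg P K) := isOpenIn_lg P le_sup_left
  have hWle : lg P (K ⊔ N) ≤ lg P K ⊓ N₀.fixingSubgroup := by
    rw [lg_sup]
    exact inf_le_inf_left _ (IntermediateField.fixingSubgroup_antitone hle)
  have hyW : S.res hopen.1 y = 0 := S.res_eq_zero_of_le inf_le_left hWle hdie
  obtain ⟨V₀, hW, hV, hidx, hch⟩ := exists_sylow_pchain (p := p) hopen
    (fun g hg h hh => lg_sup_normal K N hg hh)
  obtain ⟨K₀, hK₀, hle₀, hEq⟩ := exists_lg_eq P K (hopen.of_le hW hV).2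
  subst hEq
  obtain ⟨x₀, hx₀⟩ := exists_isFund (S := S) (P := P) (K := K₀)
  have hy₀ : S.res hch.le (S.res hV y) = 0 := by
    rw [S.res_res]; exact hyW
  obtain ⟨a, ha⟩ := PChain.span hζ (hle₀ hζK) hch hx₀ hy₀
  have hcor := S.cor_res hV (hopen.of_le hW hV).2 y
  obtain ⟨c', -, hc'⟩ := hx.exists_smul (IsFund.cor_prime hle₀ hidx hx₀)
  rw [ha, map_smul] at hcor
  have hcor' : ((lg P K₀).relIndex (lg P K) : ZMod p) • y = (a * c') • x := by
    rw [← hcor, mul_smul, ← hc']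
  exact Main_smul_of_index hidx hcor'

/-- `H²` is spanned by a fundamental class (general case: pass to `K(ζ)`,
`not_dvd_relIndex_zeta`, `cor_res`, `cor_isFund`). -/
theorem span_fund {K : Fld} [FiniteDimensional ℚ K] {x : S.H (lg P K)}
    (hx : IsFund S P (lg P K) x) (y : S.H (lg P K)) : ∃ c : ZMod p, y = c • x := by
  have hp : p.Prime := Fact.out
  have : NeZero p := ⟨hp.ne_zero⟩
  obtain ⟨ζ, hζ⟩ := HasEnoughRootsOfUnity.exists_primitiveRoot Qb p
  have hfd : FiniteDimensional ℚ (IntermediateField.adjoin ℚ {ζ}) :=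
    IntermediateField.adjoin.finiteDimensional (Algebra.IsAlgebraic.isAlgebraic ζ).isIntegral
  have : FiniteDimensional ℚ (K ⊔ IntermediateField.adjoin ℚ {ζ} : Fld) :=
    IntermediateField.finiteDimensional_sup K _
  have hle : K ≤ K ⊔ IntermediateField.adjoin ℚ {ζ} := le_sup_left
  have hζK : ζ ∈ K ⊔ IntermediateField.adjoin ℚ {ζ} :=
    (le_sup_right : IntermediateField.adjoin ℚ {ζ} ≤ _)
      (IntermediateField.mem_adjoin_simple_self ℚ ζ)
  obtain ⟨x₁, hx₁⟩ := exists_isFund (S := S) (P := P) (K := K ⊔ IntermediateField.adjoin ℚ {ζ})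
  obtain ⟨a, ha⟩ := span_of_zeta hζ hζK hx₁ (S.res (lg_anti P hle) y)
  have hcor := S.cor_res (lg_anti P hle) (isOpenIn_lg P hle) y
  obtain ⟨c', -, hc'⟩ := hx.exists_smul (cor_isFund hle hx₁)
  rw [ha, map_smul] at hcor
  have hcor' : ((lg P (K ⊔ IntermediateField.adjoin ℚ {ζ})).relIndex (lg P K) : ZMod p) • y
      = (a * c') • x := by
    rw [← hcor, mul_smul, ← hc']
  exact Main_smul_of_index (not_dvd_relIndex_zeta K hζ) hcor'

theorem finrank_H (S : LocSym p) (P : Plc) (K : Fld) [FiniteDimensional ℚ K] :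
    Module.finrank (ZMod p) (S.H (lg P K)) = 1 := by
  obtain ⟨x, hx⟩ := exists_isFund (S := S) (P := P) (K := K)
  refine finrank_eq_one x hx.1 fun w => ?_
  obtain ⟨c, hc⟩ := span_fund hx w
  exact ⟨c, hc.symm⟩

/-- **`H²(k, μ_p)` has order `p`.** -/
theorem card_H (S : LocSym p) (P : Plc) (K : Fld) [FiniteDimensional ℚ K] :
    Nat.card (S.H (lg P K)) = p := by
  obtain ⟨x, hx⟩ := exists_isFund (S := S) (P := P) (K := K)
  have hbij : Function.Bijective (fun c : ZMod p => c • x) := by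
    constructor
    · intro c c' h
      have h' : (c - c') • x = 0 := by rw [sub_smul]; exact sub_eq_zero.mpr h
      exact sub_eq_zero.mp ((smul_eq_zero.mp h').resolve_right hx.1)
    · intro w
      obtain ⟨c, hc⟩ := span_fund hx w
      exact ⟨c, hc.symm⟩
  rw [← Nat.card_congr (Equiv.ofBijective _ hbij), Nat.card_zmod]

/-- **Corestriction is bijective.** -/
theorem cor_bijective (S : LocSym p) (P : Plc) {K K' : Fld} [FiniteDimensional ℚ K]
    [FiniteDimensional ℚ K'] (hK : K ≤ K') : Function.Bijective (S.cor (lg_anti P hK)) := by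
  obtain ⟨x', hx'⟩ := exists_isFund (S := S) (P := P) (K := K')
  have hx := cor_isFund hK hx'
  constructor
  · rw [injective_iff_map_eq_zero]
    intro y hy
    obtain ⟨c, rfl⟩ := span_fund hx' y
    rw [map_smul] at hy
    rw [(smul_eq_zero.mp hy).resolve_right hx.1, zero_smul]
  · intro y
    obtain ⟨c, rfl⟩ := span_fund hx y
    exact ⟨c • x', map_smul _ _ _⟩

/-- Every class dies on every open normal subgroup of index `p`. -/
theorem res_eq_zero_of_isCyc {K K₁ : Fld} [FiniteDimensional ℚ K] [FiniteDimensional ℚ K₁]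
    (hK : K ≤ K₁) {σ : GQ} (h : IsCyc p (lg P K) (lg P K₁) σ) (y : S.H (lg P K)) :
    S.res h.le y = 0 := by
  obtain ⟨x, hx⟩ := exists_isFund (S := S) (P := P) (K := K)
  obtain ⟨c, rfl⟩ := span_fund hx y
  rw [map_smul, IsFund.res_eq_zero hK h hx, smul_zero]

/-- For every cyclic extension of degree `p` the symbol `b ↦ (χ, b)` is onto. -/
theorem sym_surjective {K K₁ : Fld} [FiniteDimensional ℚ K] [FiniteDimensional ℚ K₁]
    (hK : K ≤ K₁) {σ : GQ} (h : IsCyc p (lg P K) (lg P K₁) σ) (y : S.H (lg P K)) :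
    ∃ b ∈ lf P K, b ≠ 0 ∧ y = S.sym (lg P K) (lg P K₁) σ b :=
  S.exists_sym h y (res_eq_zero_of_isCyc hK h y)

/-- There are non-norms in every cyclic extension of degree `p`. -/
theorem exists_not_norm (S : LocSym p) {K K₁ : Fld} [FiniteDimensional ℚ K]
    [FiniteDimensional ℚ K₁] (hK : K ≤ K₁) {σ : GQ} (h : IsCyc p (lg P K) (lg P K₁) σ) :
    ∃ b ∈ lf P K, b ≠ 0 ∧ ∀ y ∈ lf P K₁, cycNorm σ p y ≠ b := by
  obtain ⟨x, hx⟩ := exists_isFund (S := S) (P := P) (K := K)
  obtain ⟨b, hb, hb0, hxb⟩ := sym_surjective hK h x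
  refine ⟨b, hb, hb0, fun y hy hyb => hx.1 ?_⟩
  rw [hxb]
  exact (S.sym_eq_zero_iff h hb hb0).mpr ⟨y, hy, hyb⟩

end Fermat.Agent.PT.Local
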