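import Fermat.Agent.PT.Local.SymUU

/-!
# S55, block L: the cyclic-step axioms of `LocSym` (from `PT/B/Cyclic.lean`)
-/

set_option autoImplicit false

namespace Fermat.Agent.PT.Local

open IntermediateField Fermat.Agent.PT

noncomputable section

variable {p : ℕ} [Fact p.Prime]

theorem SymCyc_uu_injective {a b : Qb} (ha : a ≠ 0) (hb : b ≠ 0) (h : uu a = uu b) : a = b := by
  unfold uu at h
  rw [dif_pos ha, dif_pos hb] at h
  have h1 := Additive.ofMul.injective h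
  exact congrArg Units.val h1

theorem SymCyc_mk_eq_zero_iff {V V' : Subgroup GQ} {σ : GQ} (h : IsCyc p V V' σ) {b : Qb}
    (hb : b ∈ fixedField V) :
    symQ p V V' σ b = 0 ↔ (kummerQbar p).theta (uu b) (chi p V V' σ) ∈ B2 Lall V (cycRep p) := by
  rw [symQ_eq h hb, H2.mk_eq_zero_iff]
  rfl

theorem SymCyc_resQ_mk_eq_zero_iff {V V' : Subgroup GQ} (hle : V' ≤ V)
    (z : Z2 Lall V (cycRep p)) :
    resQ p hle (H2.mk Lall V (cycRep p) z) = 0 ↔
      (z : GQ → GQ → GQ → ZMod p) ∈ B2 Lall V' (cycRep p) := by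
  unfold resQ
  rw [CMap.H2_mk, H2.mk_eq_zero_iff]
  rfl

theorem symQ_mul {V V' : Subgroup GQ} {σ : GQ} (h : IsCyc p V V' σ) {b c : Qb}
    (hb : b ∈ fixedField V) (hc : c ∈ fixedField V) (hb0 : b ≠ 0) (hc0 : c ≠ 0) :
    symQ p V V' σ (b * c) = symQ p V V' σ b + symQ p V V' σ c := by
  obtain ⟨hx, -, -⟩ := chi_spec h
  rw [symQ_eq h (mul_mem hb hc), symQ_eq h hb, symQ_eq h hc, ← map_add, ← sub_eq_zero, ← map_sub,
    H2.mk_eq_zero_iff]
  change symZ p V V' σ (b * c) - (symZ p V V' σ b + symZ p V V' σ c) ∈ B2 Lall V (cycRep p)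
  unfold symZ
  rw [uu_mul hb0 hc0]
  exact (kummerQbar p).theta_add (uu_fixed hb) (uu_fixed hc) hx

theorem symQ_eq_zero_iff {V V' : Subgroup GQ} {σ : GQ} (h : IsCyc p V V' σ) {b : Qb}
    (hb : b ∈ fixedField V) (hb0 : b ≠ 0) :
    symQ p V V' σ b = 0 ↔ ∃ y ∈ fixedField V', cycNorm σ p y = b := by
  obtain ⟨hx, hker, hσ1⟩ := chi_spec h
  rw [SymCyc_mk_eq_zero_iff h hb]
  constructor
  · intro hB
    obtain ⟨c, hc, hcN⟩ :=
      (kummerQbar p).exists_norm_of_theta_mem_B2 hx h.mem hσ1 (uu_fixed hb) hB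
    rw [hker] at hc
    obtain ⟨y, hy, hy0, rfl⟩ := exists_uu hc
    refine ⟨y, hy, ?_⟩
    rw [normOf_uu σ hy0] at hcN
    exact SymCyc_uu_injective (cycNorm_ne_zero σ p hy0) hb0 hcN
  · rintro ⟨y, hy, rfl⟩
    have hy0 : y ≠ 0 := by
      rintro rfl
      apply hb0
      rw [cycNorm]
      exact Finset.prod_eq_zero (Finset.mem_range.2 (Fact.out : p.Prime).pos) (map_zero _)
    rw [← normOf_uu σ hy0]
    refine (kummerQbar p).theta_norm_mem_B2 hx h.mem hσ1 ?_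
    rw [hker]
    exact uu_fixed hy

theorem exists_symQ {V V' : Subgroup GQ} {σ : GQ} (h : IsCyc p V V' σ) (x : HQ p V)
    (hx : resQ p h.le x = 0) : ∃ b ∈ fixedField V, b ≠ 0 ∧ x = symQ p V V' σ b := by
  obtain ⟨hχ, hker, hσ1⟩ := chi_spec h
  obtain ⟨z, rfl⟩ := H2.mk_surjective Lall V (cycRep p) x
  rw [SymCyc_resQ_mk_eq_zero_iff] at hx
  have hne : kerOf V (chi p V V' σ) ≠ V := by
    rw [hker]
    intro hVV
    have h1 : σ ^ 1 ∈ V' := by rw [pow_one, hVV]; exact h.mem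
    rw [h.pow_mem_iff] at h1
    exact (Fact.out : p.Prime).one_lt.ne' (Nat.dvd_one.1 h1)
  rw [← hker] at hx
  obtain ⟨a, ha, haB⟩ := (kummerQbar p).exists_theta_of_mem_B2_ker hχ hne z.2 hx
  obtain ⟨b, hb, hb0, rfl⟩ := exists_uu ha
  refine ⟨b, hb, hb0, ?_⟩
  rw [symQ_eq h hb, ← sub_eq_zero, ← map_sub, H2.mk_eq_zero_iff]
  exact haB

theorem resQ_symQ_self {V V' : Subgroup GQ} {σ : GQ} (h : IsCyc p V V' σ) {b : Qb}
    (hb : b ∈ fixedField V) (hb0 : b ≠ 0) : resQ p h.le (symQ p V V' σ b) = 0 := by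
  obtain ⟨hχ, hker, -⟩ := chi_spec h
  rw [symQ_eq h hb, SymCyc_resQ_mk_eq_zero_iff]
  have h1 := (kummerQbar p).theta_mem_B2_ker (uu_fixed hb) hχ
  rw [hker] at h1
  exact h1

end

end Fermat.Agent.PT.Local
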