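import Fermat.Agent.PT.Local.SymCohA

/-!
# S55, block L: transfer of characters in a cyclic tower, projection formula 2
-/

set_option autoImplicit false

namespace Fermat.Agent.PT

variable {G : Type*} [Group G] {L : LevelSystem G} {p : ℕ} [Fact p.Prime]
variable {A : Type*} [AddCommGroup A] {ρ : Representation ℤ G A}
variable {T : Type*} [AddCommGroup T] [Module (ZMod p) T] {τ : Representation (ZMod p) G T}
variable {ι : T →+ A}

/-- value of the character on `(σ^j)⁻¹ v`. -/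
lemma SymCohC_x_inv_pow {V : Subgroup G} {x : G → G → ZMod p}
    (hx : x ∈ Z1 L V (trivZ p G)) {σ : G} (hσ : σ ∈ V) (hσ1 : x 1 σ = 1) (j : ℕ) (g : G) :
    x 1 ((σ ^ j)⁻¹ * g) = x 1 g - j := by
  have h3 := x_one_pow hx hσ j ((σ ^ j)⁻¹ * g)
  rw [mul_inv_cancel_left, hσ1, mul_one] at h3
  linear_combination -h3

/-- the powers `σ^j`, `j < p`, represent `V / kerOf V x`. -/
lemma SymCohC_isReps {V : Subgroup G} {x : G → G → ZMod p}
    (hx : x ∈ Z1 L V (trivZ p G)) {σ : G} (hσ : σ ∈ V) (hσ1 : x 1 σ = 1) :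
    IsReps V (kerOf V x) (fun j : Fin p => σ ^ (j : ℕ)) := by
  refine ⟨fun j => V.pow_mem hσ _, fun v hv => ?_⟩
  refine ⟨⟨(x 1 v).val, ZMod.val_lt _⟩, ?_, ?_⟩
  · show (σ ^ (x 1 v).val)⁻¹ * v ∈ kerOf V x
    rw [mem_kerOf_iff hx]
    refine ⟨V.mul_mem (V.inv_mem (V.pow_mem hσ _)) hv, ?_⟩
    rw [SymCohC_x_inv_pow hx hσ hσ1, ZMod.natCast_zmod_val, sub_self]
  · intro j hj
    have hj' : (σ ^ (j : ℕ))⁻¹ * v ∈ kerOf V x := hj
    rw [mem_kerOf_iff hx, SymCohC_x_inv_pow hx hσ hσ1] at hj'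
    have h1 : x 1 v = ((j : ℕ) : ZMod p) := by linear_combination hj'.2
    apply Fin.ext
    show (j : ℕ) = (x 1 v).val
    rw [h1, ZMod.val_natCast, Nat.mod_eq_of_lt j.2]

/-- invariance under conjugation by `σ^j`. -/
lemma SymCohC_inv_pow {V : Subgroup G} {x x' : G → G → ZMod p}
    (hx : x ∈ Z1 L V (trivZ p G)) {σ : G} (hσ : σ ∈ V)
    (hinv : ∀ w ∈ kerOf V x, x' 1 (σ⁻¹ * w * σ) = x' 1 w) (j : ℕ) :
    ∀ w ∈ kerOf V x, x' 1 ((σ ^ j)⁻¹ * w * σ ^ j) = x' 1 w := by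
  induction j with
  | zero => intro w _; simp
  | succ j ih =>
    intro w hw
    have e : (σ ^ (j + 1))⁻¹ * w * σ ^ (j + 1) = (σ ^ j)⁻¹ * (σ⁻¹ * w * σ) * σ ^ j := by
      rw [pow_succ', mul_inv_rev]
      group
    rw [e, ih _ (kerOf_conj' hx hσ hw), hinv w hw]

/-- the formula for the transfer at `(1, g)`. -/
lemma SymCohC_cor1_apply {V : Subgroup G} {x x' : G → G → ZMod p}
    (hx : x ∈ Z1 L V (trivZ p G)) {σ : G} (hσ : σ ∈ V) (hσ1 : x 1 σ = 1)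
    (hx' : x' ∈ Z1 L (kerOf V x) (trivZ p G)) [Finite (CosetsIn V (kerOf V x))] (g : G) :
    cor1 (trivZ p G) V (kerOf V x) x' 1 g
      = ∑ j ∈ Finset.range p, (x' 1 ((σ ^ j)⁻¹ * g) - x' 1 ((σ ^ j)⁻¹)) := by
  rw [cor1_eq_sum (SymCohC_isReps hx hσ hσ1) (mem_Z1.mp hx').1]
  rw [Finset.sum_apply, Finset.sum_apply]
  rw [← Fin.sum_univ_eq_sum_range (fun j => x' 1 ((σ ^ j)⁻¹ * g) - x' 1 ((σ ^ j)⁻¹)) p]
  refine Finset.sum_congr rfl fun j _ => ?_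
  rw [tw1_apply, mul_one, x_eq_sub hx']
  rfl

/-- **Transfer**: for `V' = kerOf V x`, `x 1 σ = 1`, and a character `x'` of `V'` which is invariant
under conjugation by `σ`:  `cores x' = (x' 1 (σ^p)) • x`.
Proof: both sides are cocycles of `V`; by `sub_mem_B1_of_inh_eq` compare the values at `(1, v)`,
`v ∈ V`; use the representatives `σ^j`, `j < p` (`cor1_eq_sum`).  With `m' = x' 1 ·`:
`∑_j (m' (σ^-j σ) - m' (σ^-j)) = m' σ - m' (σ^-(p-1)) = m' (σ^p)` (telescoping and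
`σ = σ^p σ^-(p-1)`), and for `w ∈ V'`: `∑_j (m' (σ^-j w) - m' (σ^-j)) = ∑_j m' (σ^-j w σ^j) =
p m' w = 0`. -/
theorem cor1_char_tower {V : Subgroup G} {x x' : G → G → ZMod p}
    (hx : x ∈ Z1 L V (trivZ p G)) {σ : G} (hσ : σ ∈ V) (hσ1 : x 1 σ = 1)
    (hx' : x' ∈ Z1 L (kerOf V x) (trivZ p G))
    (hinv : ∀ w ∈ kerOf V x, x' 1 (σ⁻¹ * w * σ) = x' 1 w) [Finite (CosetsIn V (kerOf V x))] :
    cor1 (trivZ p G) V (kerOf V x) x' - (x' 1 (σ ^ p)) • x ∈ B1 L V (trivZ p G) := by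
  have hF : cor1 (trivZ p G) V (kerOf V x) x' ∈ Z1 L V (trivZ p G) := by
    refine mem_Z1.mpr ⟨cor1_mem (mem_Z1.mp hx').1, ?_⟩
    rw [d1_cor1, (mem_Z1.mp hx').2, map_zero]
  refine sub_mem_B1_of_inh_eq hF ((Z1 L V (trivZ p G)).smul_mem _ hx) fun v hv => ?_
  -- value at `σ`
  have hFσ : cor1 (trivZ p G) V (kerOf V x) x' 1 σ = x' 1 (σ ^ p) := by
    rw [SymCohC_cor1_apply hx hσ hσ1 hx']
    have e : ∀ j : ℕ, (σ ^ j)⁻¹ = (σ ^ (j + 1))⁻¹ * σ := by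
      intro j
      rw [pow_succ', mul_inv_rev, inv_mul_cancel_right]
    have h1 : ∑ j ∈ Finset.range p, (x' 1 ((σ ^ j)⁻¹ * σ) - x' 1 ((σ ^ j)⁻¹))
        = ∑ j ∈ Finset.range p, (x' 1 ((σ ^ j)⁻¹ * σ) - x' 1 ((σ ^ (j + 1))⁻¹ * σ)) :=
      Finset.sum_congr rfl fun j _ => by rw [← e j]
    rw [h1, Finset.sum_range_sub' (fun j => x' 1 ((σ ^ j)⁻¹ * σ))]
    have h2 := x_one_mul hx' (sigma_pow_p_mem hx hσ) ((σ ^ p)⁻¹ * σ)
    rw [mul_inv_cancel_left] at h2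
    rw [pow_zero, inv_one, one_mul, h2]
    ring
  -- value on the kernel
  have hFw : ∀ w ∈ kerOf V x, cor1 (trivZ p G) V (kerOf V x) x' 1 w = 0 := by
    intro w hw
    rw [SymCohC_cor1_apply hx hσ hσ1 hx']
    have h1 : ∀ j ∈ Finset.range p, x' 1 ((σ ^ j)⁻¹ * w) - x' 1 ((σ ^ j)⁻¹) = x' 1 w := by
      intro j _
      have hc : (σ ^ j)⁻¹ * w * σ ^ j ∈ kerOf V x := kerOf_conj' hx (V.pow_mem hσ j) hw
      have h2 := x_one_mul hx' hc ((σ ^ j)⁻¹)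
      rw [mul_inv_cancel_right, SymCohC_inv_pow hx hσ hinv j w hw] at h2
      rw [h2]
      ring
    rw [Finset.sum_congr rfl h1, Finset.sum_const, Finset.card_range, nsmul_eq_mul,
      ZMod.natCast_self, zero_mul]
  -- general `v = σ^k w`
  set k := (x 1 v).val with hk
  have hw : (σ ^ k)⁻¹ * v ∈ kerOf V x := by
    rw [mem_kerOf_iff hx]
    refine ⟨V.mul_mem (V.inv_mem (V.pow_mem hσ _)) hv, ?_⟩
    rw [SymCohC_x_inv_pow hx hσ hσ1, hk, ZMod.natCast_zmod_val, sub_self]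
  have h4 := x_one_pow hF hσ k ((σ ^ k)⁻¹ * v)
  rw [mul_inv_cancel_left, hFσ, hFw _ hw, add_zero, hk, ZMod.natCast_zmod_val] at h4
  rw [h4]
  show x 1 v * x' 1 (σ ^ p) = x' 1 (σ ^ p) * x 1 v
  ring

/-- **Projection formula 2**: `cores (res κ_V(b) ∪ χ') = κ_V(b) ∪ cores χ' = χ'(σ^p) • κ_V(b) ∪ χ`. -/
theorem KummerSetup.cor2_theta_right (K : KummerSetup L p ρ τ ι) {V : Subgroup G} {b : A}
    (hb : ∀ v ∈ V, ρ v b = b) {x x' : G → G → ZMod p}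
    (hx : x ∈ Z1 L V (trivZ p G)) {σ : G} (hσ : σ ∈ V) (hσ1 : x 1 σ = 1)
    (hx' : x' ∈ Z1 L (kerOf V x) (trivZ p G))
    (hinv : ∀ w ∈ kerOf V x, x' 1 (σ⁻¹ * w * σ) = x' 1 w) [Finite (CosetsIn V (kerOf V x))] :
    cor2 τ V (kerOf V x) (K.theta b x') - (x' 1 (σ ^ p)) • K.theta b x ∈ B2 L V τ := by
  have hk : K.kum b ∈ Z1 L V τ := K.kum_mem_Z1 hb
  have h := cupT_mem_B2_right hk (cor1_char_tower hx hσ hσ1 hx' hinv)
  have e : cupT (K.kum b) (cor1 (trivZ p G) V (kerOf V x) x' - (x' 1 (σ ^ p)) • x)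
      = cor2 τ V (kerOf V x) (K.theta b x') - (x' 1 (σ ^ p)) • K.theta b x := by
    unfold KummerSetup.theta
    rw [cor2_cupT_right (mem_Z1.mp hk).1, ← cupT_smul_right, sub_eq_add_neg, cupT_add_right,
      sub_eq_add_neg]
    congr 1
    funext g₀ g₁ g₂
    simp [cupT]
  rwa [e] at h

end Fermat.Agent.PT
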