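import Fermat.Agent.PT.Local.SymUU
import Fermat.Agent.PT.Local.SymCohC

/-!
# S55, block L: the projection-formula axioms of `LocSym`
-/

set_option autoImplicit false

namespace Fermat.Agent.PT.Local

open IntermediateField Fermat.Agent.PT

noncomputable section

variable {p : ℕ} [Fact p.Prime]

/-- monotonicity of fixed fields -/
theorem SymProj_mem_fixedField {V W : Subgroup GQ} (hW : W ≤ V) {b : Qb}
    (hb : b ∈ fixedField V) : b ∈ fixedField W := by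
  rw [IntermediateField.mem_fixedField_iff] at hb ⊢
  exact fun f hf => hb f (hW hf)

/-- the characters `chi V V' σ` and `chi W (W ⊓ V') σ` agree on `W`. -/
theorem SymProj_chi_eq {V V' W : Subgroup GQ} {σ : GQ} (h : IsCyc p V V' σ) (hW : W ≤ V)
    (hσ : σ ∈ W) : ∀ v ∈ W, chi p V V' σ 1 v = chi p W (W ⊓ V') σ 1 v := by
  intro v hv
  have h' : IsCyc p W (W ⊓ V') σ := h.inf hW hσ
  obtain ⟨j, -, hj⟩ := h'.gen v hv
  have e : v = σ ^ j * ((σ ^ j)⁻¹ * v) := by rw [mul_inv_cancel_left]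
  rw [e, chi_apply h j hj.2, chi_apply h' j hj]

/-- the two symbol cocycles are cohomologous on `W`. -/
theorem SymProj_symZ_sub {V V' W : Subgroup GQ} {σ : GQ} (h : IsCyc p V V' σ) (hW : W ≤ V)
    (hσ : σ ∈ W) {b : Qb} (hb : b ∈ fixedField W) :
    symZ p V V' σ b - symZ p W (W ⊓ V') σ b ∈ B2 Lall W (cycRep p) :=
  cupT_congr_right ((kummerQbar p).kum_mem_Z1 (uu_fixed hb)) (Z1_le_of_le hW (chi_spec h).1)
    (chi_spec (h.inf hW hσ)).1 (SymProj_chi_eq h hW hσ)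

/-- `chi V V' σ` and `chi W (W ⊓ V') σ` agree on `W` (`chi_apply`), then `cupT_congr_right`. -/
theorem resQ_symQ {V V' W : Subgroup GQ} {σ : GQ} (h : IsCyc p V V' σ) (hW : W ≤ V)
    (hσ : σ ∈ W) {b : Qb} (hb : b ∈ fixedField V) (hb0 : b ≠ 0) :
    resQ p hW (symQ p V V' σ b) = symQ p W (W ⊓ V') σ b := by
  have h' : IsCyc p W (W ⊓ V') σ := h.inf hW hσ
  have hbW : b ∈ fixedField W := SymProj_mem_fixedField hW hb
  rw [symQ_eq h hb, symQ_eq h' hbW]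
  show H2.mk Lall W (cycRep p) ((resC Lall (cycRep p) hW).Z2 ⟨_, symZ_mem h hb⟩) = _
  rw [← sub_eq_zero, ← map_sub, H2.mk_eq_zero_iff]
  exact SymProj_symZ_sub h hW hσ hbW

theorem SymProj_corQ_mk {V W : Subgroup GQ} [hf : Finite (CosetsIn V W)]
    (z : Z2 Lall W (cycRep p)) :
    corQ p V W (H2.mk Lall W (cycRep p) z)
      = H2.mk Lall V (cycRep p) ((coresC Lall (cycRep p) V W).Z2 z) := by
  unfold corQ
  rw [dif_pos hf]
  rfl

/-- `cor2_theta_left`, `relNormA_uu`, and `cupT_congr_right` on `W`. -/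
theorem corQ_symQ {V V' W : Subgroup GQ} {σ : GQ} (h : IsCyc p V V' σ) (hW : W ≤ V)
    (ho : IsOpenIn W V) (hσ : σ ∈ W) {c : Qb} (hc : c ∈ fixedField W) (hc0 : c ≠ 0) :
    corQ p V W (symQ p W (W ⊓ V') σ c) = symQ p V V' σ (relNorm W V c) := by
  have h' : IsCyc p W (W ⊓ V') σ := h.inf hW hσ
  haveI : Finite (CosetsIn V W) := finite_cosetsIn ho
  have hN : relNorm W V c ∈ fixedField V := relNorm_mem hW ho.relIndex_ne_zero hc
  rw [symQ_eq h' hc, symQ_eq h hN, SymProj_corQ_mk, ← sub_eq_zero, ← map_sub,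
    H2.mk_eq_zero_iff]
  show cor2 (cycRep p) V W (symZ p W (W ⊓ V') σ c) - symZ p V V' σ (relNorm W V c)
    ∈ B2 Lall V (cycRep p)
  have h1 : cor2 (cycRep p) V W (symZ p V V' σ c - symZ p W (W ⊓ V') σ c)
      ∈ B2 Lall V (cycRep p) :=
    (coresC Lall (cycRep p) V W).memB2 (SymProj_symZ_sub h hW hσ hc)
  have h2 := (kummerQbar p).cor2_theta_left hW (uu_fixed hc) (chi_spec h).1
  rw [relNormA_uu hc0] at h2
  rw [map_sub] at h1
  have h3 := (B2 Lall V (cycRep p)).sub_mem h2 h1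
  have e : cor2 (cycRep p) V W (symZ p W (W ⊓ V') σ c) - symZ p V V' σ (relNorm W V c)
      = cor2 (cycRep p) V W ((kummerQbar p).theta (uu c) (chi p V V' σ)) -
        (kummerQbar p).theta (uu (relNorm W V c)) (chi p V V' σ) -
        (cor2 (cycRep p) V W (symZ p V V' σ c) - cor2 (cycRep p) V W (symZ p W (W ⊓ V') σ c)) := by
    unfold symZ
    abel
  rw [e]
  exact h3

/-- `cor2_theta_right` with the kernel as a variable. -/
theorem SymProj_cor2_theta_right {V V' : Subgroup GQ} {b : Additive Qbarˣ}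
    (hb : ∀ v ∈ V, multRep v b = b) {x x' : GQ → GQ → ZMod p}
    (hx : x ∈ Z1 Lall V (trivZ p GQ)) (hker : kerOf V x = V') {σ : GQ} (hσ : σ ∈ V)
    (hσ1 : x 1 σ = 1) (hx' : x' ∈ Z1 Lall V' (trivZ p GQ))
    (hinv : ∀ w ∈ V', x' 1 (σ⁻¹ * w * σ) = x' 1 w) [Finite (CosetsIn V V')] :
    cor2 (cycRep p) V V' ((kummerQbar p).theta b x') - (x' 1 (σ ^ p)) • (kummerQbar p).theta b x
      ∈ B2 Lall V (cycRep p) := by
  subst hker
  exact (kummerQbar p).cor2_theta_right hb hx hσ hσ1 hx' hinv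

/-- `cor2_theta_right` with `x = chi V V' σ`, `x' = chi V' V'' (σ^p)`; `hinv` holds because
`V / V''` is cyclic (`IsCyc (p*p) V V'' σ`). -/
theorem corQ_symQ_tower {V V' V'' : Subgroup GQ} {σ : GQ} (h2 : IsCyc (p * p) V V'' σ)
    (h : IsCyc p V V' σ) (hle : V'' ≤ V') {b : Qb} (hb : b ∈ fixedField V) (hb0 : b ≠ 0) :
    corQ p V V' (symQ p V' V'' (σ ^ p) b) = symQ p V V' σ b := by
  have h' : IsCyc p V' V'' (σ ^ p) := h2.pow h hle
  haveI : Finite (CosetsIn V V') := finite_cosetsIn h.isOpenIn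
  have hb' : b ∈ fixedField V' := SymProj_mem_fixedField h.le hb
  rw [symQ_eq h' hb', symQ_eq h hb, SymProj_corQ_mk, ← sub_eq_zero, ← map_sub,
    H2.mk_eq_zero_iff]
  show cor2 (cycRep p) V V' (symZ p V' V'' (σ ^ p) b) - symZ p V V' σ b ∈ B2 Lall V (cycRep p)
  have hinv : ∀ w ∈ V', chi p V' V'' (σ ^ p) 1 (σ⁻¹ * w * σ) = chi p V' V'' (σ ^ p) 1 w := by
    intro w hw
    obtain ⟨j, -, hj⟩ := h'.gen w hw
    have e1 : w = (σ ^ p) ^ j * (((σ ^ p) ^ j)⁻¹ * w) := by rw [mul_inv_cancel_left]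
    have hc : σ⁻¹ * (((σ ^ p) ^ j)⁻¹ * w) * σ ∈ V'' := by
      have := h2.normal σ⁻¹ (V.inv_mem h2.mem) _ hj
      rwa [inv_inv] at this
    have e2 : σ⁻¹ * w * σ = (σ ^ p) ^ j * (σ⁻¹ * (((σ ^ p) ^ j)⁻¹ * w) * σ) := by
      have hcomm : σ⁻¹ * (σ ^ p) ^ j = (σ ^ p) ^ j * σ⁻¹ := by
        rw [← pow_mul]
        exact ((Commute.refl σ).inv_left.pow_right _).eq
      calc σ⁻¹ * w * σ = σ⁻¹ * ((σ ^ p) ^ j * (((σ ^ p) ^ j)⁻¹ * w)) * σ := by rw [← e1]
        _ = (σ⁻¹ * (σ ^ p) ^ j) * (((σ ^ p) ^ j)⁻¹ * w) * σ := by simp only [mul_assoc]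
        _ = _ := by rw [hcomm]; simp only [mul_assoc]
    rw [e2, chi_apply h' j hc]
    conv_rhs => rw [e1]
    rw [chi_apply h' j hj]
  have h3 := SymProj_cor2_theta_right (uu_fixed hb) (chi_spec h).1 (chi_spec h).2.1 h.mem
    (chi_spec h).2.2 (chi_spec h').1 hinv
  rw [(chi_spec h').2.2, one_smul] at h3
  exact h3

end

end Fermat.Agent.PT.Local
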