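import Fermat.Agent.PT.Local.SymRes
import Fermat.Agent.PT.Local.SymCyc
import Fermat.Agent.PT.Local.SymProj

/-!
# S55, block L: the instance `locSymQ p : LocSym p`
-/

set_option autoImplicit false

namespace Fermat.Agent.PT.Local

open IntermediateField Fermat.Agent.PT

noncomputable section

variable (p : ℕ) [Fact p.Prime]

/-- **The instance.** -/
def locSymQ : LocSym p where
  H := HQ p
  acg := fun _ => inferInstance
  mod := fun _ => inferInstance
  res := fun h => resQ p h
  cor := fun {V W} _ => corQ p V W
  sym := symQ p
  res_refl := resQ_refl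
  res_res := resQ_resQ
  cor_cor := corQ_corQ
  cor_res := corQ_resQ
  die := dieQ
  sym_mul := symQ_mul
  sym_eq_zero_iff := symQ_eq_zero_iff
  exists_sym := exists_symQ
  res_sym_self := resQ_symQ_self
  res_sym := resQ_symQ
  cor_sym := corQ_symQ
  cor_sym_tower := corQ_symQ_tower

end

end Fermat.Agent.PT.Local
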