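import Fermat.Agent.PT.Local.Dict
import Fermat.Agent.PT.Local.Main
import Fermat.Agent.PT.Local.SymInst
import Fermat.Agent.PT.Global.Interface

/-!
# S55, block L: the contract `LocalCardStatement p`
-/

set_option autoImplicit false

namespace Fermat.Agent.PT.Local

open IntermediateField Fermat.Agent.PT

/-- **(L1)** `H²(k_𝒜, μ_p)` has order `p`. -/
theorem localCard (p : ℕ) [Fact p.Prime] : LocalCardStatement p := by
  intro V hV 𝒜 h𝒜
  obtain ⟨K, hK, -, hE⟩ := exists_lg_of_isOpen hV 𝒜 h𝒜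
  rw [hE]
  exact card_H (locSymQ p) (plcOf 𝒜 h𝒜) K

end Fermat.Agent.PT.Local
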