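import Fermat.Agent.PT.Local.LocalCores
import Fermat.Agent.PT.Base.Interface

/-!
# S55, block L: the contract `Base.LocalCoresOntoStatement p`
-/

set_option autoImplicit false

namespace Fermat.Agent.PT.Local

open IntermediateField Fermat.Agent.PT

/-- **(L-cores)** local corestriction is onto on `H²(-, μ_p)`. -/
theorem localCoresOnto (p : ℕ) [Fact p.Prime] : Base.LocalCoresOntoStatement p := by
  rintro 𝒜 h𝒜 D E hfin hle ⟨V, hV, rfl⟩ ⟨V', ⟨U, hU, hUV'⟩, rfl⟩
  exact (localCores_bijective p h𝒜 hV hle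
    ⟨U, hU, fun g hg => ⟨hUV' hg.2, hg.1.2⟩⟩).2

end Fermat.Agent.PT.Local
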