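import Fermat.Agent.PT.Coh.DictV

/-!
# S55, block L: a 2-cocycle which is inflated from a (pro)cyclic quotient and killed by `N` is a
coboundary after enlarging the level (abstract form of `H²(k_nr/k, μ_p) → H²(k, μ_p)` is zero)
-/

set_option autoImplicit false

namespace Fermat.Agent.PT

variable {k G A : Type*} [CommRing k] [Group G] [AddCommGroup A] [Module k A]
variable {L : LevelSystem G} {ρ : Representation k G A}

/-- the explicit primitive: `c i = z(1,1,1) - ∑_{k<i} z(1, φ^k, φ^(k+1))`. -/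
def nrC (z : G → G → G → A) (φ : G) (i : ℕ) : A :=
  z 1 1 1 - ∑ k ∈ Finset.range i, z 1 (φ ^ k) (φ ^ (k + 1))

theorem NrAbs_nrC_succ (z : G → G → G → A) (φ : G) (i : ℕ) :
    nrC z φ (i + 1) = nrC z φ i - z 1 (φ ^ i) (φ ^ (i + 1)) := by
  unfold nrC
  rw [Finset.sum_range_succ]
  abel

theorem NrAbs_rel {E : Subgroup G} {z : G → G → G → A} (hz : z ∈ Z2 L E ρ) {φ : G} (hφ : φ ∈ E)
    (i j k : ℕ) :
    z 1 (φ ^ (i + j)) (φ ^ (i + j + k)) + z 1 (φ ^ i) (φ ^ (i + j)) =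
      ρ (φ ^ i) (z 1 (φ ^ j) (φ ^ (j + k))) + z 1 (φ ^ i) (φ ^ (i + (j + k))) := by
  have h := inh2_cocycle hz (φ ^ i) (E.pow_mem hφ i) (φ ^ j) (φ ^ k)
  simp only [← pow_add] at h
  exact h

/-- With `a i j = z 1 (φ^i) (φ^(i+j))` the cocycle relation (`inh2_cocycle`) reads
`ρ(φ^i) (a j k) - a (i+j) k + a i (j+k) - a i j = 0`.  Hence `a 0 j = a 0 0`,
`a i 0 = ρ(φ^i) (a 0 0)`, `nrC 1 = 0`, and by induction on `j` (relation for `(i, j, 1)`):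
`a i j = ρ(φ^i) (c j) - c (i+j) + c i`. -/
theorem nrC_spec {E : Subgroup G} {z : G → G → G → A} (hz : z ∈ Z2 L E ρ) {φ : G} (hφ : φ ∈ E)
    (i j : ℕ) :
    z 1 (φ ^ i) (φ ^ (i + j)) = ρ (φ ^ i) (nrC z φ j) - nrC z φ (i + j) + nrC z φ i := by
  induction j with
  | zero =>
    have h := NrAbs_rel hz hφ i 0 0
    simp only [add_zero, pow_zero] at h
    have h0 : nrC z φ 0 = z 1 1 1 := by simp [nrC]
    rw [add_zero, h0]
    linear_combination (norm := abel) h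
  | succ j ih =>
    have h := NrAbs_rel hz hφ i j 1
    rw [← add_assoc, NrAbs_nrC_succ z φ j, NrAbs_nrC_succ z φ (i + j), map_sub]
    rw [← add_assoc] at h
    linear_combination (norm := abel) ih - h

theorem NrAbs_shift {z : G → G → G → A} {φ : G} {U : Subgroup G}
    (hs : ∀ g₀ g₁ g₂, ∀ u₀ ∈ U, ∀ u₁ ∈ U, ∀ u₂ ∈ U, z (g₀ * u₀) (g₁ * u₁) (g₂ * u₂) = z g₀ g₁ g₂)
    {n : ℕ} (hn : φ ^ n ∈ U) (i : ℕ) :
    nrC z φ (n + i) = nrC z φ i - ∑ k ∈ Finset.range n, z 1 (φ ^ k) (φ ^ (k + 1)) := by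
  unfold nrC
  rw [Finset.sum_range_add]
  have h : ∀ k, z 1 (φ ^ (n + k)) (φ ^ (n + k + 1)) = z 1 (φ ^ k) (φ ^ (k + 1)) := by
    intro k
    have h1 := hs 1 (φ ^ k) (φ ^ (k + 1)) 1 U.one_mem (φ ^ n) hn (φ ^ n) hn
    rw [mul_one, ← pow_add, ← pow_add] at h1
    rw [← h1]
    congr 2 <;> ring
  simp only [h]
  abel

theorem NrAbs_shift_mul {z : G → G → G → A} {φ : G} {U : Subgroup G}
    (hs : ∀ g₀ g₁ g₂, ∀ u₀ ∈ U, ∀ u₁ ∈ U, ∀ u₂ ∈ U, z (g₀ * u₀) (g₁ * u₁) (g₂ * u₂) = z g₀ g₁ g₂)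
    {n : ℕ} (hn : φ ^ n ∈ U) (i M : ℕ) :
    nrC z φ (i + n * M) = nrC z φ i - M • ∑ k ∈ Finset.range n, z 1 (φ ^ k) (φ ^ (k + 1)) := by
  induction M with
  | zero => simp
  | succ M ih =>
    have e : i + n * (M + 1) = n + (i + n * M) := by ring
    rw [e, NrAbs_shift hs hn, ih, succ_nsmul]
    abel

/-- `z 1 (φ^(k+n)) (φ^(k+n+1)) = z 1 (φ^k) (φ^(k+1))`, so `c (i + n) = c i - t` with
`t = ∑_{k<n} z 1 (φ^k) (φ^(k+1))`, and `c (i + n N) = c i - N • t = c i`. -/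
theorem nrC_periodic {z : G → G → G → A} {φ : G} {U : Subgroup G}
    (hs : ∀ g₀ g₁ g₂, ∀ u₀ ∈ U, ∀ u₁ ∈ U, ∀ u₂ ∈ U, z (g₀ * u₀) (g₁ * u₁) (g₂ * u₂) = z g₀ g₁ g₂)
    {n : ℕ} (hn : φ ^ n ∈ U) {N : ℕ} (hN : ∀ a : A, N • a = 0) (i : ℕ) :
    nrC z φ (i + n * N) = nrC z φ i := by
  rw [NrAbs_shift_mul hs hn, hN, sub_zero]

theorem NrAbs_periodic_mul {z : G → G → G → A} {φ : G} {U : Subgroup G}
    (hs : ∀ g₀ g₁ g₂, ∀ u₀ ∈ U, ∀ u₁ ∈ U, ∀ u₂ ∈ U, z (g₀ * u₀) (g₁ * u₁) (g₂ * u₂) = z g₀ g₁ g₂)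
    {n : ℕ} (hn : φ ^ n ∈ U) {N : ℕ} (hN : ∀ a : A, N • a = 0) (i m : ℕ) :
    nrC z φ (i + n * N * m) = nrC z φ i := by
  induction m with
  | zero => simp
  | succ m ih =>
    have e : i + n * N * (m + 1) = (i + n * N * m) + n * N := by ring
    rw [e, nrC_periodic hs hn hN, ih]

/-- **Abstract (NR).**  `z` is a cocycle of `E`, smooth for a subgroup `U` acting trivially on `A`;
`E' ≤ E ⊓ U` is an open normal subgroup of `E` such that `E / E'` is cyclic of order `n N`, generated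
by `φ`, where `φ ^ n ∈ U` and `N A = 0`.  Then `z` is a coboundary on `E`.
Proof: `mem_B2_of_inh` with `c v = nrC z φ j` for any `j` with `(φ^j)⁻¹ v ∈ E'` (independent of `j`
by `hpow`, `nrC_periodic`).  For `v = φ^j e`, `w = φ^j' e'`: `v w = φ^(j+j') e''` (`hnorm`),
`z 1 v (v w) = z 1 (φ^j) (φ^(j+j'))` (`hs`, `E' ≤ U`), `ρ v = ρ (φ^j)` (`hρU`), `nrC_spec`. -/
theorem mem_B2_of_cyclic_quot (hρ : IsSmoothRep L ρ) {E E' U : Subgroup G} {z : G → G → G → A}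
    (hz : z ∈ Z2 L E ρ)
    (hs : ∀ g₀ g₁ g₂, ∀ u₀ ∈ U, ∀ u₁ ∈ U, ∀ u₂ ∈ U, z (g₀ * u₀) (g₁ * u₁) (g₂ * u₂) = z g₀ g₁ g₂)
    (hρU : ∀ u ∈ U, ρ u = 1) {φ : G} (hφ : φ ∈ E) {n N : ℕ} (hn : φ ^ n ∈ U)
    (hN : ∀ a : A, N • a = 0) (hE'U : E' ≤ U) (hE'E : E' ≤ E) (hopen : ∃ U' ∈ L, E ⊓ U' ≤ E')
    (hnorm : ∀ g ∈ E, ∀ h ∈ E', g * h * g⁻¹ ∈ E')
    (hgen : ∀ g ∈ E, ∃ j : ℕ, (φ ^ j)⁻¹ * g ∈ E')
    (hpow : ∀ j : ℕ, φ ^ j ∈ E' ↔ n * N ∣ j) : z ∈ B2 L E ρ := by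
  classical
  -- independence of the exponent
  have hind' : ∀ j j' : ℕ, j ≤ j' → (φ ^ j)⁻¹ * φ ^ j' ∈ E' → nrC z φ j' = nrC z φ j := by
    intro j j' hjj h
    obtain ⟨d, rfl⟩ := Nat.exists_eq_add_of_le hjj
    rw [pow_add, inv_mul_cancel_left, hpow] at h
    obtain ⟨m, rfl⟩ := h
    exact NrAbs_periodic_mul hs hn hN j m
  have hind : ∀ (v : G) (j j' : ℕ), (φ ^ j)⁻¹ * v ∈ E' → (φ ^ j')⁻¹ * v ∈ E' →
      nrC z φ j = nrC z φ j' := by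
    intro v j j' h h'
    have h1 : (φ ^ j)⁻¹ * φ ^ j' ∈ E' := by
      have := E'.mul_mem h (E'.inv_mem h')
      rwa [mul_inv_rev, inv_inv, mul_assoc, mul_inv_cancel_left] at this
    rcases le_total j j' with hle | hle
    · exact (hind' j j' hle h1).symm
    · refine hind' j' j hle ?_
      have := E'.inv_mem h1
      rwa [mul_inv_rev, inv_inv] at this
  let c : G → A := fun v => if h : v ∈ E then nrC z φ (hgen v h).choose else 0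
  have hc : ∀ v ∈ E, ∀ j : ℕ, (φ ^ j)⁻¹ * v ∈ E' → c v = nrC z φ j := by
    intro v hv j hj
    have : c v = nrC z φ (hgen v hv).choose := dif_pos hv
    rw [this]
    exact hind v _ _ (hgen v hv).choose_spec hj
  apply mem_B2_of_inh hρ hz
  refine ⟨c, ?_, ?_⟩
  · obtain ⟨U', hU', hle⟩ := hopen
    refine ⟨U', hU', fun v hv u hu huU => ?_⟩
    obtain ⟨j, hj⟩ := hgen v hv
    rw [hc v hv j hj, hc (v * u) (E.mul_mem hv hu) j]
    rw [← mul_assoc]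
    exact E'.mul_mem hj (hle ⟨hu, huU⟩)
  · intro v hv w hw
    obtain ⟨j, hj⟩ := hgen v hv
    obtain ⟨j', hj'⟩ := hgen w hw
    have hvw : (φ ^ (j + j'))⁻¹ * (v * w) ∈ E' := by
      have h1 := hnorm (φ ^ j')⁻¹ (E.inv_mem (E.pow_mem hφ j')) _ hj
      rw [inv_inv] at h1
      have h2 := E'.mul_mem h1 hj'
      have e : (φ ^ j')⁻¹ * ((φ ^ j)⁻¹ * v) * φ ^ j' * ((φ ^ j')⁻¹ * w)
          = (φ ^ (j + j'))⁻¹ * (v * w) := by
        rw [pow_add]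
        group
      rwa [e] at h2
    rw [hc v hv j hj, hc w hw j' hj', hc (v * w) (E.mul_mem hv hw) (j + j') hvw]
    have hz1 : z 1 v (v * w) = z 1 (φ ^ j) (φ ^ (j + j')) := by
      have h1 := hs 1 (φ ^ j) (φ ^ (j + j')) 1 U.one_mem _ (hE'U hj) _ (hE'U hvw)
      rwa [mul_one, mul_inv_cancel_left, mul_inv_cancel_left] at h1
    have hρv : ρ v = ρ (φ ^ j) := by
      have h1 : v = φ ^ j * ((φ ^ j)⁻¹ * v) := by rw [mul_inv_cancel_left]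
      rw [h1, map_mul, hρU _ (hE'U hj), mul_one]
    rw [hz1, hρv]
    exact nrC_spec hz hφ j j'

end Fermat.Agent.PT
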