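import Fermat.Agent.PT.Local.Dict
import Fermat.Agent.PT.Local.NrAbs
import Fermat.Agent.PT.Local.Unram
import Fermat.Agent.PT.Koch.Levels
import Fermat.Agent.PT.Global.Interface

/-!
# S55, block L: the contract `LocalNrStatement p`
-/

set_option autoImplicit false

namespace Fermat.Agent.PT.Local

open IntermediateField Fermat.Agent.PT ExtCitation

variable {p : ℕ} [Fact p.Prime]

/-- A common level: `z` is `U`-smooth, `U ∈ LS S`, the cyclotomic character is trivial on `U`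
(`exists_mem_LS_cycloChar`, `(LS S).directed'`). -/
theorem exists_level_nr {S : Finset Nat.Primes} (hpS : pPrime p ∈ S) {V : Subgroup GQ}
    {z : GQ → GQ → GQ → ZMod p} (hz : z ∈ X2 (LS S) V (cycRep p)) :
    ∃ U ∈ LS S, (∀ u ∈ U, cycRep p u = 1) ∧
      ∀ g₀ g₁ g₂, ∀ u₀ ∈ U, ∀ u₁ ∈ U, ∀ u₂ ∈ U, z (g₀ * u₀) (g₁ * u₁) (g₂ * u₂) = z g₀ g₁ g₂ := by
  obtain ⟨-, U₁, hU₁, hs⟩ := hz
  obtain ⟨U₂, hU₂, hc⟩ := exists_mem_LS_cycloChar (p := p) hpS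
  obtain ⟨W, hW, h1, h2⟩ := (LS S).directed' U₁ hU₁ U₂ hU₂
  refine ⟨W, hW, fun u hu => ?_, fun g₀ g₁ g₂ u₀ h₀ u₁ h₁' u₂ h₂' =>
    hs g₀ g₁ g₂ u₀ (h1 h₀) u₁ (h1 h₁') u₂ (h1 h₂')⟩
  ext
  simp [cycRep_apply, hc u (h2 hu)]

/-- If `U = F.fixingSubgroup` (`F` a number field) contains the inertia group of `P`, `φ ∈ lg P K` is
a Frobenius and `φ ^ n ∈ U`, `0 < m`, `n ∣ m`, then `lg P (unr P K m) ≤ U`. -/
theorem lg_unr_le_of_ine_le (P : Plc) (K : Fld) [FiniteDimensional ℚ K] (F : Fld)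
    [FiniteDimensional ℚ F] (hI : P.ine ≤ F.fixingSubgroup) {φ : GQ} (hφ : φ ∈ lg P K)
    (hF : IsFrob P (rq P K) φ) {n m : ℕ} (hn : φ ^ n ∈ F.fixingSubgroup) (hm : 0 < m)
    (hnm : n ∣ m) : lg P (unr P K m) ≤ F.fixingSubgroup := by
  intro w hw
  have hfd : FiniteDimensional ℚ (F ⊔ unr P K m : Fld) := IntermediateField.finiteDimensional_sup _ _
  obtain ⟨i, τ, hτ, u, hu, rfl⟩ := frob_gen P K hφ hF (F ⊔ unr P K m)
    (lg_anti P (le_unr P K m) hw)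
  have hτF : τ ∈ F.fixingSubgroup := hI ((mem_li_iff P K τ).1 hτ).1
  have hτu : τ ∈ lg P (unr P K m) := li_le_unr P K m hτ
  have huF : u ∈ F.fixingSubgroup := by
    rw [IntermediateField.mem_fixingSubgroup_iff]
    intro x hx
    exact ((mem_lg_iff P _ u).1 hu).2 x
      ((le_sup_left.trans le_sup_right : F ≤ K ⊔ (F ⊔ unr P K m)) hx)
  have huu : u ∈ lg P (unr P K m) :=
    lg_anti P (le_sup_right.trans le_sup_right : unr P K m ≤ K ⊔ (F ⊔ unr P K m)) hu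
  have hφi : φ ^ i ∈ lg P (unr P K m) := by
    have h1 := (lg P (unr P K m)).mul_mem ((lg P (unr P K m)).mul_mem hw
      ((lg P (unr P K m)).inv_mem huu)) ((lg P (unr P K m)).inv_mem hτu)
    have h2 : φ ^ i * τ * u * u⁻¹ * τ⁻¹ = φ ^ i := by group
    rwa [h2] at h1
  have hmi : m ∣ i := ((isCyc_unr P K hm hφ hF).pow_mem_iff i).1 hφi
  obtain ⟨t, rfl⟩ := hnm.trans hmi
  refine F.fixingSubgroup.mul_mem (F.fixingSubgroup.mul_mem ?_ hτF) huF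
  rw [pow_mul]
  exact F.fixingSubgroup.pow_mem hn t

/-- **(L-nr)** a class of `H²(G_{k,S}, μ_p)` is trivial at every finite place outside `S`. -/
theorem localNr (p : ℕ) [Fact p.Prime] : LocalNrStatement p := by
  intro S hpS V hV 𝒜 hfin hnS z hz
  have hp : p.Prime := Fact.out
  obtain ⟨U, hU, hρU, hs⟩ := exists_level_nr hpS hz.1
  have hIU : Ine 𝒜 ≤ U := Koch.Ine_le_of_mem_LS hU hfin hnS
  have hUfi : U.FiniteIndex := (LS S).finiteIndex' U hU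
  obtain ⟨-, F, hF, rfl⟩ := hU
  have hFfd : FiniteDimensional ℚ F := hF.1
  obtain ⟨K, hK, -, hE⟩ := exists_lg_of_isOpen (Koch.isOpen_Lall_of_isOpen_LS hV) 𝒜 hfin
  have hz' : z ∈ Z2 Lall (V ⊓ Dec 𝒜) (cycRep p) :=
    (inclC (cycRep p) (LS_le_Lall S) (inf_le_left : V ⊓ Dec 𝒜 ≤ V)).memZ2 hz
  rw [hE] at hz' ⊢
  set P : Plc := plcOf 𝒜 hfin with hP
  obtain ⟨φ, hφ, hFr⟩ := exists_frob P K
  obtain ⟨n, hn0, -, hn⟩ := Subgroup.exists_pow_mem_of_index_ne_zero hUfi.index_ne_zero φ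
  have hm : 0 < n * p := Nat.mul_pos hn0 hp.pos
  have hC := isCyc_unr P K hm hφ hFr
  have hρ : IsSmoothRep Lall (cycRep p) := by
    intro a
    obtain ⟨U', hU', h⟩ := isSmoothRep_cycRep (p := p) hpS a
    exact ⟨U', LS_le_Lall S hU', h⟩
  refine mem_B2_of_cyclic_quot hρ (E' := lg P (unr P K (n * p))) hz' hs hρU hφ hn (N := p) ?_
    (lg_unr_le_of_ine_le P K F hIU hφ hFr hn hm (dvd_mul_right n p)) hC.le ?_ hC.normal ?_
    hC.pow_mem_iff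
  · intro a
    simp
  · obtain ⟨U', hU', hle⟩ := isOpen_fixingSubgroup (unr P K (n * p))
    exact ⟨U', hU', fun g hg => ⟨lg_le_dec P K hg.1, hle hg.2⟩⟩
  · intro g hg
    obtain ⟨j, -, hj⟩ := hC.gen g hg
    exact ⟨j, hj⟩

end Fermat.Agent.PT.Local
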