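import Mathlib
import Fermat.Prelude.Def_FLTPrelim_Ramification
import Fermat.Agent.Lib.Frobenius
import Fermat.Agent.CFT.Basic

/-!
# S55, block L (local theory): basic definitions

`Qb = AlgebraicClosure ℚ`, `GQ = Gal(Qb/ℚ)`.  A finite place of `Qb` is a valuation subring `A`
lying over a prime `ℓ` (`Plc`).  For a number field `K ⊆ Qb` the *local Galois group* is
`lg P K = D_A ∩ G_K` and the *local field* is its fixed field `lf P K` (the henselisation of `K`
at `A`; no completions are used anywhere).
-/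

set_option autoImplicit false

namespace Fermat.Agent.PT.Local

open IsDedekindDomain NumberField Fermat.Agent.CFT

noncomputable section

/-- The algebraic closure of `ℚ`. -/
abbrev Qb : Type := AlgebraicClosure ℚ

/-- The absolute Galois group of `ℚ`. -/
abbrev GQ : Type := Qb ≃ₐ[ℚ] Qb

/-- Subfields of `Qb`. -/
abbrev Fld : Type := IntermediateField ℚ Qb

instance instIsGaloisQb : IsGalois ℚ Qb :=
  Fermat.Agent.Lib.Frobenius.isGalois_algebraicClosure inferInstance

instance instIsAlgebraicQb : Algebra.IsAlgebraic ℚ Qb := inferInstance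

/-- A finite place of `Qb`. -/
structure Plc where
  /-- the valuation ring -/
  A : ValuationSubring Qb
  /-- the residue characteristic -/
  ℓ : ℕ
  prime : ℓ.Prime
  liesOver : A.LiesOverPrime ℓ

namespace Plc

variable (P : Plc)

/-- the valuation of a place -/
abbrev v : Valuation Qb P.A.ValueGroup := P.A.valuation

/-- decomposition group -/
abbrev dec : Subgroup GQ := P.A.decompositionSubgroup ℚ

/-- inertia group -/
abbrev ine : Subgroup GQ := P.A.inertiaSubgroupIn ℚ

end Plc

/-- The local Galois group `D_A ∩ G_K`. -/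
def lg (P : Plc) (K : Fld) : Subgroup GQ := P.dec ⊓ K.fixingSubgroup

/-- The local field (henselisation of `K` at `P`): the fixed field of `lg P K`. -/
def lf (P : Plc) (K : Fld) : Fld := IntermediateField.fixedField (lg P K)

/-- The inertia subgroup of the local Galois group. -/
def li (P : Plc) (K : Fld) : Subgroup GQ := P.ine ⊓ K.fixingSubgroup

instance instNumberField (K : Fld) [FiniteDimensional ℚ K] : NumberField K where
  to_charZero := inferInstance
  to_finiteDimensional := inferInstance

/-- The inclusion of the ring of integers of `K` in the valuation ring of `P`. -/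
def toA (P : Plc) (K : Fld) [FiniteDimensional ℚ K] : 𝓞 K →+* P.A :=
  RingHom.codRestrict ((algebraMap K Qb).comp (algebraMap (𝓞 K) K)) P.A.toSubring
    (fun x => Fermat.Agent.Lib.Frobenius.mem_of_isIntegral P.A
      (map_isIntegral_int (algebraMap K Qb) (RingOfIntegers.isIntegral_coe x)))

@[simp] lemma coe_toA (P : Plc) (K : Fld) [FiniteDimensional ℚ K] (x : 𝓞 K) :
    ((toA P K x : P.A) : Qb) = ((x : K) : Qb) := rfl

/-- The prime ideal of `𝓞 K` below `P`. -/
def plIdeal (P : Plc) (K : Fld) [FiniteDimensional ℚ K] : Ideal (𝓞 K) :=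
  (IsLocalRing.maximalIdeal P.A).comap (toA P K)

lemma mem_plIdeal (P : Plc) (K : Fld) [FiniteDimensional ℚ K] (x : 𝓞 K) :
    x ∈ plIdeal P K ↔ P.v ((x : K) : Qb) < 1 := by
  rw [plIdeal, Ideal.mem_comap]
  exact P.A.valuation_lt_one_iff (toA P K x)

/-- The place of `K` below `P`. -/
def pl (P : Plc) (K : Fld) [FiniteDimensional ℚ K] : Pl K where
  asIdeal := plIdeal P K
  isPrime := Ideal.comap_isPrime _ _
  ne_bot := by
    intro h
    have h1 : (P.ℓ : 𝓞 K) ∈ plIdeal P K := by
      rw [mem_plIdeal]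
      have := P.liesOver
      rw [ValuationSubring.LiesOverPrime, ValuationSubring.mem_nonunits_iff_exists_mem_maximalIdeal]
        at this
      obtain ⟨ha, hm⟩ := this
      have h2 := (P.A.valuation_lt_one_iff ⟨_, ha⟩).mp hm
      simpa using h2
    rw [h, Ideal.mem_bot] at h1
    exact P.prime.ne_zero (by exact_mod_cast h1)

/-- The cardinality of the residue field of `K` at `P`. -/
def rq (P : Plc) (K : Fld) [FiniteDimensional ℚ K] : ℕ := Ideal.absNorm (pl P K).asIdeal

/-- The unramified extension of degree `m` (globally: adjoin the roots of unity of order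
`q ^ m - 1`). -/
def unr (P : Plc) (K : Fld) [FiniteDimensional ℚ K] (m : ℕ) : Fld :=
  K ⊔ IntermediateField.adjoin ℚ
    ((Polynomial.nthRootsFinset (rq P K ^ m - 1) (1 : Qb) : Finset Qb) : Set Qb)

instance instFiniteDimensionalUnr (P : Plc) (K : Fld) [FiniteDimensional ℚ K] (m : ℕ) :
    FiniteDimensional ℚ (unr P K m) := by
  have : FiniteDimensional ℚ (IntermediateField.adjoin ℚ
      ((Polynomial.nthRootsFinset (rq P K ^ m - 1) (1 : Qb) : Finset Qb) : Set Qb)) :=
    IntermediateField.finiteDimensional_adjoin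
      (fun x _ => (Algebra.IsAlgebraic.isAlgebraic x).isIntegral)
  exact IntermediateField.finiteDimensional_sup _ _

/-- `π` is a uniformizer of the local field `lf P K`. -/
def IsUnif (P : Plc) (K : Fld) (π : Qb) : Prop :=
  π ∈ lf P K ∧ P.v π < 1 ∧ ∀ x ∈ lf P K, x ≠ 0 → ∃ n : ℤ, P.v x = P.v π ^ n

/-- `φ` is a Frobenius element with respect to `q` (acts as `x ↦ x ^ q` on the residue field). -/
def IsFrob (P : Plc) (q : ℕ) (φ : GQ) : Prop :=
  φ ∈ P.dec ∧ ∀ x ∈ P.A, P.v (φ x - x ^ q) < 1

/-- The norm for a cyclic extension with generator `σ` of order `m`. -/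
def cycNorm (σ : GQ) (m : ℕ) (y : Qb) : Qb := ∏ j ∈ Finset.range m, (σ ^ j) y

/-- The norm from the fixed field of `W` to the fixed field of `V` (`W ≤ V` of finite relative
index): product over the left cosets `g W`, `g ∈ V`. -/
def relNorm (W V : Subgroup GQ) (c : Qb) : Qb :=
  ∏ᶠ x : V ⧸ W.subgroupOf V, ((Quotient.out x : V) : GQ) c

/-- `W` is open in `V`: it contains `V ∩ G_N` for a number field `N`. -/
def IsOpenIn (W V : Subgroup GQ) : Prop :=
  W ≤ V ∧ ∃ N : Fld, FiniteDimensional ℚ N ∧ V ⊓ N.fixingSubgroup ≤ W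

/-- `V'` is an open normal subgroup of `V` with `V / V'` cyclic of order `m` generated by `σ`. -/
structure IsCyc (m : ℕ) (V V' : Subgroup GQ) (σ : GQ) : Prop where
  isOpenIn : IsOpenIn V' V
  normal : ∀ g ∈ V, ∀ h ∈ V', g * h * g⁻¹ ∈ V'
  mem : σ ∈ V
  gen : ∀ g ∈ V, ∃ j : ℕ, j < m ∧ (σ ^ j)⁻¹ * g ∈ V'
  pow_mem_iff : ∀ j : ℕ, σ ^ j ∈ V' ↔ m ∣ j

end

end Fermat.Agent.PT.Local
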