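import Fermat.Agent.PT.Local.Unram

/-!
# S55, block L, leaf L10: ramified cyclic extensions of prime degree
-/

set_option autoImplicit false

namespace Fermat.Agent.PT.Local

open IsDedekindDomain NumberField Fermat.Agent.CFT

variable (P : Plc) (K : Fld) [FiniteDimensional ℚ K] (K₁ : Fld) [FiniteDimensional ℚ K₁]

/-- `lg P K = li P K · lg P K₁` (prime index). -/
theorem ram_exists_mul {p : ℕ} (hp : p.Prime) {σ : GQ} (h : IsCyc p (lg P K) (lg P K₁) σ)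
    (hram : ¬ li P K ≤ lg P K₁) {g : GQ} (hg : g ∈ lg P K) :
    ∃ τ ∈ li P K, ∃ e ∈ lg P K₁, g = τ * e := by
  obtain ⟨τ₀, hτ₀, hτ₀'⟩ := SetLike.not_le_iff_exists.mp hram
  have h' := IsCyc.of_not_mem hp h (li_le_lg P K hτ₀) hτ₀'
  obtain ⟨j, -, hj⟩ := h'.gen g hg
  exact ⟨τ₀ ^ j, Subgroup.pow_mem _ hτ₀ j, _, hj, by rw [mul_inv_cancel_left]⟩

theorem Ram_v_sub_comm (x y : Qb) : P.v (x - y) = P.v (y - x) := by
  rw [← neg_sub, Valuation.map_neg]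

/-- the integers of `lf P K₁` satisfy `y ^ q ≡ y`, `q = rq P K`. -/
theorem Ram_pow_rq_sub {p : ℕ} (hp : p.Prime) {σ : GQ} (h : IsCyc p (lg P K) (lg P K₁) σ)
    (hram : ¬ li P K ≤ lg P K₁) {y : Qb} (hy : y ∈ lf P K₁) (hy1 : P.v y ≤ 1) :
    P.v (y ^ rq P K - y) < 1 := by
  obtain ⟨φ, hφ, hF⟩ := exists_frob P K
  obtain ⟨τ, hτ, e, he, rfl⟩ := ram_exists_mul P K K₁ hp h hram hφ
  have hyA : y ∈ P.A := (P.A.valuation_le_one_iff y).mp hy1
  have hey : e y = y := (mem_lf_iff P K₁ y).mp hy e he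
  have h1 := hF.2 y hyA
  rw [AlgEquiv.mul_apply, hey] at h1
  have h2 := ((mem_ine_iff P τ).mp ((mem_li_iff P K τ).mp hτ).1).2 y hyA
  have h3 : y ^ rq P K - y = (τ y - y) - (τ y - y ^ rq P K) := by ring
  rw [h3]
  exact lt_of_le_of_lt (Valuation.map_sub _ _ _) (max_lt h2 h1)

/-- Same residue field.  Proof: `φ = τ e` as above (`φ` a Frobenius of `K`), so for an integer `y` of
`lf P K₁`: `y^q ≡ φ y = τ y ≡ y`; conclude by `exists_rep_of_pow_rq`. -/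
theorem ram_residue {p : ℕ} (hp : p.Prime) {σ : GQ} (h : IsCyc p (lg P K) (lg P K₁) σ)
    (hram : ¬ li P K ≤ lg P K₁) {y : Qb} (hy : y ∈ lf P K₁) (hy1 : P.v y ≤ 1) :
    ∃ a : 𝓞 K, P.v (y - ((a : K) : Qb)) < 1 :=
  exists_rep_of_pow_rq P K hy1 (Ram_pow_rq_sub P K K₁ hp h hram hy hy1)

theorem Ram_v_int_le_one (K' : Fld) [FiniteDimensional ℚ K'] (a : 𝓞 K') :
    P.v ((a : K') : Qb) ≤ 1 :=
  v_le_one_of_isIntegral P
    (map_isIntegral_int (algebraMap K' Qb) (RingOfIntegers.isIntegral_coe a))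

theorem ram_rq (hK : K ≤ K₁) {p : ℕ} (hp : p.Prime) {σ : GQ}
    (h : IsCyc p (lg P K) (lg P K₁) σ) (hram : ¬ li P K ≤ lg P K₁) : rq P K₁ = rq P K := by
  apply le_antisymm
  · refine rq_le_of_forall P K₁ (one_lt_rq P K) fun a => ?_
    exact Ram_pow_rq_sub P K K₁ hp h hram (le_lf P K₁ (a : K₁).2) (Ram_v_int_le_one P K₁ a)
  · refine rq_le_of_forall P K (one_lt_rq P K₁) fun a => ?_
    exact v_pow_rq_sub P K₁ (le_lf P K₁ (hK (a : K).2)) (Ram_v_int_le_one P K a)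

theorem Ram_lf_le {p : ℕ} {σ : GQ} (h : IsCyc p (lg P K) (lg P K₁) σ) : lf P K ≤ lf P K₁ :=
  IntermediateField.fixedField_antitone h.le

/-- Total ramification.  Proof: `π₁` a uniformizer of `K₁`, `v π = v π₁ ^ e`, `e ≥ 1`;
`v (N π₁) = v π₁ ^ p = v π ^ j`, so `p = e j`.  If `e = 1` then `π` is a uniformizer of `K₁`, and by
`ram_residue` and `approx_of_residue` every `y ∈ lf P K₁` is a limit of elements of `lf P K`, so
`v (σ y - y) ≤ v π ^ n` for all `n`, `σ y = y` (`eq_zero_of_forall_le`), `σ ∈ lg P K₁`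
(`mem_lg_of_fixes`): contradiction with `pow_mem_iff 1`. -/
theorem ram_exists_unif {p : ℕ} (hp : p.Prime) {σ : GQ} (h : IsCyc p (lg P K) (lg P K₁) σ)
    (hram : ¬ li P K ≤ lg P K₁) {π : Qb} (hπ : IsUnif P K π) :
    ∃ π₁, IsUnif P K₁ π₁ ∧ P.v π₁ ^ p = P.v π := by
  obtain ⟨π₁', -, hπ₁⟩ := exists_unif P K₁
  set π₁ : Qb := (π₁' : Qb) with hπ₁def
  have hle := Ram_lf_le P K K₁ h
  have hπ0 := hπ.ne_zero
  have hπ₁0 := hπ₁.ne_zero
  have hσdec : σ ∈ P.dec := lg_le_dec P K h.mem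
  obtain ⟨e, he⟩ := hπ₁.2.2 π (hle hπ.1) hπ0
  have hN : cycNorm σ p π₁ ∈ lf P K := h.cycNorm_mem hπ₁.1
  obtain ⟨j, hj⟩ := hπ.2.2 _ hN (cycNorm_ne_zero σ p hπ₁0)
  rw [v_cycNorm P hσdec, he, ← zpow_mul, ← zpow_natCast] at hj
  have hpe : (p : ℤ) = e * j := v_zpow_injective P hπ₁0 hπ₁.2.1 hj
  have he1 : 1 ≤ e := by
    have h1 : P.v π₁ ^ e ≤ P.v π₁ ^ (1 : ℤ) := by
      rw [← he, zpow_one]
      by_contra hcon
      push Not at hcon
      -- `v π₁ < v π < 1` contradicts that `π₁` is a uniformizer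
      have h2 : P.v π₁ ^ (1 : ℤ) < P.v π₁ ^ e := by rw [← he, zpow_one]; exact hcon
      have h3 : P.v π₁ ^ e < P.v π₁ ^ (0 : ℤ) := by rw [← he, zpow_zero]; exact hπ.2.1
      have h4 : ¬ (1 : ℤ) ≤ e := fun hh =>
        absurd ((v_zpow_le_iff P hπ₁0 hπ₁.2.1).mpr hh) (not_le.mpr h2)
      have h5 : ¬ e ≤ (0 : ℤ) := fun hh =>
        absurd ((v_zpow_le_iff P hπ₁0 hπ₁.2.1).mpr hh) (not_le.mpr h3)
      omega
    exact (v_zpow_le_iff P hπ₁0 hπ₁.2.1).mp h1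
  have hediv : e.natAbs ∣ p := by
    have : e ∣ (p : ℤ) := ⟨j, hpe⟩
    exact Int.natAbs_dvd_natAbs.mpr this
  rcases (Nat.dvd_prime hp).mp hediv with he' | he'
  · -- `e = 1`: impossible
    exfalso
    have he1' : e = 1 := by omega
    rw [he1', zpow_one] at he
    have hπK₁ : IsUnif P K₁ π := hπ₁.of_v_eq (hle hπ.1) he
    have hres : ∀ y ∈ lf P K₁, P.v y ≤ 1 → ∃ a ∈ lf P K, P.v (y - a) < 1 := by
      intro y hy hy1
      obtain ⟨a, ha⟩ := ram_residue P K K₁ hp h hram hy hy1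
      exact ⟨_, le_lf P K (a : K).2, ha⟩
    have hℓ : (P.ℓ : Qb) ∈ lf P K := natCast_mem _ _
    have hℓ0 : (P.ℓ : Qb) ≠ 0 := by exact_mod_cast P.prime.ne_zero
    obtain ⟨k, hk⟩ := hπ.2.2 _ hℓ hℓ0
    have hfix : ∀ y ∈ lf P K₁, σ y = y := by
      intro y hy
      rw [← sub_eq_zero]
      apply eq_zero_of_forall_le P
      intro n
      obtain ⟨x, hx, hxy⟩ : ∃ x ∈ lf P K, P.v (y - x) ≤ P.v π ^ (k.toNat * n) := by
        first
          | exact approx_of_residue P K hπK₁ hπ.1 hle hres hy (k.toNat * n)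
          | exact approx_of_residue P K hπK₁ hπ.1 hres hy (k.toNat * n)
      have hσx : σ x = x := (mem_lf_iff P K x).mp hx σ h.mem
      have h1 : σ y - y = σ (y - x) - (y - x) := by rw [map_sub, hσx]; ring
      have h2 : P.v (σ y - y) ≤ P.v (y - x) := by
        rw [h1]
        refine (Valuation.map_sub _ _ _).trans ?_
        rw [v_map P hσdec, max_self]
      have hk0 : 0 ≤ k := by
        have h3 : P.v π ^ k ≤ P.v π ^ (0 : ℤ) := by
          rw [← hk, zpow_zero]; exact (v_ell_lt_one P).le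
        exact (v_zpow_le_iff P hπ0 hπ.2.1).mp h3
      have h4 : P.v (P.ℓ : Qb) ^ n = P.v π ^ (k.toNat * n) := by
        rw [hk, pow_mul, ← zpow_natCast (P.v π) k.toNat, Int.toNat_of_nonneg hk0]
      rw [h4]
      exact h2.trans hxy
    have hσ1 : σ ∈ lg P K₁ := mem_lg_of_fixes P K₁ hfix
    have := (h.pow_mem_iff 1).mp (by rwa [pow_one])
    exact hp.one_lt.ne' (Nat.dvd_one.mp this)
  · refine ⟨π₁, hπ₁, ?_⟩
    have : e = p := by omega
    rw [he, this, zpow_natCast]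

/-- The unramified extension of `K₁` is the compositum. -/
theorem ram_inf_unr (hK : K ≤ K₁) {p : ℕ} (hp : p.Prime) {σ : GQ}
    (h : IsCyc p (lg P K) (lg P K₁) σ) (hram : ¬ li P K ≤ lg P K₁) (m : ℕ) :
    lg P K₁ ⊓ lg P (unr P K m) = lg P (unr P K₁ m) := by
  unfold unr
  rw [ram_rq P K K₁ hK hp h hram, lg_sup, lg_sup, ← inf_assoc, inf_eq_left.mpr h.le]

end Fermat.Agent.PT.Local
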