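import Fermat.Agent.PT.Local.Fund
import Fermat.Agent.PT.Local.Ram

/-!
# S55, block L: corestriction maps fundamental classes to fundamental classes
-/

set_option autoImplicit false

namespace Fermat.Agent.PT.Local

open IntermediateField

variable {p : ℕ} [Fact p.Prime] {S : LocSym p} {P : Plc} {K : Fld} [FiniteDimensional ℚ K]
  {K₁ : Fld} [FiniteDimensional ℚ K₁]

theorem CorStep_not_dvd_one (p : ℕ) [Fact p.Prime] : ¬ (p : ℤ) ∣ 1 := by
  intro h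
  have h1 : p ∣ 1 := by exact_mod_cast h
  exact (Fact.out : p.Prime).one_lt.ne' (Nat.dvd_one.mp h1)

/-- Ramified step.  Proof: `φ₁ ∈ lg P K₁` Frobenius of `K₁` (and of `K`, `ram_rq`),
`x₁ = c • sym E₁ (E₁ ⊓ E_nr) φ₁ π₁` (`ram_inf_unr`, `isFund_sym`, `exists_smul`), `cor_sym` gives
`cor x₁ = c • sym E E_nr φ₁ (relNorm E₁ E π₁)`, `v (relNorm ..) = v π₁ ^ p = v π`
(`v_relNorm`, `IsCyc.relIndex`, `ram_exists_unif`, `IsUnif.v_eq`); conclude by `isFund_sym`. -/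
theorem IsFund.cor_ram (hK : K ≤ K₁) {σ : GQ} (h : IsCyc p (lg P K) (lg P K₁) σ)
    (hram : ¬ li P K ≤ lg P K₁) {x₁ : S.H (lg P K₁)} (hx₁ : IsFund S P (lg P K₁) x₁) :
    IsFund S P (lg P K) (S.cor h.le x₁) := by
  have hp : p.Prime := Fact.out
  obtain ⟨φ₁, hφ₁, hF₁⟩ := exists_frob P K₁
  have hrq := ram_rq P K K₁ hK hp h hram
  have hF : IsFrob P (rq P K) φ₁ := hrq ▸ hF₁
  have hc : IsCyc p (lg P K) (lg P (unr P K p)) φ₁ := isCyc_unr P K hp.pos (h.le hφ₁) hF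
  have hc₁ : IsCyc p (lg P K₁) (lg P (unr P K₁ p)) φ₁ := isCyc_unr P K₁ hp.pos hφ₁ hF₁
  have hinf := ram_inf_unr P K K₁ hK hp h hram p
  obtain ⟨π, -, hπ⟩ := exists_unif P K
  obtain ⟨π₁, hπ₁, hv⟩ := ram_exists_unif P K K₁ hp h hram hπ
  have hy₁ : IsFund S P (lg P K₁) (S.sym (lg P K₁) (lg P (unr P K₁ p)) φ₁ π₁) :=
    isFund_sym hc₁ hπ₁ hπ₁.1 (j := 1) (CorStep_not_dvd_one p) (zpow_one _).symm
  obtain ⟨c, hc0, rfl⟩ := hy₁.exists_smul hx₁
  rw [map_smul, ← hinf, S.cor_sym hc h.le h.isOpenIn hφ₁ hπ₁.1 hπ₁.ne_zero]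
  refine IsFund.smul ?_ hc0
  refine isFund_sym hc hπ (relNorm_mem h.le h.isOpenIn.relIndex_ne_zero hπ₁.1) (j := 1)
    (CorStep_not_dvd_one p) ?_
  rw [v_relNorm P (lg_le_dec P K) h.isOpenIn.relIndex_ne_zero, h.relIndex hp.pos, hv, zpow_one]

/-- Unramified step, for `K₁ = unr P K p`.  Proof: `φ` Frobenius of `K`; `φ^p` is a Frobenius of
`unr P K p` (`IsFrob.pow`, `rq_unr`), `unr P (unr P K p) p = unr P K (p*p)` (`unr_unr`), `π` stays a
uniformizer (`isUnif_unr`), so `x₁ = c • sym E_p E_{p²} (φ^p) π`; `cor_sym_tower` gives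
`cor x₁ = c • sym E E_p φ π`. -/
theorem IsFund.cor_unr {x₁ : S.H (lg P (unr P K p))} (hx₁ : IsFund S P (lg P (unr P K p)) x₁) :
    IsFund S P (lg P K) (S.cor (unr_le P K p) x₁) := by
  have hp : p.Prime := Fact.out
  obtain ⟨φ, hφ, hF⟩ := exists_frob P K
  have hc : IsCyc p (lg P K) (lg P (unr P K p)) φ := isCyc_unr P K hp.pos hφ hF
  have hcc : IsCyc (p * p) (lg P K) (lg P (unr P K (p * p))) φ :=
    isCyc_unr P K (Nat.mul_pos hp.pos hp.pos) hφ hF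
  have hφp : φ ^ p ∈ lg P (unr P K p) := (hc.pow_mem_iff p).mpr dvd_rfl
  have hFp : IsFrob P (rq P (unr P K p)) (φ ^ p) := by
    rw [rq_unr P K hp.pos]
    exact hF.pow p
  have hc₁ : IsCyc p (lg P (unr P K p)) (lg P (unr P (unr P K p) p)) (φ ^ p) :=
    isCyc_unr P (unr P K p) hp.pos hφp hFp
  have he : lg P (unr P (unr P K p) p) = lg P (unr P K (p * p)) := by
    rw [unr_unr P K hp.pos hp.pos]
  have hle : lg P (unr P K (p * p)) ≤ lg P (unr P K p) := he ▸ hc₁.le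
  obtain ⟨π, -, hπ⟩ := exists_unif P K
  have hπ₁ : IsUnif P (unr P K p) π := isUnif_unr P K hp.pos hπ
  have hy₁ : IsFund S P (lg P (unr P K p))
      (S.sym (lg P (unr P K p)) (lg P (unr P (unr P K p) p)) (φ ^ p) π) :=
    isFund_sym hc₁ hπ₁ hπ₁.1 (j := 1) (CorStep_not_dvd_one p) (zpow_one _).symm
  obtain ⟨c, hc0, rfl⟩ := hy₁.exists_smul hx₁
  rw [map_smul, he, S.cor_sym_tower hcc hc hle hπ.1 hπ.ne_zero]
  exact IsFund.smul (isFund_sym hc hπ hπ.1 (j := 1) (CorStep_not_dvd_one p) (zpow_one _).symm) hc0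

/-- One cyclic step of degree `p` (reduce to the two cases; in the unramified case
`lg P K₁ = lg P (unr P K p)`; `IsFund` only depends on the group, so generalise the subgroup
`W = lg P K₁`, `hW : W ≤ lg P K` and `subst`). -/
theorem IsFund.cor_step (hK : K ≤ K₁) {σ : GQ} (h : IsCyc p (lg P K) (lg P K₁) σ)
    {x₁ : S.H (lg P K₁)} (hx₁ : IsFund S P (lg P K₁) x₁) : IsFund S P (lg P K) (S.cor h.le x₁) := by
  have hp : p.Prime := Fact.out
  by_cases hram : li P K ≤ lg P K₁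
  · have key : ∀ (W : Subgroup GQ) (hW : W ≤ lg P K) (x : S.H W), W = lg P (unr P K p) →
        IsFund S P W x → IsFund S P (lg P K) (S.cor hW x) := by
      intro W hW x hWe hx
      subst hWe
      exact IsFund.cor_unr hx
    exact key _ h.le x₁ (eq_unr_of_li_le P K hp h hram) hx₁
  · exact IsFund.cor_ram hK h hram hx₁

/-- Index prime to `p`.  Proof: `E' = lg P K'` is not contained in `E_nr = lg P (unr P K p)` (else
`p ∣ [E : E']`); take `σ ∈ E' \ E_nr`: `IsCyc p E E_nr σ` (`IsCyc.of_not_mem`),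
`IsCyc p E' (E' ⊓ E_nr) σ` (`IsCyc.inf`), `E' ⊓ E_nr = lg P (unr P K' p)` (`eq_unr_of_li_le` for
`K'`, `li_anti`, `li_le_unr`).  `x' = c • sym E' (E' ⊓ E_nr) σ π'`, `cor_sym`:
`cor x' = c • sym E E_nr σ (relNorm E' E π')`, `v (relNorm) = v π' ^ n`, `n = [E : E']`; with
`v π = v π' ^ e` and `v (relNorm) = v π ^ j` we get `n = e j`, so `p ∤ j`. -/
theorem IsFund.cor_prime {K' : Fld} [FiniteDimensional ℚ K'] (hK : K ≤ K')
    (hidx : ¬ p ∣ (lg P K').relIndex (lg P K)) {x' : S.H (lg P K')} (hx' : IsFund S P (lg P K') x') :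
    IsFund S P (lg P K) (S.cor (lg_anti P hK) x') := by
  have hp : p.Prime := Fact.out
  obtain ⟨φ, hφ, hF⟩ := exists_frob P K
  have hcφ : IsCyc p (lg P K) (lg P (unr P K p)) φ := isCyc_unr P K hp.pos hφ hF
  have hle : lg P K' ≤ lg P K := lg_anti P hK
  have hopen : IsOpenIn (lg P K') (lg P K) := isOpenIn_lg P hK
  have hnot : ¬ lg P K' ≤ lg P (unr P K p) := by
    intro hcon
    apply hidx
    rw [← Subgroup.relIndex_mul_relIndex _ _ _ hcon hcφ.le, hcφ.relIndex hp.pos]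
    exact Dvd.intro_left _ rfl
  obtain ⟨σ, hσ, hσ'⟩ := SetLike.not_le_iff_exists.mp hnot
  have hc : IsCyc p (lg P K) (lg P (unr P K p)) σ := IsCyc.of_not_mem hp hcφ (hle hσ) hσ'
  have hc' : IsCyc p (lg P K') (lg P K' ⊓ lg P (unr P K p)) σ := hc.inf hle hσ
  have hli : li P K' ≤ lg P K' ⊓ lg P (unr P K p) :=
    le_inf (li_le_lg P K') ((li_anti P hK).trans (li_le_unr P K p))
  have hinf : lg P K' ⊓ lg P (unr P K p) = lg P (unr P K' p) := eq_unr_of_li_le P K' hp hc' hli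
  have hc'' : IsCyc p (lg P K') (lg P (unr P K' p)) σ := hinf ▸ hc'
  obtain ⟨π, -, hπ⟩ := exists_unif P K
  obtain ⟨π', -, hπ'⟩ := exists_unif P K'
  have hy' : IsFund S P (lg P K') (S.sym (lg P K') (lg P (unr P K' p)) σ π') :=
    isFund_sym hc'' hπ' hπ'.1 (j := 1) (CorStep_not_dvd_one p) (zpow_one _).symm
  obtain ⟨c, hc0, rfl⟩ := hy'.exists_smul hx'
  rw [map_smul, ← hinf, S.cor_sym hc hle hopen hσ hπ'.1 hπ'.ne_zero]
  refine IsFund.smul ?_ hc0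
  have hb : relNorm (lg P K') (lg P K) (π' : Qb) ∈ lf P K :=
    relNorm_mem hle hopen.relIndex_ne_zero hπ'.1
  have hb0 : relNorm (lg P K') (lg P K) (π' : Qb) ≠ 0 := relNorm_ne_zero hπ'.ne_zero
  obtain ⟨j, hj⟩ := hπ.2.2 _ hb hb0
  obtain ⟨e, he⟩ := hπ'.2.2 _ (lf_mono P hK hπ.1) hπ.ne_zero
  refine isFund_sym hc hπ hb (j := j) ?_ hj
  intro hpj
  apply hidx
  have h1 := hj
  rw [v_relNorm P (lg_le_dec P K) hopen.relIndex_ne_zero, he, ← zpow_mul, ← zpow_natCast] at h1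
  have h2 : (((lg P K').relIndex (lg P K) : ℕ) : ℤ) = e * j :=
    v_zpow_injective P hπ'.ne_zero hπ'.2.1 h1
  have h3 : (p : ℤ) ∣ (((lg P K').relIndex (lg P K) : ℕ) : ℤ) := by
    rw [h2]
    exact Dvd.dvd.mul_left hpj e
  exact_mod_cast h3

end Fermat.Agent.PT.Local
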