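import Fermat.Agent.PT.Local.Val

/-!
# S55, block L, leaf L01b: norms (`cycNorm`, `relNorm`) and the predicate `IsCyc`
-/

set_option autoImplicit false

namespace Fermat.Agent.PT.Local

open IntermediateField

theorem Norm_fixingSubgroup_index_ne_zero (N : Fld) [FiniteDimensional ℚ N] :
    N.fixingSubgroup.index ≠ 0 := by
  rw [← IntermediateField.finrank_eq_fixingSubgroup_index]
  exact Module.finrank_pos.ne'

theorem IsOpenIn.relIndex_ne_zero {W V : Subgroup GQ} (h : IsOpenIn W V) : W.relIndex V ≠ 0 := by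
  obtain ⟨-, N, hN, hle⟩ := h
  intro h0
  have h1 : (V ⊓ N.fixingSubgroup).relIndex V = 0 := Subgroup.relIndex_eq_zero_of_le_left hle h0
  rw [Subgroup.inf_relIndex_left] at h1
  have h2 := Subgroup.relIndex_eq_zero_of_le_right (le_top : V ≤ ⊤) h1
  rw [Subgroup.relIndex_top_right] at h2
  exact Norm_fixingSubgroup_index_ne_zero N h2

theorem IsOpenIn.trans {X W V : Subgroup GQ} (h1 : IsOpenIn X W) (h2 : IsOpenIn W V) :
    IsOpenIn X V := by
  obtain ⟨hXW, N1, hN1, h1⟩ := h1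
  obtain ⟨hWV, N2, hN2, h2⟩ := h2
  refine ⟨hXW.trans hWV, N1 ⊔ N2, IntermediateField.finiteDimensional_sup _ _, ?_⟩
  rw [IntermediateField.fixingSubgroup_sup]
  intro g hg
  obtain ⟨hgV, hg1, hg2⟩ := hg
  exact h1 ⟨h2 ⟨hgV, hg2⟩, hg1⟩

theorem IsOpenIn.of_le {X W V : Subgroup GQ} (h : IsOpenIn X V) (h1 : X ≤ W) (h2 : W ≤ V) :
    IsOpenIn X W ∧ IsOpenIn W V := by
  obtain ⟨-, N, hN, h⟩ := h
  exact ⟨⟨h1, N, hN, fun g hg => h ⟨h2 hg.1, hg.2⟩⟩, ⟨h2, N, hN, h.trans h1⟩⟩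

theorem isOpenIn_lg (P : Plc) {K K' : Fld} [FiniteDimensional ℚ K'] (h : K ≤ K') :
    IsOpenIn (lg P K') (lg P K) :=
  ⟨lg_anti P h, K', inferInstance, fun _ hg => ⟨hg.1.1, hg.2⟩⟩

theorem IsCyc.le {m : ℕ} {V V' : Subgroup GQ} {σ : GQ} (h : IsCyc m V V' σ) : V' ≤ V :=
  h.isOpenIn.1

theorem IsCyc.Norm_pos {m : ℕ} {V V' : Subgroup GQ} {σ : GQ} (h : IsCyc m V V' σ) : 0 < m := by
  obtain ⟨j, hj, -⟩ := h.gen σ h.mem
  exact lt_of_le_of_lt (Nat.zero_le _) hj

theorem Norm_normal {V V' : Subgroup GQ} (hn : ∀ g ∈ V, ∀ h ∈ V', g * h * g⁻¹ ∈ V') :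
    (V'.subgroupOf V).Normal :=
  ⟨fun h hh g => by
    rw [Subgroup.mem_subgroupOf] at hh ⊢
    exact hn g g.2 h hh⟩

/-- Characterisation of `IsCyc` in the quotient group. -/
theorem Norm_isCyc_iff {m : ℕ} (hm : 0 < m) {V V' : Subgroup GQ} {σ : GQ} (ho : IsOpenIn V' V)
    [(V'.subgroupOf V).Normal] (hσ : σ ∈ V) :
    IsCyc m V V' σ ↔ orderOf ((⟨σ, hσ⟩ : V) : V ⧸ V'.subgroupOf V) = m ∧
      ∀ y : V ⧸ V'.subgroupOf V, y ∈ Subgroup.zpowers ((⟨σ, hσ⟩ : V) : V ⧸ V'.subgroupOf V) := by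
  classical
  set x : V ⧸ V'.subgroupOf V := ((⟨σ, hσ⟩ : V) : V ⧸ V'.subgroupOf V) with hx
  have hpow : ∀ j : ℕ, x ^ j = 1 ↔ σ ^ j ∈ V' := by
    intro j
    rw [hx, ← QuotientGroup.mk_pow, QuotientGroup.eq_one_iff, Subgroup.mem_subgroupOf]
    rfl
  constructor
  · intro h
    have ho' : orderOf x = m := by
      apply Nat.dvd_antisymm
      · rw [orderOf_dvd_iff_pow_eq_one, hpow, h.pow_mem_iff]
      · rw [← h.pow_mem_iff, ← hpow, pow_orderOf_eq_one]
    refine ⟨ho', fun y => ?_⟩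
    obtain ⟨g, rfl⟩ := QuotientGroup.mk_surjective y
    obtain ⟨j, -, hj⟩ := h.gen g g.2
    refine ⟨(j : ℤ), ?_⟩
    simp only [zpow_natCast]
    rw [hx, ← QuotientGroup.mk_pow, QuotientGroup.eq, Subgroup.mem_subgroupOf]
    exact hj
  · rintro ⟨h1, h2⟩
    have hfin : IsOfFinOrder x := by
      rw [← orderOf_pos_iff, h1]; exact hm
    refine ⟨ho, ?_, hσ, ?_, ?_⟩
    · intro g hg h hh
      have hN : (V'.subgroupOf V).Normal := inferInstance
      have := hN.conj_mem ⟨h, ho.1 hh⟩ (by rw [Subgroup.mem_subgroupOf]; exact hh) ⟨g, hg⟩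
      rw [Subgroup.mem_subgroupOf] at this
      exact this
    · intro g hg
      have h3 := h2 ((⟨g, hg⟩ : V) : V ⧸ V'.subgroupOf V)
      rw [hfin.mem_zpowers_iff_mem_range_orderOf, Finset.mem_image] at h3
      obtain ⟨j, hj, hj2⟩ := h3
      rw [Finset.mem_range, h1] at hj
      refine ⟨j, hj, ?_⟩
      rw [hx, ← QuotientGroup.mk_pow, QuotientGroup.eq, Subgroup.mem_subgroupOf] at hj2
      exact hj2
    · intro j
      rw [← hpow, ← orderOf_dvd_iff_pow_eq_one, h1]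

theorem IsCyc.relIndex {m : ℕ} (hm : 0 < m) {V V' : Subgroup GQ} {σ : GQ} (h : IsCyc m V V' σ) :
    V'.relIndex V = m := by
  have := Norm_normal h.normal
  obtain ⟨h1, h2⟩ := (Norm_isCyc_iff hm h.isOpenIn h.mem).1 h
  rw [Subgroup.relIndex, Subgroup.index, ← orderOf_eq_card_of_forall_mem_zpowers h2, h1]

/-- Change of generator modulo `V'`. -/
theorem IsCyc.congr {m : ℕ} {V V' : Subgroup GQ} {σ σ' : GQ} (h : IsCyc m V V' σ)
    (hσ' : σ⁻¹ * σ' ∈ V') : IsCyc m V V' σ' := by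
  have := Norm_normal h.normal
  have hmem : σ' ∈ V := by
    have := V.mul_mem h.mem (h.le hσ')
    rwa [mul_inv_cancel_left] at this
  have h1 := (Norm_isCyc_iff h.Norm_pos h.isOpenIn h.mem).1 h
  rw [Norm_isCyc_iff h.Norm_pos h.isOpenIn hmem]
  have e : ((⟨σ, h.mem⟩ : V) : V ⧸ V'.subgroupOf V) = ((⟨σ', hmem⟩ : V) : V ⧸ V'.subgroupOf V) := by
    rw [QuotientGroup.eq, Subgroup.mem_subgroupOf]
    exact hσ'
  rwa [← e]

/-- For prime `p` any element of `V` outside `V'` is a generator. -/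
theorem Norm_isCyc_of_not_mem {p : ℕ} (hp : p.Prime) {V V' : Subgroup GQ} {σ' : GQ}
    (ho : IsOpenIn V' V) (hn : ∀ g ∈ V, ∀ h ∈ V', g * h * g⁻¹ ∈ V') (hi : V'.relIndex V = p)
    (h1 : σ' ∈ V) (h2 : σ' ∉ V') : IsCyc p V V' σ' := by
  have := Norm_normal hn
  have : Fact p.Prime := ⟨hp⟩
  have hcard : Nat.card (V ⧸ V'.subgroupOf V) = p := hi
  rw [Norm_isCyc_iff hp.pos ho h1]
  have hne : ((⟨σ', h1⟩ : V) : V ⧸ V'.subgroupOf V) ≠ 1 := by
    rw [Ne, QuotientGroup.eq_one_iff, Subgroup.mem_subgroupOf]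
    exact h2
  refine ⟨?_, fun y => mem_zpowers_of_prime_card hcard hne⟩
  apply orderOf_eq_prime _ hne
  rw [← hcard]
  exact pow_card_eq_one'

/-- For prime `p` any element of `V` outside `V'` is a generator. -/
theorem IsCyc.of_not_mem {p : ℕ} (hp : p.Prime) {V V' : Subgroup GQ} {σ σ' : GQ}
    (h : IsCyc p V V' σ) (h1 : σ' ∈ V) (h2 : σ' ∉ V') : IsCyc p V V' σ' :=
  Norm_isCyc_of_not_mem hp h.isOpenIn h.normal (h.relIndex hp.pos) h1 h2

/-- An open normal subgroup of prime index gives an `IsCyc`. -/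
theorem IsCyc.of_relIndex {p : ℕ} (hp : p.Prime) {V V' : Subgroup GQ} (ho : IsOpenIn V' V)
    (hn : ∀ g ∈ V, ∀ h ∈ V', g * h * g⁻¹ ∈ V') (hi : V'.relIndex V = p) :
    ∃ σ, IsCyc p V V' σ := by
  have hex : ∃ σ ∈ V, σ ∉ V' := by
    by_contra hcon
    push Not at hcon
    have hle : V ≤ V' := hcon
    rw [Subgroup.relIndex_eq_one.2 hle] at hi
    exact hp.one_lt.ne hi
  obtain ⟨σ, h1, h2⟩ := hex
  exact ⟨σ, Norm_isCyc_of_not_mem hp ho hn hi h1 h2⟩

/-- Restriction of a cyclic quotient of prime order to a subgroup containing the generator. -/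
theorem IsCyc.inf {p : ℕ} {V V' W : Subgroup GQ} {σ : GQ} (h : IsCyc p V V' σ) (hW : W ≤ V)
    (hσ : σ ∈ W) : IsCyc p W (W ⊓ V') σ := by
  obtain ⟨-, N, hN, hle⟩ := h.isOpenIn
  refine ⟨⟨inf_le_left, N, hN, fun g hg => ⟨hg.1, hle ⟨hW hg.1, hg.2⟩⟩⟩, ?_, hσ, ?_, ?_⟩
  · intro g hg k hk
    exact ⟨W.mul_mem (W.mul_mem hg hk.1) (W.inv_mem hg), h.normal g (hW hg) k hk.2⟩
  · intro g hg
    obtain ⟨j, hj, hj2⟩ := h.gen g (hW hg)
    exact ⟨j, hj, W.mul_mem (W.inv_mem (W.pow_mem hσ j)) hg, hj2⟩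
  · intro j
    rw [← h.pow_mem_iff]
    exact ⟨fun hh => hh.2, fun hh => ⟨W.pow_mem hσ j, hh⟩⟩

/-- The middle step of a cyclic quotient of order `m * n`. -/
theorem IsCyc.pow {m n : ℕ} {V V' V'' : Subgroup GQ} {σ : GQ} (h : IsCyc (m * n) V V'' σ)
    (h' : IsCyc m V V' σ) (hle : V'' ≤ V') : IsCyc n V' V'' (σ ^ m) := by
  have hm : 0 < m := h'.Norm_pos
  refine ⟨(h.isOpenIn.of_le hle h'.le).1, fun g hg k hk => h.normal g (h'.le hg) k hk,
    (h'.pow_mem_iff m).2 dvd_rfl, ?_, ?_⟩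
  · intro g hg
    obtain ⟨j, hj, hj2⟩ := h.gen g (h'.le hg)
    have h3 : σ ^ j ∈ V' := by
      have := V'.mul_mem hg (V'.inv_mem (hle hj2))
      rwa [mul_inv_rev, inv_inv, mul_inv_cancel_left] at this
    rw [h'.pow_mem_iff] at h3
    obtain ⟨k, rfl⟩ := h3
    refine ⟨k, lt_of_mul_lt_mul_left hj (Nat.zero_le _), ?_⟩
    rwa [← pow_mul]
  · intro j
    rw [← pow_mul, h.pow_mem_iff]
    exact Nat.mul_dvd_mul_iff_left hm

theorem cycNorm_mul (σ : GQ) (m : ℕ) (x y : Qb) :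
    cycNorm σ m (x * y) = cycNorm σ m x * cycNorm σ m y := by
  simp only [cycNorm, map_mul, Finset.prod_mul_distrib]

theorem cycNorm_one (σ : GQ) (m : ℕ) : cycNorm σ m 1 = 1 := by
  simp only [cycNorm, map_one, Finset.prod_const_one]

theorem cycNorm_inv (σ : GQ) (m : ℕ) (x : Qb) : cycNorm σ m x⁻¹ = (cycNorm σ m x)⁻¹ := by
  simp only [cycNorm, map_inv₀, Finset.prod_inv_distrib]

theorem cycNorm_ne_zero (σ : GQ) (m : ℕ) {x : Qb} (hx : x ≠ 0) : cycNorm σ m x ≠ 0 := by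
  rw [cycNorm, Finset.prod_ne_zero_iff]
  intro j _
  exact (map_ne_zero _).2 hx

theorem Norm_pow_apply_of_fixed {σ : GQ} {x : Qb} (hx : σ x = x) (j : ℕ) : (σ ^ j) x = x := by
  induction j with
  | zero => simp
  | succ j ih => rw [pow_succ, AlgEquiv.mul_apply, hx, ih]

theorem cycNorm_of_fixed {σ : GQ} (m : ℕ) {x : Qb} (hx : σ x = x) : cycNorm σ m x = x ^ m := by
  rw [cycNorm, Finset.prod_congr rfl (fun j _ => Norm_pow_apply_of_fixed hx j), Finset.prod_const,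
    Finset.card_range]

theorem v_cycNorm (P : Plc) {σ : GQ} (hσ : σ ∈ P.dec) (m : ℕ) (x : Qb) :
    P.v (cycNorm σ m x) = P.v x ^ m := by
  rw [cycNorm, map_prod, Finset.prod_congr rfl (fun j _ => v_map P (P.dec.pow_mem hσ j) x),
    Finset.prod_const, Finset.card_range]

/-- `σ` maps the fixed field of the normal subgroup `V'` to itself. -/
theorem IsCyc.map_mem {m : ℕ} {V V' : Subgroup GQ} {σ : GQ} (h : IsCyc m V V' σ) {g : GQ}
    (hg : g ∈ V) {y : Qb} (hy : y ∈ fixedField V') : g y ∈ fixedField V' := by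
  rw [IntermediateField.mem_fixedField_iff] at hy ⊢
  intro k hk
  have h1 := h.normal g⁻¹ (V.inv_mem hg) k hk
  have h2 := hy _ h1
  rw [inv_inv] at h2
  calc k (g y) = g ((g⁻¹ * k * g) y) := by
        rw [← AlgEquiv.mul_apply, ← AlgEquiv.mul_apply, mul_assoc, mul_inv_cancel_left]
    _ = g y := by rw [h2]

/-- An element of the fixed field of `V'` fixed by the generator lies in the fixed field of `V`. -/
theorem IsCyc.mem_fixedField {m : ℕ} {V V' : Subgroup GQ} {σ : GQ} (h : IsCyc m V V' σ) {y : Qb}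
    (hy : y ∈ fixedField V') (hσ : σ y = y) : y ∈ fixedField V := by
  rw [IntermediateField.mem_fixedField_iff] at hy ⊢
  intro g hg
  obtain ⟨j, -, hj⟩ := h.gen g hg
  have h1 := hy _ hj
  calc g y = (σ ^ j) (((σ ^ j)⁻¹ * g) y) := by
        rw [← AlgEquiv.mul_apply, mul_inv_cancel_left]
    _ = y := by rw [h1, Norm_pow_apply_of_fixed hσ]

theorem IsCyc.Norm_pow_apply {m : ℕ} {V V' : Subgroup GQ} {σ : GQ} (h : IsCyc m V V' σ) {y : Qb}
    (hy : y ∈ fixedField V') : (σ ^ m) y = y := by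
  rw [IntermediateField.mem_fixedField_iff] at hy
  exact hy _ ((h.pow_mem_iff m).2 dvd_rfl)

theorem IsCyc.cycNorm_mem {m : ℕ} {V V' : Subgroup GQ} {σ : GQ} (h : IsCyc m V V' σ) {y : Qb}
    (hy : y ∈ fixedField V') : cycNorm σ m y ∈ fixedField V := by
  apply h.mem_fixedField
  · exact prod_mem (fun j _ => h.map_mem (V.pow_mem h.mem j) hy)
  · have hm := h.Norm_pos
    have hpow := h.Norm_pow_apply hy
    obtain ⟨k, rfl⟩ := Nat.exists_eq_succ_of_ne_zero hm.ne'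
    rw [cycNorm, map_prod]
    have e : ∀ j, σ ((σ ^ j) y) = (σ ^ (j + 1)) y := by
      intro j
      rw [pow_succ', AlgEquiv.mul_apply]
    simp only [e]
    rw [Finset.prod_range_succ, Finset.prod_range_succ' (fun j => (σ ^ j) y), hpow]
    simp

/-- The cyclic trace lies in the fixed field of `V`. -/
theorem IsCyc.cycTrace_mem {m : ℕ} {V V' : Subgroup GQ} {σ : GQ} (h : IsCyc m V V' σ) {y : Qb}
    (hy : y ∈ fixedField V') : ∑ j ∈ Finset.range m, (σ ^ j) y ∈ fixedField V := by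
  apply h.mem_fixedField
  · exact sum_mem (fun j _ => h.map_mem (V.pow_mem h.mem j) hy)
  · have hm := h.Norm_pos
    have hpow := h.Norm_pow_apply hy
    obtain ⟨k, rfl⟩ := Nat.exists_eq_succ_of_ne_zero hm.ne'
    rw [map_sum]
    have e : ∀ j, σ ((σ ^ j) y) = (σ ^ (j + 1)) y := by
      intro j
      rw [pow_succ', AlgEquiv.mul_apply]
    simp only [e]
    rw [Finset.sum_range_succ, Finset.sum_range_succ' (fun j => (σ ^ j) y), hpow]
    simp

/-- The value of a representative on an element of the fixed field of `W` only depends on the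
coset. -/
theorem Norm_out_apply {W V : Subgroup GQ} {c : Qb} (hc : c ∈ fixedField W) (a : V) :
    ((Quotient.out (QuotientGroup.mk a : V ⧸ W.subgroupOf V) : V) : GQ) c = (a : GQ) c := by
  rw [IntermediateField.mem_fixedField_iff] at hc
  obtain ⟨k, hk⟩ := QuotientGroup.mk_out_eq_mul (W.subgroupOf V) a
  rw [hk]
  have h1 : ((k : V) : GQ) ∈ W := Subgroup.mem_subgroupOf.1 k.2
  rw [Subgroup.coe_mul, AlgEquiv.mul_apply, hc _ h1]

theorem relNorm_mem {W V : Subgroup GQ} (hWV : W ≤ V) (hfin : W.relIndex V ≠ 0) {c : Qb}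
    (hc : c ∈ fixedField W) : relNorm W V c ∈ fixedField V := by
  rw [IntermediateField.mem_fixedField_iff]
  intro g hg
  have : Finite (V ⧸ W.subgroupOf V) := Nat.finite_of_card_ne_zero hfin
  rw [relNorm, map_finprod g (Set.toFinite _)]
  rw [← finprod_comp_equiv (MulAction.toPerm (⟨g, hg⟩ : V) : Equiv.Perm (V ⧸ W.subgroupOf V))
    (f := fun x => ((Quotient.out x : V) : GQ) c)]
  apply finprod_congr
  intro x
  obtain ⟨a, rfl⟩ := QuotientGroup.mk_surjective x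
  rw [MulAction.toPerm_apply, MulAction.Quotient.smul_mk, Norm_out_apply hc, Norm_out_apply hc]
  rfl

theorem relNorm_ne_zero {W V : Subgroup GQ} {c : Qb} (hc : c ≠ 0) : relNorm W V c ≠ 0 := by
  rw [relNorm]
  exact finprod_induction (p := fun z : Qb => z ≠ 0) one_ne_zero (fun _ _ => mul_ne_zero)
    (fun _ => (map_ne_zero _).2 hc)

theorem v_relNorm (P : Plc) {W V : Subgroup GQ} (hV : V ≤ P.dec) (hfin : W.relIndex V ≠ 0)
    (c : Qb) : P.v (relNorm W V c) = P.v c ^ (W.relIndex V) := by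
  have : Finite (V ⧸ W.subgroupOf V) := Nat.finite_of_card_ne_zero hfin
  have := Fintype.ofFinite (V ⧸ W.subgroupOf V)
  have e : ∀ x : V ⧸ W.subgroupOf V, P.v (((Quotient.out x : V) : GQ) c) = P.v c :=
    fun x => v_map P (hV (Quotient.out x : V).2) c
  rw [relNorm, finprod_eq_prod_of_fintype, map_prod]
  simp only [e]
  rw [Finset.prod_const, Finset.card_univ, ← Nat.card_eq_fintype_card]
  rfl

/-- The norm does not depend on the generator. -/
theorem IsCyc.cycNorm_eq_relNorm {m : ℕ} (hm : 0 < m) {V V' : Subgroup GQ} {σ : GQ}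
    (h : IsCyc m V V' σ) {y : Qb} (hy : y ∈ fixedField V') :
    cycNorm σ m y = relNorm V' V y := by
  have := Norm_normal h.normal
  obtain ⟨h1, h2⟩ := (Norm_isCyc_iff hm h.isOpenIn h.mem).1 h
  set x : V ⧸ V'.subgroupOf V := ((⟨σ, h.mem⟩ : V) : V ⧸ V'.subgroupOf V) with hx
  have hbij : Function.Bijective (fun j : Fin m => x ^ (j : ℕ)) := by
    constructor
    · intro i j hij
      apply Fin.ext
      exact pow_injOn_Iio_orderOf (by rw [Set.mem_Iio, h1]; exact i.2)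
        (by rw [Set.mem_Iio, h1]; exact j.2) hij
    · intro z
      obtain ⟨g, rfl⟩ := QuotientGroup.mk_surjective z
      obtain ⟨j, hj, hj2⟩ := h.gen g g.2
      refine ⟨⟨j, hj⟩, ?_⟩
      change x ^ j = _
      rw [hx, ← QuotientGroup.mk_pow, QuotientGroup.eq, Subgroup.mem_subgroupOf]
      exact hj2
  rw [relNorm, cycNorm, ← Fin.prod_univ_eq_prod_range (fun j => (σ ^ j) y) m,
    ← finprod_eq_prod_of_fintype]
  apply finprod_eq_of_bijective _ hbij
  intro j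
  rw [hx, ← QuotientGroup.mk_pow, Norm_out_apply hy]
  rfl

end Fermat.Agent.PT.Local
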