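import Fermat.Agent.PT.Local.VOrd
import Fermat.Agent.PT.Local.Norm
import Fermat.Agent.CFT.Lift
import Fermat.Agent.PT.Local.HensGlue

/-!
# S55, block L, leaf L03: a number field is dense in its henselisation
-/

set_option autoImplicit false

namespace Fermat.Agent.PT.Local

open IsDedekindDomain NumberField Fermat.Agent.CFT

/-- **Density** (wrapper of `PT.exists_close_of_mem_kh`, block HENS). -/
theorem dense (P : Plc) (K : Fld) [FiniteDimensional ℚ K] {x : Qb} (hx : x ∈ lf P K) (n : ℕ) :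
    ∃ y ∈ K, P.v (x - y) ≤ P.v (P.ℓ : Qb) ^ n := by
  rw [lf_eq_kh] at hx
  have hc : ((P.ℓ : Qb) ^ n) ≠ 0 := pow_ne_zero _ (by exact_mod_cast P.prime.ne_zero)
  obtain ⟨y, hy⟩ := Fermat.Agent.PT.exists_close_of_mem_kh (isFin P) hx hc
  refine ⟨y, y.2, ?_⟩
  rw [map_pow] at hy
  exact hy.le

/-- Multiplicative form: a nonzero element of the local field is `y * u` with `y ∈ K` and `u`
close to `1`. -/
theorem dense_mul (P : Plc) (K : Fld) [FiniteDimensional ℚ K] {x : Qb} (hx : x ∈ lf P K)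
    (hx0 : x ≠ 0) (n : ℕ) :
    ∃ y ∈ K, y ≠ 0 ∧ P.v (x / y - 1) ≤ P.v (P.ℓ : Qb) ^ n := by
  rw [lf_eq_kh] at hx
  have hc : ((P.ℓ : Qb) ^ n) ≠ 0 := pow_ne_zero _ (by exact_mod_cast P.prime.ne_zero)
  obtain ⟨y, hy⟩ := Fermat.Agent.PT.exists_div_close_of_mem_kh (isFin P) hx hx0 hc
  refine ⟨((y : ↥K) : Qb), (y : ↥K).2, ?_, ?_⟩
  · intro h
    exact y.ne_zero (Subtype.ext h)
  · rw [map_pow] at hy
    exact hy.le

end Fermat.Agent.PT.Local
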