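import Fermat.Agent.PT.Local.Closed
import Fermat.Agent.PT.Gal.Setup

/-!
# S55, block L: dictionary between the `GQ`-language of the contracts (`Lall.IsOpen V`,
`𝒜.IsFin`, `V ⊓ Dec 𝒜`) and the language of block L (`K : Fld`, `P : Plc`, `lg P K`)
-/

set_option autoImplicit false

namespace Fermat.Agent.PT.Local

open IntermediateField Fermat.Agent.PT

noncomputable section

/-- An `Lall`-open subgroup is the fixing subgroup of a number field. -/
theorem exists_fld_of_isOpen {V : Subgroup GQ} (hV : Lall.IsOpen V) :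
    ∃ K : Fld, FiniteDimensional ℚ K ∧ K.fixingSubgroup = V := by
  obtain ⟨U, ⟨-, F, hF, rfl⟩, hUV⟩ := hV
  have hopen : IsOpen (V : Set GQ) :=
    Subgroup.isOpen_mono hUV (IntermediateField.fixingSubgroup_isOpen F)
  have hclosed : IsClosed (V : Set GQ) := Subgroup.isClosed_of_isOpen V hopen
  refine ⟨fixedField V, ?_, InfiniteGalois.fixingSubgroup_fixedField ⟨V, hclosed⟩⟩
  have hle : fixedField V ≤ F := by
    have h1 : fixedField V ≤ fixedField F.fixingSubgroup := fun x hx g => hx ⟨g.1, hUV g.2⟩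
    rwa [InfiniteGalois.fixedField_fixingSubgroup] at h1
  exact FiniteDimensional.of_injective (IntermediateField.inclusion hle).toLinearMap
    (IntermediateField.inclusion hle).injective

/-- the fixing subgroup of a number field is `Lall`-open -/
theorem isOpen_fixingSubgroup (K : Fld) [FiniteDimensional ℚ K] : Lall.IsOpen K.fixingSubgroup := by
  refine ⟨(normalClosure ℚ K Qb).fixingSubgroup, ⟨?_, normalClosure ℚ K Qb, inferInstance, rfl⟩,
    IntermediateField.fixingSubgroup_antitone K.le_normalClosure⟩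
  infer_instance

/-- a finite place as a `Plc` -/
def plcOf (𝒜 : Place) (h : 𝒜.IsFin) : Plc := ⟨𝒜, h.choose, h.choose.2, h.choose_spec⟩

@[simp] theorem plcOf_A (𝒜 : Place) (h : 𝒜.IsFin) : (plcOf 𝒜 h).A = 𝒜 := rfl

theorem fixingSubgroup_inf_Dec (𝒜 : Place) (h : 𝒜.IsFin) (K : Fld) :
    K.fixingSubgroup ⊓ Dec 𝒜 = lg (plcOf 𝒜 h) K := inf_comm _ _

/-- The local groups of the contracts are the local groups of block L. -/
theorem exists_lg_of_isOpen {V : Subgroup GQ} (hV : Lall.IsOpen V) (𝒜 : Place) (h : 𝒜.IsFin) :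
    ∃ K : Fld, FiniteDimensional ℚ K ∧ K.fixingSubgroup = V ∧ V ⊓ Dec 𝒜 = lg (plcOf 𝒜 h) K := by
  obtain ⟨K, hK, rfl⟩ := exists_fld_of_isOpen hV
  exact ⟨K, hK, rfl, fixingSubgroup_inf_Dec 𝒜 h K⟩

end

end Fermat.Agent.PT.Local
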