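import Fermat.Agent.PT.Local.Val
import Fermat.Agent.PT.Hens.Hensel
import Fermat.Agent.PT.Hens.HenselRoot

/-!
# S55, block L, leaf L04: Hensel's lemma for fixed fields of subgroups of the decomposition group
-/

set_option autoImplicit false

namespace Fermat.Agent.PT.Local

open IntermediateField Polynomial

/-- **Hensel's lemma** (simple roots, monic polynomials) for the fixed field of any subgroup of the
decomposition group.  Proof: `f = ∏ (X - b_i)` over `Qb`, the `b_i` are integral over `P.A`, hence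
in `P.A`.  `v (f a) < 1` gives a root `b` with `v (a - b) < 1`; a second such root (counted with
multiplicity) would give `v (f' a) < 1`.  For `σ ∈ E`, `σ b` is a root of `f` with
`v (σ b - a) = v (b - a) < 1` (`v_map`), so `σ b = b`. -/
theorem hensel (P : Plc) {E : Subgroup GQ} (hE : E ≤ P.dec) {f : Qb[X]} (hf : f.Monic)
    (hfE : ∀ i, f.coeff i ∈ fixedField E) (hfA : ∀ i, P.v (f.coeff i) ≤ 1)
    {a : Qb} (ha : a ∈ fixedField E) (haA : P.v a ≤ 1) (h0 : P.v (f.eval a) < 1)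
    (h1 : P.v (f.derivative.eval a) = 1) :
    ∃ b ∈ fixedField E, f.eval b = 0 ∧ P.v (b - a) < 1 :=
  Fermat.Agent.PT.exists_root_of_simple (𝒜 := P.A) (W := E) hE hf
    (fun i => ⟨(P.A.valuation_le_one_iff _).1 (hfA i), hfE i⟩)
    ((P.A.valuation_le_one_iff _).1 haA) ha h0 h1

/-- a root of unity has valuation one -/
theorem hensel_v_eq_one_of_pow_eq_one (P : Plc) {n : ℕ} (hn : n ≠ 0) {x : Qb} (hx : x ^ n = 1) :
    P.v x = 1 := by
  have h : P.v x ^ n = 1 := by rw [← map_pow, hx, map_one]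
  exact (pow_eq_one_iff_of_nonneg zero_le hn).1 h

/-- `v (1 - x ^ j) ≤ v (1 - x)` when `v x ≤ 1`. -/
theorem hensel_v_one_sub_pow_le (P : Plc) {x : Qb} (hx : P.v x ≤ 1) (j : ℕ) :
    P.v (1 - x ^ j) ≤ P.v (1 - x) := by
  have h : 1 - x ^ j = (∑ i ∈ Finset.range j, x ^ i) * (1 - x) := (geom_sum_mul_neg x j).symm
  rw [h, map_mul]
  have h2 : P.v (∑ i ∈ Finset.range j, x ^ i) ≤ 1 := by
    apply Valuation.map_sum_le
    intro i _
    rw [map_pow]
    exact pow_le_one₀ zero_le hx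
  calc P.v (∑ i ∈ Finset.range j, x ^ i) * P.v (1 - x) ≤ 1 * P.v (1 - x) :=
        mul_le_mul_left h2 _
    _ = P.v (1 - x) := one_mul _

/-- `v (1 - ζ ^ j) = v (1 - ζ)` for `p ∤ j`. -/
theorem v_one_sub_zeta_pow (P : Plc) {p : ℕ} (hp : p.Prime) {ζ : Qb} (hζ : IsPrimitiveRoot ζ p)
    {j : ℕ} (hj : ¬ p ∣ j) : P.v (1 - ζ ^ j) = P.v (1 - ζ) := by
  have hζ1 : P.v ζ = 1 := hensel_v_eq_one_of_pow_eq_one P hp.ne_zero hζ.pow_eq_one
  apply le_antisymm (hensel_v_one_sub_pow_le P hζ1.le j)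
  have hcop : Nat.Coprime j p := ((Nat.Prime.coprime_iff_not_dvd hp).2 hj).symm
  obtain ⟨m, -, hm⟩ := Nat.exists_mul_mod_eq_one_of_coprime hcop hp.one_lt
  have h1 : (ζ ^ j) ^ m = ζ := by
    rw [← pow_mul, ← Nat.div_add_mod (j * m) p, hm, pow_add, pow_mul, hζ.pow_eq_one, one_pow,
      one_mul, pow_one]
  have h2 : P.v (ζ ^ j) ≤ 1 := by rw [map_pow, hζ1, one_pow]
  have := hensel_v_one_sub_pow_le P h2 m
  rwa [h1] at this

/-- `v p = v (1 - ζ) ^ (p - 1)`. -/
theorem v_p_eq (P : Plc) {p : ℕ} (hp : p.Prime) {ζ : Qb} (hζ : IsPrimitiveRoot ζ p) :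
    P.v (p : Qb) = P.v (1 - ζ) ^ (p - 1) := by
  obtain ⟨n, rfl⟩ : ∃ n, p = n + 1 := ⟨p - 1, (Nat.succ_pred_eq_of_pos hp.pos).symm⟩
  have h := hζ.prod_one_sub_pow_eq_order
  have h2 : ((n + 1 : ℕ) : Qb) = ∏ k ∈ Finset.range n, (1 - ζ ^ (k + 1)) := by
    rw [h]; push_cast; ring
  rw [h2, map_prod, Nat.add_sub_cancel]
  rw [Finset.prod_congr rfl (g := fun _ => P.v (1 - ζ))]
  · simp
  · intro k hk
    apply v_one_sub_zeta_pow P hp hζ
    intro hdvd
    have := Nat.le_of_dvd (Nat.succ_pos k) hdvd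
    have := Finset.mem_range.1 hk
    omega

/-- **`p`-th roots.**  Proof: let `y₀ ^ p = x` in `Qb`.  `∏_i (1 - y₀ ζ^i) = 1 - x`, so some
`y = y₀ ζ^i` has `v (1 - y) < v (1 - ζ)`; for the other roots
`v (1 - y ζ^j) = v ((1 - y) + y (1 - ζ^j)) = v (1 - ζ)`.  So `y` is the unique `p`-th root of `x`
with `v (1 - y) < v (1 - ζ)`, hence it is fixed by `E` (`v_map`). -/
theorem exists_pth_root (P : Plc) {E : Subgroup GQ} (hE : E ≤ P.dec) {p : ℕ} (hp : p.Prime)
    {ζ : Qb} (hζ : IsPrimitiveRoot ζ p) {x : Qb} (hx : x ∈ fixedField E)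
    (hx1 : P.v (x - 1) < P.v (1 - ζ) ^ p) :
    ∃ y ∈ fixedField E, y ^ p = x ∧ P.v (y - 1) < P.v (1 - ζ) :=
  Fermat.Agent.PT.exists_pow_eq_of_close (𝒜 := P.A) (W := E) hE hp hζ hx
    (by rw [map_pow]; exact hx1)

/-- Roots of unity of order prime to `ℓ` are distinct in the residue field. -/
theorem eq_of_v_sub_lt_one (P : Plc) {n : ℕ} (hn : ¬ P.ℓ ∣ n) {x y : Qb} (hx : x ^ n = 1)
    (hy : y ^ n = 1) (h : P.v (x - y) < 1) : x = y := by
  have hn0 : n ≠ 0 := by rintro rfl; exact hn (dvd_zero _)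
  have hy0 : y ≠ 0 := by
    rintro rfl
    rw [zero_pow hn0] at hy
    exact zero_ne_one hy
  have hvy : P.v y = 1 := hensel_v_eq_one_of_pow_eq_one P hn0 hy
  by_contra hne
  set z : Qb := x / y with hz
  have hzn : z ^ n = 1 := by rw [hz, div_pow, hx, hy, div_one]
  have hz1 : z ≠ 1 := by
    intro h1
    apply hne
    rw [hz, div_eq_one_iff_eq hy0] at h1
    exact h1
  have hvz : P.v z = 1 := hensel_v_eq_one_of_pow_eq_one P hn0 hzn
  have hvz1 : P.v (1 - z) < 1 := by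
    have : 1 - z = -((x - y) / y) := by rw [hz]; field_simp; ring
    rw [this, Valuation.map_neg, map_div₀, hvy, div_one]
    exact h
  have hsum : ∑ i ∈ Finset.range n, z ^ i = 0 := by
    have h1 := geom_sum_mul_neg z n
    rw [hzn, sub_self] at h1
    rcases mul_eq_zero.1 h1 with h2 | h2
    · exact h2
    · exact absurd (sub_eq_zero.1 h2).symm hz1
  have hn' : (n : Qb) = ∑ i ∈ Finset.range n, (1 - z ^ i) := by
    rw [Finset.sum_sub_distrib, hsum]; simp
  have hlt : P.v (n : Qb) < 1 := by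
    rw [hn']
    apply Valuation.map_sum_lt _ one_ne_zero
    intro i _
    exact lt_of_le_of_lt (hensel_v_one_sub_pow_le P hvz.le i) hvz1
  rw [v_natCast_eq_one P hn] at hlt
  exact lt_irrefl _ hlt

end Fermat.Agent.PT.Local
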