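import Fermat.Agent.PT.Local.Unif
import Fermat.Agent.PT.Local.Hensel

/-!
# S55, block L, leaf L07: Frobenius elements of local Galois groups
-/

set_option autoImplicit false

namespace Fermat.Agent.PT.Local

open IsDedekindDomain NumberField Fermat.Agent.CFT Fermat.Agent.Lib.Frobenius
open scoped Pointwise

/-- From integers to the valuation ring. -/
theorem Frob_isFrob_of_integers (P : Plc) {q : ℕ} (hq : q ≠ 0) (σ : GQ)
    (hσ : ∀ b : Qb, IsIntegral ℤ b → σ b - b ^ q ∈ P.A.nonunits) : IsFrob P q σ := by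
  have hℓ := P.prime
  have hA : (P.ℓ : Qb) ∈ P.A.nonunits := P.liesOver
  have h1 : ∀ s : Qb, IsIntegral ℤ s → (σ s ∈ P.A.nonunits ↔ s ∈ P.A.nonunits) := by
    intro s hs
    rw [← pow_mem_nonunits_iff P.A hq (s := s)]
    constructor
    · intro h
      have := P.A.nonunits.sub_mem h (hσ s hs)
      simpa using this
    · intro h
      have := P.A.nonunits.add_mem (hσ s hs) h
      simpa using this
  refine ⟨Lift.mem_decomposition_of P.A hℓ hA σ h1, fun x hx => ?_⟩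
  rw [← P.A.mem_nonunits_iff]
  obtain ⟨b, s, hb, hs, hsA, hxs⟩ := exists_mul_eq_of_mem P.A hℓ hA hx
  have hσs : σ s ∉ P.A.nonunits := fun h => hsA ((h1 s hs).mp h)
  have h3 : σ x - x ^ q = (σ s)⁻¹ * ((σ b - b ^ q) - x ^ q * (σ s - s ^ q)) := by
    have hne := ne_zero_of_not_mem_nonunits P.A hσs
    rw [← hxs, map_mul]
    field_simp
    ring
  rw [h3]
  exact mul_mem_nonunits P.A (inv_mem_of_not_mem_nonunits P.A hσs)
    (P.A.nonunits.sub_mem (hσ b hb) (mul_mem_nonunits P.A (P.A.pow_mem hx q) (hσ s hs)))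

theorem Frob_above (P : Plc) (K : Fld) [FiniteDimensional ℚ K] :
    Lift.Above P.A (pl P K).asIdeal := by
  intro x
  rw [P.A.mem_nonunits_iff]
  exact mem_plIdeal P K x

attribute [local instance] Ideal.Quotient.field Fermat.Agent.CFT.Lift.algInt in
theorem Frob_exists_on_integers (P : Plc) (K : Fld) [FiniteDimensional ℚ K] :
    ∃ σ : Qb ≃ₐ[K] Qb, ∀ b : Qb, IsIntegral ℤ b → σ b - b ^ rq P K ∈ P.A.nonunits := by
  classical
  let B := intSubring Qb
  let 𝔭 : Ideal (𝓞 K) := (pl P K).asIdeal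
  let Q : Ideal B := centre P.A
  have hQP : Q.LiesOver 𝔭 := (Frob_above P K).liesOver
  have hPmax : 𝔭.IsMaximal := (pl P K).isMaximal
  have hint : Algebra.IsIntegral (𝓞 K) B := by
    constructor
    intro b
    have h1 : IsIntegral ℤ b := Algebra.IsIntegral.isIntegral b
    exact h1.tower_top
  have hQmax : Q.IsMaximal := Ideal.IsMaximal.of_liesOver_isMaximal Q 𝔭
  have := Lift.isGalois_top Qb K
  let _ : TopologicalSpace B := ⊥
  have : DiscreteTopology B := ⟨rfl⟩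
  have := Lift.continuousSMul_top (L := Qb) (Ω := K)
  have hfin : Finite (𝓞 K ⧸ 𝔭) := Ideal.finiteQuotientOfFreeOfNeBot 𝔭 (pl P K).ne_bot
  let _ : Fintype (𝓞 K ⧸ 𝔭) := Fintype.ofFinite _
  have halg : Algebra.IsAlgebraic (𝓞 K ⧸ 𝔭) (B ⧸ Q) := inferInstance
  let l : (B ⧸ Q) ≃ₐ[𝓞 K ⧸ 𝔭] B ⧸ Q := FiniteField.frobeniusAlgEquivOfAlgebraic (𝓞 K ⧸ 𝔭) (B ⧸ Q)
  have hcard : Fintype.card (𝓞 K ⧸ 𝔭) = rq P K := by
    rw [rq, Ideal.absNorm_apply, Submodule.cardQuot_apply, Nat.card_eq_fintype_card]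
  obtain ⟨σ, hσ⟩ := Ideal.Quotient.stabilizerHom_surjective_of_profinite (G := Qb ≃ₐ[K] Qb) 𝔭 Q l
  refine ⟨σ.1, fun b hb => ?_⟩
  have h1 := DFunLike.congr_fun hσ (Ideal.Quotient.mk Q ⟨b, hb⟩)
  have h2 : l (Ideal.Quotient.mk Q ⟨b, hb⟩) = (Ideal.Quotient.mk Q ⟨b, hb⟩) ^ rq P K := by
    rw [← hcard]; rfl
  rw [h2, Ideal.Quotient.stabilizerHom_apply, ← map_pow, Ideal.Quotient.eq, mem_centre] at h1
  exact h1

theorem Frob_rq_ne_zero (P : Plc) (K : Fld) [FiniteDimensional ℚ K] : rq P K ≠ 0 := by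
  rw [rq, Ne, Ideal.absNorm_eq_zero_iff]
  exact (pl P K).ne_bot

theorem Frob_mem_pl_iff (P : Plc) (K : Fld) [FiniteDimensional ℚ K] (x : 𝓞 K) :
    x ∈ (pl P K).asIdeal ↔ P.v ((x : K) : Qb) < 1 := mem_plIdeal P K x

theorem Frob_coe_restrict_smul (N' : Fld) [FiniteDimensional ℚ N'] [IsGalois ℚ N'] (g : GQ)
    (x : 𝓞 N') :
    (((AlgEquiv.restrictNormalHom N' g • x : 𝓞 N') : N') : Qb) = g ((x : N') : Qb) :=
  Lift.restrict_apply (L := Qb) (Ω := N') g (x : N')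

theorem Frob_restrict_mem_stabilizer (P : Plc) (N' : Fld) [FiniteDimensional ℚ N']
    [IsGalois ℚ N'] {g : GQ} (hg : g ∈ P.dec) :
    AlgEquiv.restrictNormalHom N' g ∈
      MulAction.stabilizer (N' ≃ₐ[ℚ] N') (pl P N').asIdeal := by
  rw [MulAction.mem_stabilizer_iff]
  ext x
  rw [Ideal.mem_pointwise_smul_iff_inv_smul_mem, ← map_inv, Frob_mem_pl_iff, Frob_mem_pl_iff,
    Frob_coe_restrict_smul, v_map P (P.dec.inv_mem hg)]

attribute [local instance] Ideal.Quotient.field in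
/-- the finite level statement -/
theorem Frob_exists_pow (P : Plc) (K : Fld) [FiniteDimensional ℚ K] (N' : Fld)
    [FiniteDimensional ℚ N'] [IsGalois ℚ N'] {φ : GQ} (hφ : φ ∈ lg P K)
    (hF : IsFrob P (rq P K) φ) {σ : GQ} (hσ : σ ∈ lg P K) :
    ∃ j : ℕ, ∀ x : 𝓞 N',
      AlgEquiv.restrictNormalHom N' ((φ ^ j)⁻¹ * σ) • x - x ∈ (pl P N').asIdeal := by
  classical
  set w : Ideal (𝓞 N') := (pl P N').asIdeal with hw
  have hwmax : w.IsMaximal := (pl P N').isMaximal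
  have hpmax : (w.under ℤ).IsMaximal := inferInstance
  have hfin : Finite (𝓞 N' ⧸ w) := Ideal.finiteQuotientOfFreeOfNeBot w (pl P N').ne_bot
  have hfd : FiniteDimensional (ℤ ⧸ w.under ℤ) (𝓞 N' ⧸ w) := inferInstance
  let ψ := Ideal.Quotient.stabilizerHom w (w.under ℤ) (N' ≃ₐ[ℚ] N')
  have hφd : φ ∈ P.dec := ((mem_lg_iff P K φ).mp hφ).1
  have hσd : σ ∈ P.dec := ((mem_lg_iff P K σ).mp hσ).1
  let sφ : MulAction.stabilizer (N' ≃ₐ[ℚ] N') w :=
    ⟨AlgEquiv.restrictNormalHom N' φ, Frob_restrict_mem_stabilizer P N' hφd⟩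
  let sσ : MulAction.stabilizer (N' ≃ₐ[ℚ] N') w :=
    ⟨AlgEquiv.restrictNormalHom N' σ, Frob_restrict_mem_stabilizer P N' hσd⟩
  have hmem : ψ sσ ∈ (IntermediateField.fixedField (Subgroup.zpowers (ψ sφ))).fixingSubgroup := by
    rw [IntermediateField.mem_fixingSubgroup_iff]
    intro y hy
    rw [IntermediateField.mem_fixedField_iff] at hy
    have hy1 := hy (ψ sφ) (Subgroup.mem_zpowers _)
    obtain ⟨x, rfl⟩ := Ideal.Quotient.mk_surjective y
    rw [Ideal.Quotient.stabilizerHom_apply, Ideal.Quotient.eq] at hy1 ⊢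
    replace hy1 := (Frob_mem_pl_iff P N' _).mp hy1
    refine (Frob_mem_pl_iff P N' _).mpr ?_
    have hxA : ((x : N') : Qb) ∈ P.A :=
      mem_of_isIntegral P.A (map_isIntegral_int (algebraMap N' Qb) (RingOfIntegers.isIntegral_coe x))
    have hx1 : P.v ((x : N') : Qb) ≤ 1 := (P.A.valuation_le_one_iff _).mpr hxA
    have e1 : (((sφ • x - x : 𝓞 N') : N') : Qb) = φ ((x : N') : Qb) - ((x : N') : Qb) := by
      have := Frob_coe_restrict_smul N' φ x
      push_cast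
      rw [← this]
      rfl
    have e2 : (((sσ • x - x : 𝓞 N') : N') : Qb) = σ ((x : N') : Qb) - ((x : N') : Qb) := by
      have := Frob_coe_restrict_smul N' σ x
      push_cast
      rw [← this]
      rfl
    rw [e1] at hy1
    rw [e2]
    have h3 : P.v (((x : N') : Qb) ^ rq P K - ((x : N') : Qb)) < 1 := by
      have h4 := hF.2 _ hxA
      have h5 : ((x : N') : Qb) ^ rq P K - ((x : N') : Qb)
          = (φ ((x : N') : Qb) - ((x : N') : Qb)) - (φ ((x : N') : Qb) - ((x : N') : Qb) ^ rq P K) := by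
        ring
      rw [h5]
      exact Valuation.map_sub_lt _ hy1 h4
    obtain ⟨a, ha⟩ := exists_rep_of_pow_rq P K hx1 h3
    have hσa : σ ((a : K) : Qb) = ((a : K) : Qb) := ((mem_lg_iff P K σ).mp hσ).2 _ (a : K).2
    have h6 : σ ((x : N') : Qb) - ((x : N') : Qb)
        = σ (((x : N') : Qb) - ((a : K) : Qb)) - (((x : N') : Qb) - ((a : K) : Qb)) := by
      rw [map_sub, hσa]; ring
    rw [h6]
    exact Valuation.map_sub_lt _ (by rw [v_map P hσd]; exact ha) ha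
  rw [IntermediateField.fixingSubgroup_fixedField, ← mem_powers_iff_mem_zpowers] at hmem
  obtain ⟨j, hj⟩ := hmem
  refine ⟨j, fun x => ?_⟩
  have h7 : ψ ((sφ ^ j)⁻¹ * sσ) = 1 := by
    rw [map_mul, map_inv, map_pow]
    change (ψ sφ ^ j)⁻¹ * ψ sσ = 1
    rw [← hj, inv_mul_cancel]
  have h8 := DFunLike.congr_fun h7 (Ideal.Quotient.mk w x)
  rw [Ideal.Quotient.stabilizerHom_apply, AlgEquiv.one_apply, Ideal.Quotient.eq] at h8
  convert h8 using 2
  simp only [map_mul, map_inv, map_pow]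
  rfl

variable (P : Plc) (K : Fld) [FiniteDimensional ℚ K]

/-- **Existence of Frobenius over `K`.**  Proof: as `CFT.Lift.lift_inertia` /
`Lib.Frobenius.exists_frobenius_on_integers`: with `Q = centre P.A` in `intSubring Qb` and
`G = Gal(Qb/K)`, `Ideal.Quotient.stabilizerHom_surjective_of_profinite` gives an element of the
stabiliser of `Q` in `G` inducing the automorphism `x ↦ x ^ q` of `intSubring Qb ⧸ Q` over
`𝓞 K ⧸ pl P K` (it is bijective since the field is algebraic over `𝔽_ℓ`, hence perfect; it fixes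
`𝓞 K ⧸ pl` which has `q` elements).  Then `mem_decomposition_of` and
`Lib.FrobeniusVal.isFrobeniusAt_of_forall_integral`-style passage from integers to `P.A`. -/
theorem exists_frob : ∃ φ ∈ lg P K, IsFrob P (rq P K) φ := by
  obtain ⟨σ, hσ⟩ := Frob_exists_on_integers P K
  have hF : IsFrob P (rq P K) (σ.restrictScalars ℚ) :=
    Frob_isFrob_of_integers P (Frob_rq_ne_zero P K) (σ.restrictScalars ℚ) hσ
  refine ⟨σ.restrictScalars ℚ, (mem_lg_iff P K _).mpr ⟨hF.1, fun x hx => ?_⟩, hF⟩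
  exact σ.commutes ⟨x, hx⟩

/-- **Generation.**  Every element of the local Galois group is, modulo any level, a power of
Frobenius times an inertia element.  Proof: let `N'/ℚ` be finite Galois containing `K ⊔ N`,
`w = pl P N'`, `k_w = 𝓞 N' ⧸ w` (finite).  `σ` induces an automorphism of `k_w` fixing the image of
`𝓞 K` (`q` elements), hence equal to `x ↦ x ^ (q ^ j)` for some `j`
(`FiniteField.bijective_frobeniusAlgHom_pow` or the minimal polynomial of a generator of `k_w^*`).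
So `s = (φ ^ j)⁻¹ σ` restricted to `N'` satisfies `s x - x ∈ w` for all `x : 𝓞 N'`;
`CFT.Lift.lift_inertia` gives `τ ∈ P.ine` with `τ = s` on `N'`; `τ` fixes `K`;
`u = τ⁻¹ (φ^j)⁻¹ σ`. -/
theorem frob_gen {φ : GQ} (hφ : φ ∈ lg P K) (hF : IsFrob P (rq P K) φ) (N : Fld)
    [FiniteDimensional ℚ N] {σ : GQ} (hσ : σ ∈ lg P K) :
    ∃ j : ℕ, ∃ τ ∈ li P K, ∃ u ∈ lg P (K ⊔ N), σ = φ ^ j * τ * u := by
  have hfd0 : FiniteDimensional ℚ (K ⊔ N : Fld) := IntermediateField.finiteDimensional_sup K N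
  let N' : Fld := IntermediateField.normalClosure ℚ (K ⊔ N : Fld) Qb
  have hle : K ⊔ N ≤ N' := IntermediateField.le_normalClosure _
  have hfd : FiniteDimensional ℚ N' := normalClosure.is_finiteDimensional ℚ _ Qb
  have hnor : Normal ℚ N' := normalClosure.normal ℚ _ Qb
  have hgal : IsGalois ℚ N' := ⟨⟩
  obtain ⟨j, hj⟩ := Frob_exists_pow P K N' hφ hF hσ
  obtain ⟨τ, hτ, hτs⟩ := Lift.lift_inertia P.A P.prime P.liesOver (pl P N').asIdeal
    (Frob_above P N') _ hj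
  have hagree : ∀ x ∈ N', τ x = ((φ ^ j)⁻¹ * σ) x := by
    intro x hx
    have h1 := Lift.restrict_apply (L := Qb) (Ω := N') τ ⟨x, hx⟩
    have h2 := Lift.restrict_apply (L := Qb) (Ω := N') ((φ ^ j)⁻¹ * σ) ⟨x, hx⟩
    rw [hτs] at h1
    exact h1.symm.trans h2
  have hs : (φ ^ j)⁻¹ * σ ∈ lg P K :=
    (lg P K).mul_mem ((lg P K).inv_mem ((lg P K).pow_mem hφ j)) hσ
  have hτd : τ ∈ P.dec := ine_le_dec P hτ
  refine ⟨j, τ, (mem_li_iff P K τ).mpr ⟨hτ, fun x hx => ?_⟩, τ⁻¹ * ((φ ^ j)⁻¹ * σ),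
    (mem_lg_iff P (K ⊔ N) _).mpr ⟨?_, fun x hx => ?_⟩, by group⟩
  · rw [hagree x (hle (le_sup_left (a := K) hx))]
    exact ((mem_lg_iff P K _).mp hs).2 x hx
  · exact P.dec.mul_mem (P.dec.inv_mem hτd) ((mem_lg_iff P K _).mp hs).1
  · rw [AlgEquiv.mul_apply, ← hagree x (hle hx)]
    exact τ.symm_apply_apply x

end Fermat.Agent.PT.Local
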