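import Fermat.Agent.PT.Local.Unram

/-!
# S55, block L, leaf L09: units are norms from unramified extensions
-/

set_option autoImplicit false

namespace Fermat.Agent.PT.Local

open IsDedekindDomain NumberField Fermat.Agent.CFT

variable (P : Plc) (K : Fld) [FiniteDimensional ℚ K]

/-! ### helper lemmas: roots of unity of order `q ^ m - 1` -/

theorem UnitNorm_pos {m : ℕ} (hm : 0 < m) : 0 < rq P K ^ m - 1 := by
  have := Nat.one_lt_pow hm.ne' (one_lt_rq P K)
  omega

theorem UnitNorm_not_dvd {m : ℕ} (hm : 0 < m) : ¬ P.ℓ ∣ rq P K ^ m - 1 := by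
  obtain ⟨f, hf, hq⟩ := exists_rq_eq P K
  intro h
  have h1 : P.ℓ ∣ rq P K ^ m := by
    rw [hq]
    exact dvd_pow (dvd_pow_self _ hf.ne') hm.ne'
  have h2 := UnitNorm_pos P K hm
  have h3 : P.ℓ ∣ 1 := by
    have := Nat.dvd_sub h1 h
    rwa [Nat.sub_sub_self (by omega)] at this
  exact P.prime.one_lt.ne' (Nat.dvd_one.mp h3)

omit [FiniteDimensional ℚ K] in
theorem UnitNorm_v_eq_one {n : ℕ} (hn : 0 < n) {z : Qb} (hz : z ^ n = 1) : P.v z = 1 := by
  have h1 : P.v z ^ n = 1 := by rw [← map_pow, hz, map_one]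
  exact (pow_eq_one_iff_of_nonneg zero_le' hn.ne').mp h1

theorem UnitNorm_frob_pow {m : ℕ} (hm : 0 < m) {φ : GQ} (hF : IsFrob P (rq P K) φ) {z : Qb}
    (hz : z ^ (rq P K ^ m - 1) = 1) (j : ℕ) : (φ ^ j) z = z ^ (rq P K ^ j) := by
  have hFj := hF.pow j
  apply eq_of_v_sub_lt_one P (UnitNorm_not_dvd P K hm)
  · rw [← map_pow, hz, map_one]
  · rw [← pow_mul, mul_comm, pow_mul, hz, one_pow]
  · exact hFj.2 z ((P.A.valuation_le_one_iff z).mp
      (UnitNorm_v_eq_one P (UnitNorm_pos P K hm) hz).le)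

theorem UnitNorm_mem_lf {m : ℕ} (hm : 0 < m) {z : Qb} (hz : z ^ (rq P K ^ m - 1) = 1) :
    z ∈ lf P (unr P K m) := by
  apply le_lf P (unr P K m)
  apply (le_sup_right : _ ≤ unr P K m)
  apply IntermediateField.subset_adjoin
  simpa [Polynomial.mem_nthRootsFinset (UnitNorm_pos P K hm)] using hz

theorem UnitNorm_geom (t m : ℕ) : (∑ j ∈ Finset.range m, (t + 1) ^ j) * t + 1 = (t + 1) ^ m := by
  induction m with
  | zero => simp
  | succ m ih =>
    rw [Finset.sum_range_succ, add_mul, add_right_comm, ih]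
    ring

/-- There is an integer of the unramified extension whose trace is a unit.  Proof: the trace is
`≡ θ + θ^q + ⋯ + θ^(q^(m-1))`, a polynomial of degree `q^(m-1) < q^m`, and `0` and the `q^m - 1`
roots of unity give `q^m` distinct residue classes. -/
theorem exists_trace_unit {m : ℕ} (hm : 0 < m) {φ : GQ} (hφ : φ ∈ lg P K)
    (hF : IsFrob P (rq P K) φ) :
    ∃ θ ∈ lf P (unr P K m), P.v θ = 1 ∧ P.v (∑ j ∈ Finset.range m, (φ ^ j) θ) = 1 := by
  classical
  have hq1 : 1 < rq P K := one_lt_rq P K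
  have hn0 : 0 < rq P K ^ m - 1 := UnitNorm_pos P K hm
  haveI : NeZero (rq P K ^ m - 1) := ⟨hn0.ne'⟩
  obtain ⟨ζ, hζ⟩ := HasEnoughRootsOfUnity.exists_primitiveRoot Qb (rq P K ^ m - 1)
  have hScard : (Polynomial.nthRootsFinset (rq P K ^ m - 1) (1 : Qb)).card = rq P K ^ m - 1 :=
    hζ.card_nthRootsFinset
  have hS : ∀ z ∈ Polynomial.nthRootsFinset (rq P K ^ m - 1) (1 : Qb),
      z ^ (rq P K ^ m - 1) = 1 := fun z hz => (Polynomial.mem_nthRootsFinset hn0 1).mp hz
  have hSv : ∀ z ∈ Polynomial.nthRootsFinset (rq P K ^ m - 1) (1 : Qb), P.v z = 1 :=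
    fun z hz => UnitNorm_v_eq_one P hn0 (hS z hz)
  have hmemA : ∀ z ∈ Polynomial.nthRootsFinset (rq P K ^ m - 1) (1 : Qb), z ∈ P.A :=
    fun z hz => (P.A.valuation_le_one_iff z).mp (hSv z hz).le
  by_contra hcon
  push Not at hcon
  have hsmall : ∀ z ∈ Polynomial.nthRootsFinset (rq P K ^ m - 1) (1 : Qb),
      P.v (∑ j ∈ Finset.range m, z ^ (rq P K ^ j)) < 1 := by
    intro z hz
    have h1 := hcon z (UnitNorm_mem_lf P K hm (hS z hz)) (hSv z hz)
    have h2 : ∑ j ∈ Finset.range m, (φ ^ j) z = ∑ j ∈ Finset.range m, z ^ (rq P K ^ j) :=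
      Finset.sum_congr rfl fun j _ => UnitNorm_frob_pow P K hm hF (hS z hz) j
    rw [h2] at h1
    have h3 : P.v (∑ j ∈ Finset.range m, z ^ (rq P K ^ j)) ≤ 1 := by
      apply Valuation.map_sum_le
      intro j _
      rw [map_pow, hSv z hz, one_pow]
    exact lt_of_le_of_ne h3 h1
  -- the polynomial over the residue field
  set g : Polynomial (IsLocalRing.ResidueField P.A) :=
    ∑ j ∈ Finset.range m, Polynomial.X ^ (rq P K ^ j) with hg
  have hgdeg : g.natDegree ≤ rq P K ^ (m - 1) := by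
    apply Polynomial.natDegree_sum_le_of_forall_le
    intro j hj
    rw [Polynomial.natDegree_X_pow]
    exact Nat.pow_le_pow_right hq1.le (by have := Finset.mem_range.mp hj; omega)
  have hg0 : g ≠ 0 := by
    intro h0
    have h1 : g.coeff (rq P K ^ (m - 1)) = 1 := by
      rw [hg, Polynomial.finsetSum_coeff, Finset.sum_eq_single (m - 1)]
      · rw [Polynomial.coeff_X_pow, if_pos rfl]
      · intro j _ hj
        rw [Polynomial.coeff_X_pow, if_neg]
        intro h2
        exact hj (Nat.pow_right_injective hq1 h2).symm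
      · intro h2
        exact absurd (Finset.mem_range.mpr (by omega)) h2
    rw [h0, Polynomial.coeff_zero] at h1
    exact zero_ne_one h1
  set T : Finset (IsLocalRing.ResidueField P.A) :=
    insert 0 ((Polynomial.nthRootsFinset (rq P K ^ m - 1) (1 : Qb)).attach.image
      (fun z => IsLocalRing.residue P.A ⟨z.1, hmemA z.1 z.2⟩)) with hT
  have hres0 : ∀ x : P.A, IsLocalRing.residue P.A x = 0 ↔ P.v (x : Qb) < 1 := by
    intro x
    rw [IsLocalRing.residue_eq_zero_iff]
    exact P.A.valuation_lt_one_iff x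
  have hTcard : T.card = rq P K ^ m - 1 + 1 := by
    rw [hT, Finset.card_insert_of_notMem, Finset.card_image_of_injective, Finset.card_attach,
      hScard]
    · intro z z' hzz
      apply Subtype.ext
      apply eq_of_v_sub_lt_one P (UnitNorm_not_dvd P K hm) (hS z.1 z.2) (hS z'.1 z'.2)
      have h1 : IsLocalRing.residue P.A (⟨z.1, hmemA z.1 z.2⟩ - ⟨z'.1, hmemA z'.1 z'.2⟩) = 0 := by
        rw [map_sub, sub_eq_zero]
        exact hzz
      exact (hres0 _).mp h1
    · intro h0
      obtain ⟨z, -, hz⟩ := Finset.mem_image.mp h0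
      have h1 := (hres0 _).mp hz
      rw [show ((⟨z.1, hmemA z.1 z.2⟩ : P.A) : Qb) = z.1 from rfl, hSv z.1 z.2] at h1
      exact lt_irrefl _ h1
  have hTroots : T.val ⊆ g.roots := by
    intro x hx
    rw [Polynomial.mem_roots hg0, Polynomial.IsRoot.def]
    rw [Finset.mem_val, hT, Finset.mem_insert] at hx
    rcases hx with rfl | hx
    · rw [hg, Polynomial.eval_finsetSum]
      apply Finset.sum_eq_zero
      intro j _
      rw [Polynomial.eval_pow, Polynomial.eval_X, zero_pow (pow_ne_zero _ (by omega))]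
    · obtain ⟨z, -, rfl⟩ := Finset.mem_image.mp hx
      rw [hg, Polynomial.eval_finsetSum]
      simp only [Polynomial.eval_pow, Polynomial.eval_X, ← map_pow, ← map_sum]
      rw [hres0]
      have := hsmall z.1 z.2
      simpa using this
  have h1 := Polynomial.card_le_degree_of_subset_roots hTroots
  rw [hTcard] at h1
  have h2 : rq P K ^ (m - 1) < rq P K ^ m := Nat.pow_lt_pow_right hq1 (by omega)
  omega

/-! ### the polynomial `∏ (1 + a_j X)` -/

/-- `∏_{j<m} (a_j X + 1)` -/
noncomputable def UnitNorm_G (a : ℕ → Qb) (m : ℕ) : Polynomial Qb :=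
  ∏ j ∈ Finset.range m, (Polynomial.C (a j) * Polynomial.X + Polynomial.C 1)

theorem UnitNorm_G_eval (a : ℕ → Qb) (m : ℕ) (b : Qb) :
    (UnitNorm_G a m).eval b = ∏ j ∈ Finset.range m, (1 + b * a j) := by
  rw [UnitNorm_G, Polynomial.eval_prod]
  refine Finset.prod_congr rfl fun j _ => ?_
  simp only [Polynomial.eval_add, Polynomial.eval_mul, Polynomial.eval_C, Polynomial.eval_X]
  ring

theorem UnitNorm_G_derivative (a : ℕ → Qb) (m : ℕ) :
    (Polynomial.derivative (UnitNorm_G a m)).eval 0 = ∑ j ∈ Finset.range m, a j := by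
  induction m with
  | zero => simp [UnitNorm_G]
  | succ m ih =>
    have h1 : UnitNorm_G a (m + 1)
        = UnitNorm_G a m * (Polynomial.C (a m) * Polynomial.X + Polynomial.C 1) := by
      rw [UnitNorm_G, Finset.prod_range_succ, UnitNorm_G]
    rw [h1, Polynomial.derivative_mul, Polynomial.eval_add, Polynomial.eval_mul,
      Polynomial.eval_mul, ih, UnitNorm_G_eval, Finset.sum_range_succ]
    simp

theorem UnitNorm_G_natDegree (a : ℕ → Qb) (ha : ∀ j, a j ≠ 0) (m : ℕ) :
    (UnitNorm_G a m).natDegree = m := by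
  rw [UnitNorm_G, Polynomial.natDegree_prod]
  · rw [Finset.sum_congr rfl (fun j _ => Polynomial.natDegree_linear (ha j) (b := 1))]
    simp
  · intro j _ h0
    have := Polynomial.natDegree_linear (ha j) (b := 1)
    rw [h0] at this
    simp at this

theorem UnitNorm_G_leadingCoeff (a : ℕ → Qb) (ha : ∀ j, a j ≠ 0) (m : ℕ) :
    (UnitNorm_G a m).leadingCoeff = ∏ j ∈ Finset.range m, a j := by
  rw [UnitNorm_G, Polynomial.leadingCoeff_prod]
  refine Finset.prod_congr rfl fun j _ => ?_
  exact Polynomial.leadingCoeff_linear (ha j)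

theorem UnitNorm_G_coeff_mem {S : Type*} [CommRing S] (ι : S →+* Qb) (a : ℕ → Qb)
    (ha : ∀ j, a j ∈ Set.range ι) (m i : ℕ) : (UnitNorm_G a m).coeff i ∈ Set.range ι := by
  have h : UnitNorm_G a m ∈ Polynomial.lifts ι := by
    apply prod_mem
    intro j _
    obtain ⟨s, hs⟩ := ha j
    apply add_mem
    · apply mul_mem
      · rw [← hs]
        exact Polynomial.C_mem_lifts ι s
      · exact Polynomial.X_mem_lifts ι
    · rw [← map_one ι]
      exact Polynomial.C_mem_lifts ι 1
  exact (Polynomial.lifts_iff_coeff_lifts _).mp h i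

theorem UnitNorm_G_map (φ : GQ) (a : ℕ → Qb) (hφ : ∀ j, φ (a j) = a (j + 1)) (m : ℕ)
    (ha : a m = a 0) (i : ℕ) : φ ((UnitNorm_G a m).coeff i) = (UnitNorm_G a m).coeff i := by
  have h1 : (UnitNorm_G a m).map (φ : Qb →+* Qb) = UnitNorm_G a m := by
    have h2 : (UnitNorm_G a m).map (φ : Qb →+* Qb)
        = ∏ j ∈ Finset.range m, (Polynomial.C (a (j + 1)) * Polynomial.X + Polynomial.C 1) := by
      rw [UnitNorm_G, Polynomial.map_prod]
      refine Finset.prod_congr rfl fun j _ => ?_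
      simp [hφ j]
    rw [h2]
    have h3 := Finset.prod_range_succ'
      (fun j => (Polynomial.C (a j) * Polynomial.X + Polynomial.C 1 : Polynomial Qb)) m
    rw [Finset.prod_range_succ, ha] at h3
    have h4 : (Polynomial.C (a 0) * Polynomial.X + Polynomial.C 1 : Polynomial Qb) ≠ 0 := by
      intro h0
      have := congrArg (Polynomial.eval 0) h0
      simp at this
    exact (mul_right_cancel₀ h4 h3).symm
  have h5 := congrArg (fun p => Polynomial.coeff p i) h1
  simp only [Polynomial.coeff_map] at h5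
  exact h5

/-- Units congruent to `1` are norms.  Proof: Hensel (`hensel` with `E = lg P K`) for the monic
polynomial `(N θ)⁻¹ (∏_j (1 + T φ^j θ) - u)` at `a = 0`: value `(N θ)⁻¹ (1 - u)`, derivative
`(N θ)⁻¹ Tr θ`.  A root `b ∈ lf P K` gives `u = N (1 + b θ)`. -/
theorem principal_unit_norm {m : ℕ} (hm : 0 < m) {φ : GQ} (hφ : φ ∈ lg P K)
    (hF : IsFrob P (rq P K) φ) {u : Qb} (hu : u ∈ lf P K) (hu1 : P.v (u - 1) < 1) :
    ∃ y ∈ lf P (unr P K m), P.v y = 1 ∧ cycNorm φ m y = u := by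
  obtain ⟨θ, hθ, hθv, hθtr⟩ := exists_trace_unit P K hm hφ hF
  have hcyc := isCyc_unr P K hm hφ hF
  have hφdec : ∀ j : ℕ, φ ^ j ∈ P.dec := fun j => pow_mem (lg_le_dec P K hφ) j
  set a : ℕ → Qb := fun j => (φ ^ j) θ with ha
  have hav : ∀ j, P.v (a j) = 1 := fun j => by rw [ha]; simp only; rw [v_map P (hφdec j), hθv]
  have ha0 : ∀ j, a j ≠ 0 := by
    intro j h0
    have := hav j
    rw [h0, map_zero] at this
    exact zero_ne_one this
  have hasucc : ∀ j, φ (a j) = a (j + 1) := by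
    intro j
    simp only [ha]
    rw [pow_succ', AlgEquiv.mul_apply]
  have ham : a m = a 0 := by
    simp only [ha, pow_zero, AlgEquiv.one_apply]
    exact (mem_lf_iff P _ θ).mp hθ _ ((hcyc.pow_mem_iff m).mpr dvd_rfl)
  have hamem : ∀ j, a j ∈ lf P (unr P K m) := fun j => hcyc.map_mem (pow_mem hφ j) hθ
  set N : Qb := ∏ j ∈ Finset.range m, a j with hN
  have hNv : P.v N = 1 := by
    rw [hN, map_prod]
    exact Finset.prod_eq_one fun j _ => hav j
  have hN0 : N ≠ 0 := by
    intro h0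
    rw [h0, map_zero] at hNv
    exact zero_ne_one hNv
  have hNmem : N ∈ lf P K := hcyc.cycNorm_mem hθ
  have hGmem : ∀ i, (UnitNorm_G a m).coeff i ∈ lf P K := by
    intro i
    apply hcyc.mem_fixedField
    · obtain ⟨s, hs⟩ := UnitNorm_G_coeff_mem (algebraMap (lf P (unr P K m)) Qb) a
        (fun j => ⟨⟨a j, hamem j⟩, rfl⟩) m i
      rw [← hs]
      exact s.2
    · exact UnitNorm_G_map φ a hasucc m ham i
  have hGv : ∀ i, P.v ((UnitNorm_G a m).coeff i) ≤ 1 := by
    intro i
    obtain ⟨s, hs⟩ := UnitNorm_G_coeff_mem P.A.subtype a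
      (fun j => ⟨⟨a j, (P.A.valuation_le_one_iff _).mp (hav j).le⟩, rfl⟩) m i
    rw [← hs]
    exact P.A.valuation_le_one s
  have huv : P.v u = 1 := by
    have : u = 1 + (u - 1) := by ring
    rw [this]
    exact Valuation.map_one_add_of_lt _ hu1
  set f : Polynomial Qb := Polynomial.C N⁻¹ * (UnitNorm_G a m - Polynomial.C u) with hf
  have hG0 : UnitNorm_G a m ≠ 0 := by
    intro h0
    have := UnitNorm_G_natDegree a ha0 m
    rw [h0, Polynomial.natDegree_zero] at this
    omega
  have hfmonic : f.Monic := by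
    rw [Polynomial.Monic, hf, Polynomial.leadingCoeff_mul, Polynomial.leadingCoeff_C,
      Polynomial.leadingCoeff_sub_of_degree_lt, UnitNorm_G_leadingCoeff a ha0,
      inv_mul_cancel₀ hN0]
    refine lt_of_le_of_lt Polynomial.degree_C_le ?_
    rw [Polynomial.degree_eq_natDegree hG0, UnitNorm_G_natDegree a ha0]
    exact_mod_cast hm
  have hfcoeff : ∀ i, f.coeff i = N⁻¹ * ((UnitNorm_G a m).coeff i - if i = 0 then u else 0) := by
    intro i
    rw [hf, Polynomial.coeff_C_mul, Polynomial.coeff_sub, Polynomial.coeff_C]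
  obtain ⟨b, hb, hfb, hbv⟩ := hensel P (lg_le_dec P K) hfmonic
    (by
      intro i
      rw [hfcoeff]
      apply mul_mem (inv_mem hNmem)
      apply sub_mem (hGmem i)
      split_ifs
      · exact hu
      · exact zero_mem _)
    (by
      intro i
      rw [hfcoeff, map_mul, map_inv₀, hNv, inv_one, one_mul]
      apply (Valuation.map_sub _ _ _).trans
      apply max_le (hGv i)
      split_ifs
      · exact huv.le
      · simp)
    (a := 0) (zero_mem _) (by simp)
    (by
      rw [hf, Polynomial.eval_mul, Polynomial.eval_C, Polynomial.eval_sub, Polynomial.eval_C,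
        UnitNorm_G_eval, map_mul, map_inv₀, hNv, inv_one, one_mul]
      simp only [zero_mul, add_zero, Finset.prod_const_one]
      rw [← Valuation.map_neg, neg_sub]
      exact hu1)
    (by
      rw [hf, Polynomial.derivative_mul, Polynomial.derivative_C, zero_mul, zero_add,
        Polynomial.derivative_sub, Polynomial.derivative_C, sub_zero, Polynomial.eval_mul,
        Polynomial.eval_C, UnitNorm_G_derivative, map_mul, map_inv₀, hNv, inv_one, one_mul]
      exact hθtr)
  rw [sub_zero] at hbv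
  have hprod : ∏ j ∈ Finset.range m, (1 + b * a j) = u := by
    rw [hf, Polynomial.eval_mul, Polynomial.eval_C, Polynomial.eval_sub, Polynomial.eval_C,
      UnitNorm_G_eval] at hfb
    rcases mul_eq_zero.mp hfb with h0 | h0
    · exact absurd h0 (inv_ne_zero hN0)
    · exact sub_eq_zero.mp h0
  refine ⟨1 + b * θ, ?_, ?_, ?_⟩
  · exact add_mem (one_mem _) (mul_mem (lf_mono P (le_unr P K m) hb) hθ)
  · apply Valuation.map_one_add_of_lt
    rw [map_mul, hθv, mul_one]
    exact hbv
  · rw [cycNorm, ← hprod]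
    refine Finset.prod_congr rfl fun j _ => ?_
    rw [map_add, map_one, map_mul, (mem_lf_iff P K b).mp hb _ (pow_mem hφ j)]

/-- **Units are norms from unramified extensions.**  Proof: with `ζ` primitive of order `q^m - 1`,
`η = N ζ = ζ^((q^m-1)/(q-1))` is a primitive `(q-1)`-th root of unity in `lf P K`; its powers
represent all nonzero residue classes of `lf P K` (they are `q - 1` distinct roots of
`X^(q-1) - 1`, `v_pow_rq_sub`), so `u / N (ζ^a)` is a principal unit. -/
theorem unit_norm {m : ℕ} (hm : 0 < m) {φ : GQ} (hφ : φ ∈ lg P K)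
    (hF : IsFrob P (rq P K) φ) {u : Qb} (hu : u ∈ lf P K) (hu1 : P.v u = 1) :
    ∃ y ∈ lf P (unr P K m), P.v y = 1 ∧ cycNorm φ m y = u := by
  have hq1 : 1 < rq P K := one_lt_rq P K
  have hn0 : 0 < rq P K - 1 := by omega
  have hcyc := isCyc_unr P K hm hφ hF
  haveI : NeZero (rq P K - 1) := ⟨hn0.ne'⟩
  obtain ⟨η, hη⟩ := HasEnoughRootsOfUnity.exists_primitiveRoot Qb (rq P K - 1)
  have hev : u ^ (rq P K - 1) - 1
      = ∏ ξ ∈ Polynomial.nthRootsFinset (rq P K - 1) (1 : Qb), (u - ξ) := by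
    have := congrArg (Polynomial.eval u) (Polynomial.X_pow_sub_one_eq_prod hn0 hη)
    simpa [Polynomial.eval_prod] using this
  have hsmall : P.v (u ^ (rq P K - 1) - 1) < 1 := by
    have h1 := v_pow_rq_sub P K hu hu1.le
    have h2 : u ^ rq P K - u = u * (u ^ (rq P K - 1) - 1) := by
      rw [mul_sub, ← pow_succ', Nat.sub_add_cancel hq1.le, mul_one]
    rw [h2, map_mul, hu1, one_mul] at h1
    exact h1
  obtain ⟨ξ, hξ, hξu⟩ : ∃ ξ ∈ Polynomial.nthRootsFinset (rq P K - 1) (1 : Qb),
      P.v (u - ξ) < 1 := by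
    by_contra hcon
    push Not at hcon
    rw [hev, map_prod] at hsmall
    exact absurd hsmall (not_lt.mpr (Finset.one_le_prod' hcon))
  have hξ1 : ξ ^ (rq P K - 1) = 1 := (Polynomial.mem_nthRootsFinset hn0 1).mp hξ
  have hξv : P.v ξ = 1 := UnitNorm_v_eq_one P hn0 hξ1
  have hξ0 : ξ ≠ 0 := by
    intro h0
    rw [h0, map_zero] at hξv
    exact zero_ne_one hξv
  -- a root of unity with norm `ξ`
  have he0 : 0 < ∑ j ∈ Finset.range m, rq P K ^ j := by
    apply Finset.sum_pos
    · intro j _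
      exact pow_pos (by omega) j
    · exact ⟨0, Finset.mem_range.mpr hm⟩
  obtain ⟨z, hz⟩ := IsAlgClosed.exists_pow_nat_eq ξ he0
  have hgeom : (∑ j ∈ Finset.range m, rq P K ^ j) * (rq P K - 1) = rq P K ^ m - 1 := by
    have := UnitNorm_geom (rq P K - 1) m
    rw [Nat.sub_add_cancel hq1.le] at this
    omega
  have hz1 : z ^ (rq P K ^ m - 1) = 1 := by
    rw [← hgeom, pow_mul, hz, hξ1]
  have hzN : cycNorm φ m z = ξ := by
    rw [cycNorm, ← hz, ← Finset.prod_pow_eq_pow_sum]
    exact Finset.prod_congr rfl fun j _ => UnitNorm_frob_pow P K hm hF hz1 j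
  have hzmem : z ∈ lf P (unr P K m) := UnitNorm_mem_lf P K hm hz1
  have hzv : P.v z = 1 := UnitNorm_v_eq_one P (UnitNorm_pos P K hm) hz1
  have hξmem : ξ ∈ lf P K := by
    rw [← hzN]
    exact hcyc.cycNorm_mem hzmem
  obtain ⟨y, hy, hyv, hyN⟩ := principal_unit_norm P K hm hφ hF (u := u * ξ⁻¹)
    (mul_mem hu (inv_mem hξmem))
    (by
      have : u * ξ⁻¹ - 1 = (u - ξ) * ξ⁻¹ := by field_simp
      rw [this, map_mul, map_inv₀, hξv, inv_one, mul_one]
      exact hξu)
  refine ⟨z * y, mul_mem hzmem hy, by rw [map_mul, hzv, hyv, one_mul], ?_⟩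
  rw [cycNorm_mul, hzN, hyN]
  field_simp

end Fermat.Agent.PT.Local
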