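import Fermat.Agent.PT.Local.Sym
import Fermat.Agent.PT.Local.UnitNorm

/-!
# S55, block L: fundamental classes

`x ∈ H²(E, μ_p)`, `E = lg P K`, is *fundamental* if `x ≠ 0` and `x` dies on the unramified subgroup
of index `p`, i.e. on `lg P (unr P K p)`.  The classes dying on the unramified subgroup form a line.
-/

set_option autoImplicit false

namespace Fermat.Agent.PT.Local

open IntermediateField

variable {p : ℕ} [Fact p.Prime] (S : LocSym p) (P : Plc) (K : Fld) [FiniteDimensional ℚ K]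

/-- `lg P (unr P K p) ≤ lg P K` -/
theorem unr_le (m : ℕ) : lg P (unr P K m) ≤ lg P K := lg_anti P (le_unr P K m)

/-- Fundamental classes of a local Galois group `E` (the definition only involves the group):
`x ≠ 0` and `x` dies on the unramified open normal subgroup(s) of index `p`. -/
def IsFund (E : Subgroup GQ) (x : S.H E) : Prop :=
  x ≠ 0 ∧ ∀ (E' : Subgroup GQ) (σ : GQ) (h : IsCyc p E E' σ), P.ine ⊓ E ≤ E' → S.res h.le x = 0

variable {S P K}

theorem ine_inf_lg : P.ine ⊓ lg P K = li P K := by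
  rw [lg, li, ← inf_assoc, inf_eq_left.mpr (ine_le_dec P)]

/-- For `E = lg P K` the unramified subgroup of index `p` is `lg P (unr P K p)`
(`eq_unr_of_li_le`, `exists_frob`, `isCyc_unr`, `li_le_unr`). -/
theorem isFund_iff {x : S.H (lg P K)} :
    IsFund S P (lg P K) x ↔ x ≠ 0 ∧ S.res (unr_le P K p) x = 0 := by
  have hp : p.Prime := Fact.out
  constructor
  · rintro ⟨h0, h⟩
    obtain ⟨φ, hφ, hF⟩ := exists_frob P K
    have hc := isCyc_unr P K hp.pos hφ hF
    exact ⟨h0, h _ φ hc (by rw [ine_inf_lg]; exact li_le_unr P K p)⟩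
  · rintro ⟨h0, h⟩
    refine ⟨h0, fun E' σ hc hle => ?_⟩
    rw [ine_inf_lg] at hle
    have hE := eq_unr_of_li_le P K hp hc hle
    exact S.res_eq_zero_congr (unr_le P K p) hc.le hE.symm h

/-- A symbol `(χ_nr, b)` with `v b = v π ^ j`, `p ∤ j`, is fundamental (`σ` any generator).
Proof: `res_sym_self`; non-zero by `sym_eq_zero_iff`: a norm `cycNorm σ p y`, `y` in
`lf P (unr P K p)`, has valuation `v y ^ p = v π ^ (p n)` (`isUnif_unr`, `v_cycNorm`,
`v_zpow_injective`). -/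
theorem isFund_sym {σ : GQ} (h : IsCyc p (lg P K) (lg P (unr P K p)) σ) {π : Qb}
    (hπ : IsUnif P K π) {b : Qb} (hb : b ∈ lf P K) {j : ℤ} (hj : ¬ (p : ℤ) ∣ j)
    (hv : P.v b = P.v π ^ j) : IsFund S P (lg P K) (S.sym (lg P K) (lg P (unr P K p)) σ b) := by
  have hp : p.Prime := Fact.out
  have hπ0 : π ≠ 0 := hπ.ne_zero
  have hvπ0 : P.v π ≠ 0 := (Valuation.ne_zero_iff _).mpr hπ0
  have hb0 : b ≠ 0 := by
    rw [← Valuation.ne_zero_iff P.v, hv]
    exact zpow_ne_zero _ hvπ0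
  rw [isFund_iff]
  refine ⟨fun h0 => ?_, S.res_sym_self h hb hb0⟩
  obtain ⟨y, hy, hyb⟩ := (S.sym_eq_zero_iff h hb hb0).mp h0
  have hy0 : y ≠ 0 := by
    rintro rfl
    apply hb0
    rw [← hyb, cycNorm]
    exact Finset.prod_eq_zero (Finset.mem_range.mpr hp.pos) (by simp)
  obtain ⟨n, hn⟩ := v_norm_unr P K hp.pos h.mem hπ hy hy0
  rw [hyb, hv] at hn
  have := v_zpow_injective P hπ0 hπ.2.1 hn
  exact hj ⟨n, this⟩

theorem exists_isFund : ∃ x, IsFund S P (lg P K) x := by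
  have hp : p.Prime := Fact.out
  obtain ⟨φ, hφ, hF⟩ := exists_frob P K
  obtain ⟨π, -, hπ⟩ := exists_unif P K
  refine ⟨_, isFund_sym (j := 1) (isCyc_unr P K hp.pos hφ hF) hπ hπ.1 ?_ (zpow_one _).symm⟩
  intro h
  have h1 := Int.eq_one_of_dvd_one (Int.natCast_nonneg p) h
  exact hp.one_lt.ne' (by exact_mod_cast h1)

/-- The symbol of a unit with an unramified character vanishes (`unit_norm`,
`cycNorm_eq_relNorm` for the change of generator). -/
theorem sym_unit {σ : GQ} (h : IsCyc p (lg P K) (lg P (unr P K p)) σ) {u : Qb}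
    (hu : u ∈ lf P K) (hu1 : P.v u = 1) : S.sym (lg P K) (lg P (unr P K p)) σ u = 0 := by
  have hp : p.Prime := Fact.out
  have hu0 : u ≠ 0 := by
    rw [← Valuation.ne_zero_iff P.v, hu1]
    exact one_ne_zero
  obtain ⟨φ, hφ, hF⟩ := exists_frob P K
  obtain ⟨y, hy, -, hyu⟩ := unit_norm P K hp.pos hφ hF hu hu1
  have hc := isCyc_unr P K hp.pos hφ hF
  refine (S.sym_eq_zero_iff h hu hu0).mpr ⟨y, hy, ?_⟩
  rw [h.cycNorm_eq_relNorm hp.pos hy, ← hc.cycNorm_eq_relNorm hp.pos hy, hyu]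

/-- The classes dying on the unramified subgroup form the line spanned by any fundamental class.
Proof: `y = sym b`, `x = sym a` (`exists_sym`, `σ = φ` a Frobenius); `a = π^i u`, `b = π^j u'`
(`IsUnif.exists_eq`), so `x = i • s`, `y = j • s` with `s = sym π` (`sym_zpow`, `sym_unit`);
`x ≠ 0` gives `i ≠ 0` in `ZMod p`. -/
theorem IsFund.span {x : S.H (lg P K)} (hx : IsFund S P (lg P K) x) {y : S.H (lg P K)}
    (hy : S.res (unr_le P K p) y = 0) : ∃ c : ZMod p, y = c • x := by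
  have hp : p.Prime := Fact.out
  obtain ⟨hx0, hx⟩ := isFund_iff.mp hx
  obtain ⟨φ, hφ, hF⟩ := exists_frob P K
  obtain ⟨π, -, hπ⟩ := exists_unif P K
  have hc := isCyc_unr P K hp.pos hφ hF
  have hπ0 : (π : Qb) ≠ 0 := hπ.ne_zero
  have key : ∀ z : S.H (lg P K), S.res (unr_le P K p) z = 0 →
      ∃ i : ℤ, z = (i : ZMod p) • S.sym (lg P K) (lg P (unr P K p)) φ (π : Qb) := by
    intro z hz
    obtain ⟨a, ha, ha0, rfl⟩ := S.exists_sym hc z hz
    obtain ⟨i, u, hu, hu1, rfl⟩ := hπ.exists_eq ha ha0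
    have hu0 : u ≠ 0 := right_ne_zero_of_mul ha0
    refine ⟨i, ?_⟩
    rw [S.sym_mul hc (zpow_mem hπ.1 i) hu (zpow_ne_zero _ hπ0) hu0, sym_unit hc hu hu1, add_zero,
      S.sym_zpow hc hπ.1 hπ0]
  obtain ⟨i, hi⟩ := key x hx
  obtain ⟨j, hj⟩ := key y hy
  have hi0 : (i : ZMod p) ≠ 0 := by
    intro h
    rw [h, zero_smul] at hi
    exact hx0 hi
  refine ⟨(j : ZMod p) * (i : ZMod p)⁻¹, ?_⟩
  rw [hj, hi, smul_smul, mul_assoc, inv_mul_cancel₀ hi0, mul_one]

theorem IsFund.smul {x : S.H (lg P K)} (hx : IsFund S P (lg P K) x) {c : ZMod p} (hc : c ≠ 0) :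
    IsFund S P (lg P K) (c • x) :=
  ⟨smul_ne_zero hc hx.1, fun E' σ h hle => by rw [map_smul, hx.2 E' σ h hle, smul_zero]⟩

/-- Two fundamental classes differ by a non-zero scalar. -/
theorem IsFund.exists_smul {x y : S.H (lg P K)} (hx : IsFund S P (lg P K) x) (hy : IsFund S P (lg P K) y) :
    ∃ c : ZMod p, c ≠ 0 ∧ y = c • x := by
  obtain ⟨c, hc⟩ := hx.span (isFund_iff.mp hy).2
  refine ⟨c, ?_, hc⟩
  rintro rfl
  rw [zero_smul] at hc
  exact hy.1 hc

end Fermat.Agent.PT.Local
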