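import Fermat.Agent.CFT.LPIndex
import Fermat.Agent.CFT.SI

/-!
# The exact index of the local `p`-th powers (lower bound)

Complement to `LP_index_le` (needed by S55, block L).
-/

set_option autoImplicit false

namespace Fermat.Agent.CFT

open IsDedekindDomain NumberField

variable {N : Type*} [Field N] [NumberField N]

namespace LPIndexGe

/-- `1 + c r` is nonzero if `ord c > 0` and `r` is an integer. -/
theorem one_add_ne_zero (v : Pl N) {c : N} (hc0 : c ≠ 0) (hc : 0 < ord v c) (r : 𝓞 N) :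
    1 + c * (r : N) ≠ 0 := by
  intro h
  have hr : (r : N) ≠ 0 := by
    intro h0
    rw [h0, mul_zero, add_zero] at h
    exact one_ne_zero h
  have h1 : c * (r : N) = -1 := by linear_combination h
  have h2 : ord v (c * (r : N)) = 0 := by rw [h1, ord_neg, ord_one]
  rw [ord_mul v hc0 hr] at h2
  have := ord_nonneg_of_integer v r
  omega

theorem ord_one_add (v : Pl N) {c : N} (hc0 : c ≠ 0) (hc : 0 < ord v c) (r : 𝓞 N) :
    ord v (1 + c * (r : N)) = 0 := by
  by_cases hr : (r : N) = 0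
  · simp [hr]
  have h1 : ord v (1 : N) < ord v (c * (r : N)) := by
    rw [ord_mul v hc0 hr, ord_one]
    have := ord_nonneg_of_integer v r
    omega
  rw [ord_add_eq_of_lt v one_ne_zero (mul_ne_zero hc0 hr) h1, ord_one]

theorem ord_one_sub_zeta_nonneg (p : ℕ) [Fact p.Prime] (v : Pl N) {ζ : N}
    (hζ : IsPrimitiveRoot ζ p) : 0 ≤ ord v (1 - ζ) := by
  have h := ord_nonneg_of_integer v (1 - hζ.toInteger)
  have h2 : ((1 - hζ.toInteger : 𝓞 N) : N) = 1 - ζ := by
    rfl
  rwa [h2] at h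

/-- `ord (1 - μ) ≥ ord (1 - ζ)` for every `p`-th root of unity `μ ≠ 1`. -/
theorem ord_one_sub_root (p : ℕ) [Fact p.Prime] (v : Pl N) {ζ μ : N}
    (hζ : IsPrimitiveRoot ζ p) (hμ : μ ^ p = 1) (hμ1 : μ ≠ 1) :
    ord v (1 - μ) = ord v (1 - ζ) := by
  have hp : p.Prime := Fact.out
  have : NeZero p := ⟨hp.ne_zero⟩
  obtain ⟨i, -, rfl⟩ := hζ.eq_pow_of_pow_eq_one hμ
  have h : ¬ 0 ≡ i [MOD p] := by
    intro h
    apply hμ1
    obtain ⟨k, rfl⟩ := (Nat.modEq_zero_iff_dvd.mp h.symm)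
    rw [pow_mul, hζ.pow_eq_one, one_pow]
  have := ord_zeta_pow_sub p v hζ h
  rwa [pow_zero] at this

end LPIndexGe

open LPIndex LPIndexGe in
/-- `[U^(k) : U^(m)] ≥ (N v)^(m-k)`: the elements `1 + π^(k+1) a`, `a` running through
representatives of `𝓞 / v^(m-k)`, are pairwise incongruent. -/
theorem relIndex_PU_PU_ge (v : Pl N) {k m : ℕ} (h : k ≤ m) :
    Ideal.absNorm v.asIdeal ^ (m - k) ≤ (PU v m).relIndex (PU v k) := by
  obtain ⟨π, hπ⟩ := exists_uniformizer v
  have hπ0 : (π : N) ≠ 0 := by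
    intro h0
    rw [h0, ord_zero] at hπ
    exact zero_ne_one hπ
  set c : N := (π : N) ^ (k + 1) with hcdef
  have hc : c ≠ 0 := pow_ne_zero _ hπ0
  have hord : ord v c = k + 1 := by
    rw [hcdef, ord_pow, hπ]; push_cast; ring
  have hcpos : 0 < ord v c := by rw [hord]; omega
  -- the units `1 + c r`
  let u : 𝓞 N → Nˣ := fun r => Units.mk0 (1 + c * (r : N)) (one_add_ne_zero v hc hcpos r)
  have hu : ∀ r, u r ∈ PU v k := by
    intro r
    rw [mem_PU_iff]
    by_cases hr : (r : N) = 0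
    · left; simp [u, hr]
    · right
      have : ((u r : Nˣ) : N) - 1 = c * (r : N) := by simp [u]
      rw [this, ord_mul v hc hr, hord]
      have := ord_nonneg_of_integer v r
      omega
  have hfin : Finite (PU v k ⧸ (PU v m).subgroupOf (PU v k)) := by
    apply Nat.finite_of_card_ne_zero
    exact (relIndex_PU_PU_le v h).1
  rw [← card_quot_pow v (m - k)]
  refine Nat.card_le_card_of_injective
    (fun x : 𝓞 N ⧸ v.asIdeal ^ (m - k) =>
      (QuotientGroup.mk (⟨u (Quotient.out x), hu _⟩ : PU v k) :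
        PU v k ⧸ (PU v m).subgroupOf (PU v k))) ?_
  intro x y hxy
  simp only at hxy
  rw [QuotientGroup.eq, Subgroup.mem_subgroupOf] at hxy
  set r := Quotient.out x with hr
  set s := Quotient.out y with hs
  have hxy' : (u r)⁻¹ * u s ∈ PU v m := by simpa using hxy
  have hval : (((u r)⁻¹ * u s : Nˣ) : N) - 1 = c * ((s - r : 𝓞 N) : N) / (1 + c * (r : N)) := by
    have := one_add_ne_zero v hc hcpos r
    simp only [u, Units.val_mul, Units.val_inv_eq_inv_val, Units.val_mk0]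
    push_cast
    field_simp
    ring
  have hmem : s - r ∈ v.asIdeal ^ (m - k) := by
    by_cases hsr : s - r = 0
    · rw [hsr]; exact zero_mem _
    have hsr' : ((s - r : 𝓞 N) : N) ≠ 0 := by
      intro h0
      exact hsr (by exact_mod_cast h0)
    rw [← le_ord_iff_mem_pow v hsr]
    rcases (mem_PU_iff v m _).mp hxy' with h1 | h1
    · exfalso
      have h2 : (((u r)⁻¹ * u s : Nˣ) : N) - 1 = 0 := by rw [h1, sub_self]
      rw [hval, div_eq_zero_iff] at h2
      rcases h2 with h2 | h2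
      · exact (mul_ne_zero hc hsr') h2
      · exact one_add_ne_zero v hc hcpos r h2
    · rw [hval, ord_div v (mul_ne_zero hc hsr') (one_add_ne_zero v hc hcpos r),
        ord_mul v hc hsr', hord, ord_one_add v hc hcpos r] at h1
      omega
  have h3 : Ideal.Quotient.mk (v.asIdeal ^ (m - k)) s = Ideal.Quotient.mk (v.asIdeal ^ (m - k)) r :=
    Ideal.Quotient.eq.mpr hmem
  have hx : Ideal.Quotient.mk (v.asIdeal ^ (m - k)) r = x := by
    rw [hr]; exact Quotient.out_eq' x
  have hy : Ideal.Quotient.mk (v.asIdeal ^ (m - k)) s = y := by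
    rw [hs]; exact Quotient.out_eq' y
  rw [← hx, ← hy, h3]

open LPIndex LPIndexGe in
/-- `y ≡ 1` to order `> e₀ = ord (1 - ζ)` implies `y ^ p ≡ 1` to order `> p e₀`
(binomial formula and `ord p = (p - 1) e₀`). -/
theorem PU_le_comap_pow (p : ℕ) [Fact p.Prime] (ζ : N) (hζ : IsPrimitiveRoot ζ p) (v : Pl N) :
    PU v (ord v (1 - ζ)).toNat ≤
      (PU v (p * (ord v (1 - ζ)).toNat)).comap (powMonoidHom p : Nˣ →* Nˣ) := by
  classical
  have hp : p.Prime := Fact.out
  have : NeZero p := ⟨hp.ne_zero⟩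
  have he := ord_one_sub_zeta_nonneg p v hζ
  set e0 : ℕ := (ord v (1 - ζ)).toNat with he0
  have he0' : (e0 : ℤ) = ord v (1 - ζ) := Int.toNat_of_nonneg he
  intro y hy
  rw [Subgroup.mem_comap, powMonoidHom_apply, mem_PU_iff, Units.val_pow_eq_pow_val]
  by_cases hyp : (y : N) ^ p = 1
  · exact Or.inl hyp
  right
  have hy1 : (y : N) ≠ 1 := by
    intro h
    rw [h, one_pow] at hyp
    exact hyp rfl
  have hy2 : (e0 : ℤ) < ord v ((y : N) - 1) := ((mem_PU_iff v e0 y).mp hy).resolve_left hy1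
  have hprod := hζ.pow_sub_pow_eq_prod_sub_mul (y : N) 1 hp.pos
  simp only [one_pow, mul_one] at hprod
  have hne : ∀ μ ∈ Polynomial.nthRootsFinset p (1 : N), (y : N) - μ ≠ 0 := by
    intro μ hμ h0
    rw [Polynomial.mem_nthRootsFinset hp.pos] at hμ
    rw [sub_eq_zero] at h0
    exact hyp (h0 ▸ hμ)
  have h1mem : (1 : N) ∈ Polynomial.nthRootsFinset p (1 : N) := by
    rw [Polynomial.mem_nthRootsFinset hp.pos, one_pow]
  rw [hprod, ord_prod v _ _ hne, ← Finset.add_sum_erase _ _ h1mem]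
  have hle : ((Polynomial.nthRootsFinset p (1 : N)).erase 1).card • (e0 : ℤ) ≤
      ∑ μ ∈ (Polynomial.nthRootsFinset p (1 : N)).erase 1, ord v ((y : N) - μ) := by
    apply Finset.card_nsmul_le_sum
    intro μ hμ
    rw [Finset.mem_erase, Polynomial.mem_nthRootsFinset hp.pos] at hμ
    have h1 : ord v (1 - μ) = e0 := by rw [he0']; exact ord_one_sub_root p v hζ hμ.2 hμ.1
    have h2 : (y : N) - μ = ((y : N) - 1) + (1 - μ) := by ring
    have h3 := le_ord_add v (x := (y : N) - 1) (y := 1 - μ) (n := e0) (Or.inr hy2.le)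
      (Or.inr h1.ge)
    rw [← h2] at h3
    rcases h3 with h3 | h3
    · rw [sub_eq_zero] at h3
      exact absurd (h3 ▸ hμ.2) hyp
    · exact h3
  rw [Finset.card_erase_of_mem h1mem, hζ.card_nthRootsFinset, nsmul_eq_mul] at hle
  have hp1 : ((p - 1 : ℕ) : ℤ) = (p : ℤ) - 1 := by
    have := hp.pos
    push_cast [Nat.cast_sub (show 1 ≤ p by omega)]
    ring
  rw [hp1] at hle
  push_cast
  nlinarith

open LPIndex LPIndexGe in
/-- **Lower bound** `[N^* : L_v] ≥ p^2 (N v)^(ord_v p)`.  Proof: follow `LP_relIndex_PD_le`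
backwards.  With `A = PU v (p e₀)`, `B = UD v`, `E = PU v e₀`, `Z = ⟨ζ⟩`:
`[PD : LP] = [B : A B^p]` (because `LP ⊓ B = A ⊔ B^p`, `PD = B ⊔ PW`),
`[B : A B^p] = [A.comap (·^p) ⊓ B : A]` (`LPIndex.relIndex_sup_map_pow`), and
`Z ⊔ E ≤ A.comap (·^p) ⊓ B` with `[Z ⊔ E : A] = [Z ⊔ E : E] [E : A] = p (N v)^((p-1) e₀)`
(`Z ⊓ E = 1` since `ord (1 - ζ^i) = e₀`).  Finally `[N^* : PD] = p` (`SI.index_iInf_PD`). -/
theorem LP_index_ge (p : ℕ) [Fact p.Prime] (ζ : N) (hζ : IsPrimitiveRoot ζ p) (v : Pl N) :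
    p ^ 2 * locFac p v ≤ (LP p ζ v).index := by
  have hp : p.Prime := Fact.out
  have : NeZero p := ⟨hp.ne_zero⟩
  have he := ord_one_sub_zeta_nonneg p v hζ
  set e0 : ℕ := (ord v (1 - ζ)).toNat with he0
  have he0' : (e0 : ℤ) = ord v (1 - ζ) := Int.toNat_of_nonneg he
  set A : Subgroup Nˣ := PU v (p * e0) with hA
  set B : Subgroup Nˣ := UD v with hB
  set f : Nˣ →* Nˣ := powMonoidHom p with hf
  set ζu : Nˣ := Units.mk0 ζ (hζ.ne_zero hp.ne_zero) with hζu
  have hζ' : IsPrimitiveRoot (ζu : N) p := by simpa [hζu] using hζ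
  set Z : Subgroup Nˣ := Subgroup.zpowers ζu with hZ
  set E : Subgroup Nˣ := PU v e0 with hE
  have hAB : A ≤ B := PU_le_UD v _
  have hEB : E ≤ B := PU_le_UD v _
  have h0 : A.relIndex B ≠ 0 := relIndex_PU_UD_ne_zero v _
  have hle : e0 ≤ p * e0 := Nat.le_mul_of_pos_left _ hp.pos
  have hAE : A ≤ E := PU_anti v hle
  have h1 := relIndex_sup_map_pow A B hAB h0 p
  -- index of `PD`
  have hPD : (PD p v).index = p := by
    have := SI.index_iInf_PD p ({v} : Set (Pl N)) (Set.finite_singleton v)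
    simpa using this
  -- `LP ⊓ B = A ⊔ B^p`
  have hinf : LP p ζ v ⊓ B = A ⊔ B.map f := by
    apply le_antisymm
    · rintro x ⟨hx1, hx2⟩
      obtain ⟨a, ha, y, rfl⟩ := (mem_LP_iff p ζ v x).mp hx1
      have hyp : y ^ p ∈ B := by
        have h2 : a⁻¹ * (a * y ^ p) ∈ B := B.mul_mem (B.inv_mem (hAB ha)) hx2
        simpa using h2
      have hy : y ∈ B := by
        rw [hB, mem_UD_iff] at hyp ⊢
        rw [Units.val_pow_eq_pow_val, ord_pow] at hyp
        have hp' : (p : ℤ) ≠ 0 := by exact_mod_cast hp.ne_zero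
        rcases mul_eq_zero.mp hyp with h | h
        · exact absurd h hp'
        · exact h
      exact Subgroup.mul_mem_sup ha (Subgroup.mem_map_of_mem f hy)
    · apply sup_le
      · exact le_inf le_sup_left hAB
      · rintro _ ⟨b, hb, rfl⟩
        exact ⟨pow_mem_LP p ζ v b, B.pow_mem hb p⟩
  -- `[PD : LP] = [B : A B^p]`
  have hrel : (LP p ζ v).relIndex (PD p v) = (A ⊔ B.map f).relIndex B := by
    have e : PD p v = LP p ζ v ⊔ B := by
      rw [PD_eq_sup]
      apply le_antisymm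
      · exact sup_le le_sup_right (le_sup_right.trans le_sup_left)
      · exact sup_le (sup_le (hAB.trans le_sup_left) le_sup_right) le_sup_left
    rw [e, Subgroup.relIndex_sup_left, ← Subgroup.inf_relIndex_right, hinf]
  -- `Z ⊔ E ≤ A.comap f ⊓ B`
  have hZE : Z ⊔ E ≤ A.comap f ⊓ B := by
    apply sup_le
    · rw [hZ, Subgroup.zpowers_le, Subgroup.mem_inf]
      refine ⟨?_, ?_⟩
      · rw [Subgroup.mem_comap, hf, powMonoidHom_apply]
        have : ζu ^ p = 1 := by
          ext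
          simpa using hζ'.pow_eq_one
        rw [this]
        exact one_mem _
      · rw [hB, mem_UD_iff]
        exact ord_eq_zero_of_pow_eq_one v hp.ne_zero hζ'.pow_eq_one
    · exact le_inf (PU_le_comap_pow p ζ hζ v) hEB
  have h2 : A.relIndex E * E.relIndex (Z ⊔ E) = A.relIndex (Z ⊔ E) :=
    Subgroup.relIndex_mul_relIndex _ _ _ hAE le_sup_right
  have h3 := relIndex_PU_PU_ge v hle
  have h4 : E.relIndex (Z ⊔ E) = p := by
    rw [Subgroup.relIndex_sup_right]
    have hdvd : E.relIndex Z ∣ p := by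
      have := Subgroup.relIndex_dvd_card E Z
      rwa [hZ, Nat.card_zpowers, ← (IsPrimitiveRoot.coe_units_iff.mp hζ').eq_orderOf] at this
    rcases (Nat.dvd_prime hp).mp hdvd with h | h
    · exfalso
      rw [Subgroup.relIndex_eq_one] at h
      have hmem : ζu ∈ E := h (Subgroup.mem_zpowers ζu)
      rw [hE, mem_PU_iff] at hmem
      rcases hmem with h5 | h5
      · exact hζ'.ne_one hp.one_lt h5
      · have : ((ζu : Nˣ) : N) = ζ := rfl
        rw [this, ord_sub_comm, ← he0'] at h5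
        omega
    · exact h
  have h5 : A.relIndex (A.comap f ⊓ B) ≠ 0 :=
    fun h => h0 (Subgroup.relIndex_eq_zero_of_le_right inf_le_right h)
  have h6 : A.relIndex (Z ⊔ E) ≤ A.relIndex (A.comap f ⊓ B) :=
    Subgroup.relIndex_le_of_le_right hZE h5
  rw [← Subgroup.relIndex_mul_index (LP_le_PD p ζ v), hPD, hrel, h1]
  have h7 : locFac p v * p ≤ A.relIndex (A.comap f ⊓ B) := by
    refine le_trans ?_ h6
    rw [← h2, h4, locFac, toNat_ord_p p v hζ]
    exact Nat.mul_le_mul_right p h3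
  calc p ^ 2 * locFac p v = (locFac p v * p) * p := by ring
    _ ≤ _ := Nat.mul_le_mul_right p h7

theorem LP_index_eq (p : ℕ) [Fact p.Prime] (ζ : N) (hζ : IsPrimitiveRoot ζ p) (v : Pl N) :
    (LP p ζ v).index = p ^ 2 * locFac p v :=
  le_antisymm (LP_index_le p ζ hζ v).2 (LP_index_ge p ζ hζ v)

end Fermat.Agent.CFT
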