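import Fermat.Agent.PT.Local.Unif
import Fermat.Agent.PT.Local.Hensel
import Fermat.Agent.PT.Local.LPIndexGe
import Fermat.Agent.PT.Local.HensGlue
import Fermat.Agent.PT.Hens.LPBridge
import Fermat.Agent.CFT.OrdBasic2

/-!
# S55, block L, leaf L06: local `p`-th powers: `CFT.LP` versus `p`-th powers in `lf P K`
-/

set_option autoImplicit false

namespace Fermat.Agent.PT.Local

open IsDedekindDomain NumberField Fermat.Agent.CFT

variable (P : Plc) (K : Fld) [FiniteDimensional ℚ K]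

/-- `x ∈ K^*` is in `CFT.LP` iff it is a `p`-th power in the local field.
Proof: `⇒`: `PU v (p e₀)` means `v (a - 1) < v (1 - ζ) ^ p` (`v_lt_v_iff`), use `exists_pth_root`
with `E = lg P K`.  `⇐`: `x = y ^ p`; choose `y' ∈ K` with `y / y' = 1 + t`, `v t` small
(`dense_mul`); then `x / y' ^ p = (1 + t) ^ p ∈ PU`. -/
theorem mem_LP_iff {p : ℕ} [Fact p.Prime] {ζ : K} (hζ : IsPrimitiveRoot ζ p) (x : Kˣ) :
    x ∈ LP p ζ (pl P K) ↔ ∃ y ∈ lf P K, y ^ p = ((x : K) : Qb) := by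
  rw [pl_eq_plOf, lf_eq_kh]
  exact Fermat.Agent.PT.mem_LP_plOf_iff (isFin P) hζ x

/-- `K^* → F^* / F^*p` is surjective. -/
theorem exists_mul_pow {p : ℕ} [Fact p.Prime] {ζ : K} (hζ : IsPrimitiveRoot ζ p) {z : Qb}
    (hz : z ∈ lf P K) (hz0 : z ≠ 0) :
    ∃ x : Kˣ, ∃ y ∈ lf P K, z = ((x : K) : Qb) * y ^ p := by
  rw [lf_eq_kh] at hz ⊢
  exact Fermat.Agent.PT.exists_eq_mul_pow_of_mem_kh (isFin P) hζ hz hz0

theorem LPBridge_le_lf : K ≤ lf P K := by
  intro x hx
  rw [lf_eq_kh]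
  exact Fermat.Agent.PT.algebraMap_mem_kh (N := K) (⟨x, hx⟩ : K)

/-- the inclusion `K^* → F^*`. -/
noncomputable def LPBridgeIncl : Kˣ →* (lf P K)ˣ :=
  Units.map ((IntermediateField.inclusion (LPBridge_le_lf P K)).toRingHom : K →* lf P K)

theorem LPBridgeIncl_coe (x : Kˣ) : (((LPBridgeIncl P K x : (lf P K)ˣ) : lf P K) : Qb)
    = ((x : K) : Qb) := rfl

theorem LPBridge_comap {p : ℕ} [Fact p.Prime] {ζ : K} (hζ : IsPrimitiveRoot ζ p) :
    (powMonoidHom p : (lf P K)ˣ →* (lf P K)ˣ).range.comap (LPBridgeIncl P K)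
      = LP p ζ (pl P K) := by
  ext x
  rw [mem_LP_iff P K hζ, Subgroup.mem_comap, MonoidHom.mem_range]
  constructor
  · rintro ⟨y, hy⟩
    refine ⟨((y : lf P K) : Qb), (y : lf P K).2, ?_⟩
    have := congrArg (fun u : (lf P K)ˣ => ((u : lf P K) : Qb)) hy
    simpa [LPBridgeIncl_coe] using this
  · rintro ⟨y, hy, hyp⟩
    have hx0 : ((x : K) : Qb) ≠ 0 := by
      have := x.ne_zero
      simpa using this
    have hy0 : (⟨y, hy⟩ : lf P K) ≠ 0 := by
      intro h0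
      have : y = 0 := congrArg Subtype.val h0
      rw [this, zero_pow (Fact.out : p.Prime).ne_zero] at hyp
      exact hx0 hyp.symm
    refine ⟨Units.mk0 _ hy0, ?_⟩
    apply Units.ext
    apply Subtype.ext
    simpa [LPBridgeIncl_coe] using hyp

theorem LPBridge_sup {p : ℕ} [Fact p.Prime] {ζ : K} (hζ : IsPrimitiveRoot ζ p) :
    (LPBridgeIncl P K).range ⊔ (powMonoidHom p : (lf P K)ˣ →* (lf P K)ˣ).range = ⊤ := by
  rw [eq_top_iff]
  intro z _
  obtain ⟨x, y, hy, hz⟩ := exists_mul_pow P K hζ (z : lf P K).2 (by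
    have := z.ne_zero
    simpa using this)
  have hy0 : (⟨y, hy⟩ : lf P K) ≠ 0 := by
    intro h0
    have h1 : y = 0 := congrArg Subtype.val h0
    rw [h1, zero_pow (Fact.out : p.Prime).ne_zero, mul_zero] at hz
    have := z.ne_zero
    exact this (Subtype.ext hz)
  have : z = LPBridgeIncl P K x * powMonoidHom p (Units.mk0 _ hy0) := by
    apply Units.ext
    apply Subtype.ext
    simpa [LPBridgeIncl_coe] using hz
  rw [this]
  exact Subgroup.mul_mem_sup ⟨x, rfl⟩ ⟨_, rfl⟩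

/-- `[F^* : F^*p] = [K^* : LP]`. -/
theorem index_pow_eq {p : ℕ} [Fact p.Prime] {ζ : K} (hζ : IsPrimitiveRoot ζ p) :
    (powMonoidHom p : (lf P K)ˣ →* (lf P K)ˣ).range.index = (LP p ζ (pl P K)).index := by
  rw [← LPBridge_comap P K hζ, Subgroup.index_comap, ← Subgroup.relIndex_sup_right,
    LPBridge_sup P K hζ, Subgroup.relIndex_top_right]

/-- `[F^* : F^*p] = p^2 q^(ord p)`. -/
theorem index_pow {p : ℕ} [Fact p.Prime] {ζ : K} (hζ : IsPrimitiveRoot ζ p) :
    (powMonoidHom p : (lf P K)ˣ →* (lf P K)ˣ).range.index = p ^ 2 * locFac p (pl P K) := by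
  rw [index_pow_eq P K hζ, LP_index_eq p ζ hζ]

/-- `locFac` is a power of `p`. -/
theorem exists_locFac_eq {p : ℕ} [Fact p.Prime] : ∃ d : ℕ, locFac p (pl P K) = p ^ d := by
  classical
  have hp : p.Prime := Fact.out
  have hfin : ({v : Pl K | Over v p}).Finite := finite_over p hp.ne_zero
  have h := prod_locFac p (insert (pl P K) hfin.toFinset)
    (fun v hv => Finset.mem_insert_of_mem (hfin.mem_toFinset.mpr hv))
  have hd : locFac p (pl P K) ∣ p ^ Module.finrank ℚ K := by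
    rw [← h]
    exact Finset.dvd_prod_of_mem _ (Finset.mem_insert_self _ _)
  obtain ⟨d, -, hd'⟩ := (Nat.dvd_prime_pow hp).mp hd
  exact ⟨d, hd'⟩

end Fermat.Agent.PT.Local
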