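import Fermat.Agent.PT.Local.LocalCard
import Fermat.Agent.PT.Koch.Defs

/-!
# S55, block L: the contract `Koch.LocalPairingStatement p`
-/

set_option autoImplicit false

namespace Fermat.Agent.PT.Local

open IntermediateField Fermat.Agent.PT

variable {p : ℕ} [Fact p.Prime]

/-- A character `x` of `V` with `x σ = 1` gives a cyclic quotient
(`x_one_mul`, `x_one_pow`, `mem_kerOf_iff`, `kerOf_conj`, `smooth_x_one`; a level `U ∈ Lall` is
`N.fixingSubgroup`, `N` finite). -/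
theorem isCyc_kerOf {V : Subgroup GQ} {x : GQ → GQ → ZMod p} (hx : x ∈ Z1 Lall V (trivZ p GQ))
    {σ : GQ} (hσ : σ ∈ V) (hσ1 : x 1 σ = 1) : IsCyc p V (kerOf V x) σ := by
  have hpow : ∀ j : ℕ, x 1 (σ ^ j) = j := by
    intro j
    have := x_one_pow hx hσ j 1
    rwa [mul_one, hσ1, mul_one, x_one_one hx, add_zero] at this
  refine ⟨⟨kerOf_le V x, ?_⟩, fun g hg h hh => kerOf_conj hx hg hh, hσ, fun g hg => ?_,
    fun j => ?_⟩
  · obtain ⟨U, ⟨-, N, hN, rfl⟩, hs⟩ := smooth_x_one hx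
    refine ⟨N, hN, fun v hv => (mem_kerOf_iff hx).2 ⟨hv.1, ?_⟩⟩
    have : x 1 (1 * v) = x 1 1 := hs 1 v hv.2
    rwa [one_mul, x_one_one hx] at this
  · have : NeZero p := ⟨(Fact.out : p.Prime).ne_zero⟩
    refine ⟨(x 1 g).val, ZMod.val_lt _, (mem_kerOf_iff hx).2
      ⟨V.mul_mem (V.inv_mem (V.pow_mem hσ _)) hg, ?_⟩⟩
    have h1 := x_one_pow hx hσ (x 1 g).val ((σ ^ (x 1 g).val)⁻¹ * g)
    rw [mul_inv_cancel_left, hσ1, mul_one, ZMod.natCast_zmod_val] at h1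
    exact (left_eq_add.1 h1)
  · rw [mem_kerOf_iff hx, hpow, ZMod.natCast_eq_zero_iff]
    exact ⟨fun h => h.2, fun h => ⟨V.pow_mem hσ _, h⟩⟩

/-- `x` and `chi p V (kerOf V x) σ` have the same values on `V` (`chi_apply`, `IsCyc.gen`), so the
symbols are cohomologous (`cupT_congr_right`, `kum_mem_Z1`). -/
theorem theta_sub_symZ_mem {V : Subgroup GQ} {x : GQ → GQ → ZMod p}
    (hx : x ∈ Z1 Lall V (trivZ p GQ)) {σ : GQ} (hσ : σ ∈ V) (hσ1 : x 1 σ = 1) {b : Qb}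
    (hb : b ∈ fixedField V) :
    (kummerQbar p).theta (uu b) x - symZ p V (kerOf V x) σ b ∈ B2 Lall V (cycRep p) := by
  have hcyc := isCyc_kerOf hx hσ hσ1
  refine cupT_congr_right ((kummerQbar p).kum_mem_Z1 (uu_fixed hb)) hx (chi_spec hcyc).1 ?_
  intro v hv
  obtain ⟨j, -, hj⟩ := hcyc.gen v hv
  have hv' : v = σ ^ j * ((σ ^ j)⁻¹ * v) := by rw [mul_inv_cancel_left]
  rw [hv', chi_apply hcyc j hj, x_one_pow hx hσ, hσ1, mul_one, ((mem_kerOf_iff hx).1 hj).2,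
    add_zero]

/-- **(L-pair)**.  Proof: suppose `x ∉ B1`.  Then `kerOf E x ≠ E` (`mem_B1_iff` with `a = 0`,
`mem_kerOf_iff`), `σ` from `exists_sigma`; `E = V ⊓ Dec 𝒜 = lg P K` (`exists_lg_of_isOpen`),
`kerOf E x = lg P K₁` (`exists_lg_eq`, `isCyc_kerOf.isOpenIn`); `exists_not_norm (locSymQ p)` gives
`b ∈ lf P K`, `b ≠ 0`, not a norm; by `symQ_eq_zero_iff`, `symQ_eq`, `H2.mk_eq_zero_iff`:
`symZ p E (kerOf E x) σ b ∉ B2`; by `theta_sub_symZ_mem`: `theta (uu b) x ∉ B2`; but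
`theta (uu b) x = cupT (kum (uu b)) x` and `kum (uu b) ∈ Z1 Lall E (cycRep p)`. -/
theorem localPairing (p : ℕ) [Fact p.Prime] : Koch.LocalPairingStatement p := by
  intro V hV _ 𝒜 h𝒜 x hx hall
  by_contra hnot
  obtain ⟨K, hK, -, hE⟩ := exists_lg_of_isOpen hV 𝒜 h𝒜
  rw [hE] at hx hall hnot
  set P := plcOf 𝒜 h𝒜 with hP
  have hne : kerOf (lg P K) x ≠ lg P K := by
    intro heq
    apply hnot
    rw [mem_B1_iff hx]
    refine ⟨0, fun v hv => ?_⟩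
    rw [← heq] at hv
    rw [((mem_kerOf_iff hx).1 hv).2, map_zero, sub_zero]
  obtain ⟨σ, hσ, hσ1⟩ := exists_sigma hx hne
  have hcyc := isCyc_kerOf hx hσ hσ1
  obtain ⟨K₁, hK₁, hKK₁, hlg⟩ := exists_lg_eq P K hcyc.isOpenIn
  have hcyc' : IsCyc p (lg P K) (lg P K₁) σ := by rw [hlg]; exact hcyc
  obtain ⟨b, hb, hb0, hnorm⟩ := exists_not_norm (locSymQ p) hKK₁ hcyc'
  have hb' : b ∈ fixedField (lg P K) := hb
  have h1 : symQ p (lg P K) (kerOf (lg P K) x) σ b ≠ 0 := by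
    rw [Ne, symQ_eq_zero_iff hcyc hb' hb0]
    rintro ⟨y, hy, hyb⟩
    refine hnorm y ?_ hyb
    change y ∈ fixedField (lg P K₁)
    rw [hlg]
    exact hy
  rw [symQ_eq hcyc hb', Ne, H2.mk_eq_zero_iff] at h1
  apply h1
  have h2 := hall _ ((kummerQbar p).kum_mem_Z1 (uu_fixed hb'))
  have h3 := theta_sub_symZ_mem hx hσ hσ1 hb'
  have h4 := sub_mem h2 h3
  have e : cupT ((kummerQbar p).kum (uu b)) x - ((kummerQbar p).theta (uu b) x
      - symZ p (lg P K) (kerOf (lg P K) x) σ b) = symZ p (lg P K) (kerOf (lg P K) x) σ b := by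
    change (kummerQbar p).theta (uu b) x - ((kummerQbar p).theta (uu b) x
      - symZ p (lg P K) (kerOf (lg P K) x) σ b) = _
    abel
  rw [e] at h4
  exact h4

end Fermat.Agent.PT.Local
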