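import Fermat.Agent.PT.Local.LPBridge
import Fermat.Agent.PT.Local.Ram
import Fermat.Agent.PT.Local.UnitNorm
import Fermat.Agent.CFT.FIalg
import Fermat.Agent.CFT.FICore

/-!
# S55, block L, leaf L11: the norm index of a cyclic extension of degree `p` is at most `p`
-/

set_option autoImplicit false

namespace Fermat.Agent.PT.Local

open IsDedekindDomain NumberField Fermat.Agent.CFT IntermediateField

theorem NormIndex_pos {m : ℕ} {V V' : Subgroup GQ} {σ : GQ} (h : IsCyc m V V' σ) : 0 < m := by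
  obtain ⟨j, hj, -⟩ := h.gen σ h.mem
  omega

theorem NormIndex_pow_mem {m : ℕ} {V V' : Subgroup GQ} {σ : GQ} (h : IsCyc m V V' σ) (k : ℕ) :
    σ ^ k ∈ V := V.pow_mem h.mem k

/-- the coefficients of the Lagrange resolvent -/
noncomputable def NormIndex_c (σ : GQ) (x : Qb) (k : ℕ) : Qb := ∏ i ∈ Finset.range k, (σ ^ i) x

theorem NormIndex_c_succ (σ : GQ) (x : Qb) (k : ℕ) :
    x * σ (NormIndex_c σ x k) = NormIndex_c σ x (k + 1) := by
  unfold NormIndex_c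
  rw [map_prod, Finset.prod_range_succ']
  rw [pow_zero, AlgEquiv.one_apply, mul_comm]
  congr 1
  refine Finset.prod_congr rfl fun i _ => ?_
  rw [pow_succ', AlgEquiv.mul_apply]

theorem NormIndex_c_mem {m : ℕ} {V V' : Subgroup GQ} {σ : GQ} (h : IsCyc m V V' σ) {x : Qb}
    (hx : x ∈ fixedField V') (k : ℕ) : NormIndex_c σ x k ∈ fixedField V' :=
  prod_mem fun i _ => h.map_mem (NormIndex_pow_mem h i) hx

theorem hilbert90 {m : ℕ} {V V' : Subgroup GQ} {σ : GQ} (h : IsCyc m V V' σ)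
    (hcl : ∀ g ∈ V, (∀ y ∈ fixedField V', g y = y) → g ∈ V') {x : Qb}
    (hx : x ∈ fixedField V') (hN : cycNorm σ m x = 1) :
    ∃ y ∈ fixedField V', y ≠ 0 ∧ x = σ y / y := by
  have hm : 0 < m := NormIndex_pos h
  -- the characters
  let f : Fin m → (fixedField V' →* Qb) := fun k =>
    ((σ ^ (k : ℕ) : GQ) : Qb →* Qb).comp ((fixedField V').val : fixedField V' →* Qb)
  have hf : ∀ (k : Fin m) (θ : fixedField V'), f k θ = (σ ^ (k : ℕ)) (θ : Qb) := fun _ _ => rfl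
  have hinj : Function.Injective f := by
    have key : ∀ j k : Fin m, (j : ℕ) ≤ k → f j = f k → j = k := by
      intro j k hjk hfe
      have h1 : σ ^ ((k : ℕ) - j) ∈ V' := by
        apply hcl _ (NormIndex_pow_mem h _)
        intro y hy
        have h2 := DFunLike.congr_fun hfe ⟨y, hy⟩
        rw [hf, hf] at h2
        have h3 : (σ ^ (k : ℕ)) y = (σ ^ (j : ℕ)) ((σ ^ ((k : ℕ) - j)) y) := by
          rw [← AlgEquiv.mul_apply, ← pow_add, Nat.add_sub_cancel' hjk]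
        rw [h3] at h2
        exact ((σ ^ (j : ℕ)).injective h2).symm
      rw [h.pow_mem_iff] at h1
      have h4 : (k : ℕ) - j < m := lt_of_le_of_lt (Nat.sub_le _ _) k.2
      have h5 : (k : ℕ) - j = 0 := Nat.eq_zero_of_dvd_of_lt h1 h4
      exact Fin.ext (by omega)
    intro j k hfe
    rcases le_total (j : ℕ) k with hjk | hjk
    · exact key j k hjk hfe
    · exact (key k j hjk hfe.symm).symm
  have hli : LinearIndependent Qb (fun k : Fin m => (f k : fixedField V' → Qb)) :=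
    (linearIndependent_monoidHom (fixedField V') Qb).comp f hinj
  -- a nonvanishing resolvent
  obtain ⟨θ, hθ⟩ : ∃ θ : fixedField V',
      ∑ k : Fin m, NormIndex_c σ x k * (σ ^ (k : ℕ)) (θ : Qb) ≠ 0 := by
    by_contra hcon
    push Not at hcon
    have h0 : ∑ k : Fin m, NormIndex_c σ x k • (f k : fixedField V' → Qb) = 0 := by
      funext θ
      rw [Finset.sum_apply]
      simpa [hf] using hcon θ
    have h1 := Fintype.linearIndependent_iff.1 hli _ h0 ⟨0, hm⟩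
    simp [NormIndex_c] at h1
  set y : Qb := ∑ k : Fin m, NormIndex_c σ x k * (σ ^ (k : ℕ)) (θ : Qb) with hy
  have hyr : y = ∑ k ∈ Finset.range m, NormIndex_c σ x k * (σ ^ k) (θ : Qb) := by
    rw [hy, Finset.sum_range (fun k => NormIndex_c σ x k * (σ ^ k) (θ : Qb))]
  have hymem : y ∈ fixedField V' := by
    rw [hyr]
    exact sum_mem fun k _ => mul_mem (NormIndex_c_mem h hx k)
      (h.map_mem (NormIndex_pow_mem h k) θ.2)
  have hσm : (σ ^ m) (θ : Qb) = θ := by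
    have h1 : σ ^ m ∈ V' := (h.pow_mem_iff m).2 dvd_rfl
    exact (IntermediateField.mem_fixedField_iff _ _).1 θ.2 _ h1
  have hxy : x * σ y = y := by
    have h1 : x * σ y = ∑ k ∈ Finset.range m, NormIndex_c σ x (k + 1) * (σ ^ (k + 1)) (θ : Qb) := by
      rw [hyr, map_sum, Finset.mul_sum]
      refine Finset.sum_congr rfl fun k _ => ?_
      rw [map_mul, ← mul_assoc, NormIndex_c_succ, pow_succ', AlgEquiv.mul_apply]
    have h2 := Finset.sum_range_succ (fun k => NormIndex_c σ x k * (σ ^ k) (θ : Qb)) m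
    have h3 := Finset.sum_range_succ' (fun k => NormIndex_c σ x k * (σ ^ k) (θ : Qb)) m
    rw [h1, hyr]
    have h4 : NormIndex_c σ x m = 1 := hN
    have h5 : NormIndex_c σ x 0 = 1 := by simp [NormIndex_c]
    rw [h3, h4, h5, hσm, pow_zero, AlgEquiv.one_apply] at h2
    exact add_right_cancel h2
  have hσy : σ y ≠ 0 := fun h0 => hθ (by rw [← hxy, h0, mul_zero])
  refine ⟨y⁻¹, inv_mem hymem, inv_ne_zero hθ, ?_⟩
  rw [map_inv₀, div_inv_eq_mul, inv_mul_eq_div, eq_div_iff hσy]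
  exact hxy

variable (P : Plc) (K : Fld) [FiniteDimensional ℚ K] (K₁ : Fld) [FiniteDimensional ℚ K₁]

theorem NormIndex_toNat_mul (p : ℕ) (n : ℤ) : ((p : ℤ) * n).toNat = p * n.toNat := by
  rcases le_total 0 n with hn | hn
  · obtain ⟨k, rfl⟩ := Int.eq_ofNat_of_zero_le hn
    rw [← Nat.cast_mul, Int.toNat_natCast, Int.toNat_natCast]
  · rw [Int.toNat_of_nonpos hn, Int.toNat_of_nonpos (mul_nonpos_of_nonneg_of_nonpos (by positivity) hn),
      mul_zero]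

theorem ram_locFac (hK : K ≤ K₁) {p : ℕ} [Fact p.Prime] {σ : GQ}
    (h : IsCyc p (lg P K) (lg P K₁) σ) (hram : ¬ li P K ≤ lg P K₁) :
    locFac p (pl P K₁) = locFac p (pl P K) ^ p := by
  have hp : p.Prime := Fact.out
  obtain ⟨π, hπo, hπ⟩ := exists_unif P K
  obtain ⟨π', hπ'o, hπ'⟩ := exists_unif P K₁
  obtain ⟨π₁, hπ₁, hv⟩ := ram_exists_unif P K K₁ hp h hram hπ
  have hv' : P.v (π' : Qb) = P.v π₁ := hπ'.v_eq hπ₁
  have hpK : (p : K) ≠ 0 := Nat.cast_ne_zero.2 hp.ne_zero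
  have hpK₁ : (p : K₁) ≠ 0 := Nat.cast_ne_zero.2 hp.ne_zero
  have e1 := v_eq_zpow_ord P K hπo hpK
  have e2 := v_eq_zpow_ord P K₁ hπ'o hpK₁
  have c1 : (((p : K) : Qb)) = (p : Qb) := by simp
  have c2 : (((p : K₁) : Qb)) = (p : Qb) := by simp
  rw [c1, ← hv] at e1
  rw [c2, hv', e1, ← zpow_natCast, ← zpow_mul] at e2
  have e3 : (p : ℤ) * ord (pl P K) (p : K) = ord (pl P K₁) (p : K₁) :=
    v_zpow_injective P hπ₁.ne_zero hπ₁.2.1 e2
  unfold locFac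
  have hrq : Ideal.absNorm (pl P K₁).asIdeal = Ideal.absNorm (pl P K).asIdeal :=
    ram_rq P K K₁ hK hp h hram
  rw [hrq, ← e3, NormIndex_toNat_mul, ← pow_mul, mul_comm]

omit [FiniteDimensional ℚ K] [FiniteDimensional ℚ K₁] in
theorem NormIndex_lf_le {m : ℕ} {σ : GQ} (h : IsCyc m (lg P K) (lg P K₁) σ) :
    lf P K ≤ lf P K₁ := by
  intro x hx
  rw [mem_lf_iff] at hx ⊢
  exact fun g hg => hx g (h.le hg)

theorem exists_kummer_gen {p : ℕ} [Fact p.Prime] {ζ : Qb} (hζ : IsPrimitiveRoot ζ p) (hζK : ζ ∈ K)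
    {σ : GQ} (h : IsCyc p (lg P K) (lg P K₁) σ) :
    ∃ a₀ ∈ lf P K₁, a₀ ≠ 0 ∧ a₀ ^ p ∈ lf P K ∧ ∀ c ∈ lf P K, c ^ p ≠ a₀ ^ p := by
  have hp : p.Prime := Fact.out
  have hζF : ζ ∈ lf P K := le_lf P K hζK
  have hσζ : σ ζ = ζ := (mem_lf_iff P K ζ).1 hζF σ h.mem
  have hN : cycNorm σ p ζ = 1 := by rw [cycNorm_of_fixed p hσζ, hζ.pow_eq_one]
  obtain ⟨y, hy, hy0, hyζ⟩ := hilbert90 h (fun g _ hg => mem_lg_of_fixes P K₁ hg)
    (NormIndex_lf_le P K K₁ h hζF) hN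
  have hσy : σ y = ζ * y := by
    rw [hyζ]; field_simp
  refine ⟨y, hy, hy0, ?_, ?_⟩
  · apply h.mem_fixedField (pow_mem hy p)
    rw [map_pow, hσy, mul_pow, hζ.pow_eq_one, one_mul]
  · intro c hc hcy
    have hc0 : c ≠ 0 := by
      rintro rfl
      rw [zero_pow hp.ne_zero] at hcy
      exact pow_ne_zero p hy0 hcy.symm
    have h1 : (y / c) ^ p = 1 := by
      rw [div_pow, hcy, div_self (pow_ne_zero p hy0)]
    obtain ⟨i, -, hi⟩ := hζ.eq_pow_of_pow_eq_one h1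
    have h2 : y = ζ ^ i * c := by
      rw [hi]; field_simp
    have h3 : y ∈ lf P K := by
      rw [h2]; exact mul_mem (pow_mem hζF i) hc
    have h4 : σ y = y := (mem_lf_iff P K y).1 h3 σ h.mem
    rw [hσy] at h4
    have h5 : ζ = 1 := mul_right_cancel₀ hy0 (by rw [h4, one_mul])
    exact hζ.ne_one hp.one_lt h5

theorem NormIndex_exists_lin {p : ℕ} [Fact p.Prime] {n : ℤ} (hn : ¬ (p : ℤ) ∣ n) (n' : ℤ) :
    ∃ (j : ℕ) (t : ℤ), n' = n * j + p * t := by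
  have hnz : (n : ZMod p) ≠ 0 := fun h0 => hn ((ZMod.intCast_zmod_eq_zero_iff_dvd n p).1 h0)
  refine ⟨((n' : ZMod p) * (n : ZMod p)⁻¹).val, ?_⟩
  have h1 : (((n * (((n' : ZMod p) * (n : ZMod p)⁻¹).val : ℕ) : ℤ)) : ZMod p) = (n' : ZMod p) := by
    push_cast
    rw [ZMod.natCast_zmod_val]
    field_simp
  obtain ⟨t, ht⟩ := (ZMod.intCast_eq_intCast_iff_dvd_sub _ _ p).1 h1
  exact ⟨t, by linarith⟩

theorem norm_index_unr {p : ℕ} [Fact p.Prime] {σ : GQ} (h : IsCyc p (lg P K) (lg P K₁) σ)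
    (hunr : li P K ≤ lg P K₁)
    {a : Qb} (ha : a ∈ lf P K) (ha0 : a ≠ 0) (hna : ∀ y ∈ lf P K₁, cycNorm σ p y ≠ a)
    {b : Qb} (hb : b ∈ lf P K) (hb0 : b ≠ 0) :
    ∃ j : ℕ, ∃ y ∈ lf P K₁, b = a ^ j * cycNorm σ p y := by
  have hp : p.Prime := Fact.out
  have hE : lg P K₁ = lg P (unr P K p) := eq_unr_of_li_le P K hp h hunr
  have hlf : lf P K₁ = lf P (unr P K p) := by unfold lf; rw [hE]
  obtain ⟨φ, hφ, hF⟩ := exists_frob P K
  have hcφ : IsCyc p (lg P K) (lg P K₁) φ := by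
    rw [hE]; exact isCyc_unr P K hp.pos hφ hF
  have hnorm : ∀ y ∈ lf P K₁, cycNorm σ p y = cycNorm φ p y := fun y hy => by
    rw [h.cycNorm_eq_relNorm hp.pos hy, hcφ.cycNorm_eq_relNorm hp.pos hy]
  have hU : ∀ u ∈ lf P K, P.v u = 1 → ∃ y ∈ lf P K₁, cycNorm σ p y = u := by
    intro u hu hu1
    obtain ⟨y, hy, -, hyu⟩ := unit_norm P K hp.pos hφ hF hu hu1
    rw [← hlf] at hy
    exact ⟨y, hy, by rw [hnorm y hy, hyu]⟩
  obtain ⟨π, -, hπ⟩ := exists_unif P K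
  set ϖ : Qb := (π : Qb) with hϖ
  have hϖ0 : ϖ ≠ 0 := hπ.ne_zero
  have hle : lf P K ≤ lf P K₁ := NormIndex_lf_le P K K₁ h
  have hNϖ : ∀ t : ℤ, cycNorm σ p (ϖ ^ t) = (ϖ ^ t) ^ p := fun t =>
    cycNorm_of_fixed p ((mem_lf_iff P K _).1 (zpow_mem hπ.1 t) σ h.mem)
  obtain ⟨n, u, hu, hu1, rfl⟩ := hπ.exists_eq ha ha0
  obtain ⟨n', u', hu', hu'1, rfl⟩ := hπ.exists_eq hb hb0
  have hu0 : u ≠ 0 := fun h0 => by simp [h0] at hu1
  have hpn : ¬ (p : ℤ) ∣ n := by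
    rintro ⟨t, rfl⟩
    obtain ⟨y, hy, hyu⟩ := hU u hu hu1
    apply hna (ϖ ^ t * y) (mul_mem (hle (zpow_mem hπ.1 t)) hy)
    rw [cycNorm_mul, hNϖ, hyu, ← zpow_natCast, ← zpow_mul, mul_comm t]
  obtain ⟨j, t, rfl⟩ := NormIndex_exists_lin hpn n'
  have hw : P.v (u' * (u ^ j)⁻¹) = 1 := by
    rw [map_mul, map_inv₀, map_pow, hu1, hu'1]; simp
  obtain ⟨y, hy, hyu⟩ := hU _ (mul_mem hu' (inv_mem (pow_mem hu j))) hw
  refine ⟨j, ϖ ^ t * y, mul_mem (hle (zpow_mem hπ.1 t)) hy, ?_⟩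
  rw [cycNorm_mul, hNϖ, hyu, zpow_add₀ hϖ0, mul_pow, ← zpow_natCast (ϖ ^ t), ← zpow_mul,
    ← zpow_natCast (ϖ ^ n), ← zpow_mul, mul_comm t]
  have : u ^ j ≠ 0 := pow_ne_zero j hu0
  field_simp

/-- restriction of an automorphism stabilising a subfield, as a monoid homomorphism -/
noncomputable def NormIndex_res (F₁ : Fld) (g : GQ) (hg : ∀ y ∈ F₁, g y ∈ F₁) : F₁ →* F₁ where
  toFun y := ⟨g y, hg y y.2⟩
  map_one' := Subtype.ext (map_one g)
  map_mul' x y := Subtype.ext (map_mul g (x : Qb) (y : Qb))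

/-- the cyclic norm as a monoid homomorphism -/
noncomputable def NormIndex_nm (F F₁ : Fld) (g : GQ) (m : ℕ) (hg : ∀ y ∈ F₁, cycNorm g m y ∈ F) : F₁ →* F where
  toFun y := ⟨cycNorm g m y, hg y y.2⟩
  map_one' := Subtype.ext (cycNorm_one g m)
  map_mul' x y := Subtype.ext (cycNorm_mul g m (x : Qb) (y : Qb))

theorem NormIndex_iterate (F₁ : Fld) (g : GQ) (hg : ∀ y ∈ F₁, g y ∈ F₁) (i : ℕ) (x : (F₁)ˣ) :
    ((((Units.map (NormIndex_res F₁ g hg))^[i] x : (F₁)ˣ) : F₁) : Qb) = (g ^ i) ((x : F₁) : Qb) := by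
  induction i with
  | zero => simp
  | succ n ih =>
    rw [Function.iterate_succ_apply', pow_succ', AlgEquiv.mul_apply, ← ih]
    rfl

theorem NormIndex_arith {p k d : ℕ} (hp : 2 ≤ p) (h : (p - 1) * k + (2 + d * p) + 1 ≤ p * (2 + d)) :
    k ≤ 1 := by
  obtain ⟨q, rfl⟩ : ∃ q, p = q + 1 := ⟨p - 1, by omega⟩
  simp only [Nat.add_sub_cancel] at h
  by_contra hk
  have hk2 : 2 ≤ k := by omega
  have : q * 2 ≤ q * k := Nat.mul_le_mul_left q hk2
  nlinarith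

/-- abstract end of the argument: a subgroup of index `p ^ k`, `k ≤ 1`. -/
theorem NormIndex_gen {B : Type*} [CommGroup B] {p k : ℕ} [Fact p.Prime] (H : Subgroup B)
    (hH : H.index = p ^ k) (hk : k ≤ 1) {a : B} (ha : a ∉ H) (b : B) :
    ∃ j : ℕ, (a ^ j)⁻¹ * b ∈ H := by
  have hk1 : k = 1 := by
    rcases Nat.le_one_iff_eq_zero_or_eq_one.1 hk with h0 | h1
    · rw [h0, pow_zero, Subgroup.index_eq_one] at hH
      exact absurd (hH ▸ Subgroup.mem_top a) ha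
    · exact h1
  rw [hk1, pow_one] at hH
  have hcard : Nat.card (B ⧸ H) = p := hH
  have hne : (QuotientGroup.mk a : B ⧸ H) ≠ 1 := fun h1 => ha ((QuotientGroup.eq_one_iff a).1 h1)
  obtain ⟨j, hj⟩ := mem_powers_of_prime_card hcard hne (g' := (QuotientGroup.mk b : B ⧸ H))
  refine ⟨j, ?_⟩
  have hj' : (QuotientGroup.mk (a ^ j) : B ⧸ H) = QuotientGroup.mk b := hj
  exact QuotientGroup.eq.1 hj'

theorem norm_index_ram (hK : K ≤ K₁) {p : ℕ} [Fact p.Prime] {ζ : Qb} (hζ : IsPrimitiveRoot ζ p)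
    (hζK : ζ ∈ K) {σ : GQ} (h : IsCyc p (lg P K) (lg P K₁) σ) (hram : ¬ li P K ≤ lg P K₁)
    {a : Qb} (ha : a ∈ lf P K) (ha0 : a ≠ 0) (hna : ∀ y ∈ lf P K₁, cycNorm σ p y ≠ a)
    {b : Qb} (hb : b ∈ lf P K) (hb0 : b ≠ 0) :
    ∃ j : ℕ, ∃ y ∈ lf P K₁, b = a ^ j * cycNorm σ p y := by
  have hp : p.Prime := Fact.out
  have hle : lf P K ≤ lf P K₁ := NormIndex_lf_le P K K₁ h
  have hσF₁ : ∀ y ∈ lf P K₁, σ y ∈ lf P K₁ := fun y hy => h.map_mem h.mem hy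
  have hNF : ∀ y ∈ lf P K₁, cycNorm σ p y ∈ lf P K := fun y hy => h.cycNorm_mem hy
  let ι : (lf P K)ˣ →* (lf P K₁)ˣ := Units.map (IntermediateField.inclusion hle : lf P K →* lf P K₁)
  let τ : (lf P K₁)ˣ →* (lf P K₁)ˣ := Units.map (NormIndex_res (lf P K₁) σ hσF₁)
  let Nm : (lf P K₁)ˣ →* (lf P K)ˣ := Units.map (NormIndex_nm (lf P K) (lf P K₁) σ p hNF)
  have hιc : ∀ x : (lf P K)ˣ, (((ι x : (lf P K₁)ˣ) : lf P K₁) : Qb) = ((x : lf P K) : Qb) :=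
    fun _ => rfl
  have hτc : ∀ x : (lf P K₁)ˣ, (((τ x : (lf P K₁)ˣ) : lf P K₁) : Qb) = σ ((x : lf P K₁) : Qb) :=
    fun _ => rfl
  have hNc : ∀ x : (lf P K₁)ˣ, (((Nm x : (lf P K)ˣ) : lf P K) : Qb)
      = cycNorm σ p ((x : lf P K₁) : Qb) := fun _ => rfl
  have hι : Function.Injective ι := by
    intro x y hxy
    apply Units.ext; apply Subtype.ext
    rw [← hιc, ← hιc, hxy]
  have hτ : ∀ x, τ^[p] x = x := by
    intro x
    apply Units.ext; apply Subtype.ext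
    rw [NormIndex_iterate]
    exact (mem_lf_iff P K₁ _).1 (x : lf P K₁).2 _ ((h.pow_mem_iff p).2 dvd_rfl)
  have hfix : ∀ x, τ x = x ↔ x ∈ ι.range := by
    intro x
    constructor
    · intro hx
      have h1 : σ ((x : lf P K₁) : Qb) = ((x : lf P K₁) : Qb) := by rw [← hτc, hx]
      have h2 : ((x : lf P K₁) : Qb) ∈ lf P K := h.mem_fixedField (x : lf P K₁).2 h1
      have h3 : (⟨_, h2⟩ : lf P K) ≠ 0 := by
        intro h0
        have := congrArg (fun z : lf P K => (z : Qb)) h0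
        simp at this
      refine ⟨Units.mk0 ⟨_, h2⟩ h3, ?_⟩
      apply Units.ext; apply Subtype.ext
      rfl
    · rintro ⟨y, rfl⟩
      apply Units.ext; apply Subtype.ext
      rw [hτc, hιc]
      exact (mem_lf_iff P K _).1 (y : lf P K).2 σ h.mem
  have hN : ∀ x, ι (Nm x) = ∏ i ∈ Finset.range p, τ^[i] x := by
    intro x
    apply Units.ext; apply Subtype.ext
    rw [hιc, hNc, Units.coe_prod, SubmonoidClass.coe_finsetProd]
    unfold cycNorm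
    refine Finset.prod_congr rfl fun i _ => ?_
    rw [NormIndex_iterate]
  have H90 : ∀ x, Nm x = 1 → ∃ y, x = τ y / y := by
    intro x hx
    have h1 : cycNorm σ p ((x : lf P K₁) : Qb) = 1 := by rw [← hNc, hx]; rfl
    obtain ⟨y, hy, hy0, hxy⟩ := hilbert90 h (fun g _ hg => mem_lg_of_fixes P K₁ hg)
      (x : lf P K₁).2 h1
    have h3 : (⟨y, hy⟩ : lf P K₁) ≠ 0 := by
      intro h0
      exact hy0 (congrArg (fun z : lf P K₁ => (z : Qb)) h0)
    refine ⟨Units.mk0 ⟨y, hy⟩ h3, ?_⟩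
    apply Units.ext; apply Subtype.ext
    rw [Units.val_div_eq_div_val, IntermediateField.coe_div, hτc]
    exact hxy
  -- the indices
  have hζ₀ : IsPrimitiveRoot (⟨ζ, hζK⟩ : K) p :=
    IsPrimitiveRoot.of_map_of_injective (f := K.val) hζ K.val.injective
  have hζ₁ : IsPrimitiveRoot (⟨ζ, hK hζK⟩ : K₁) p :=
    IsPrimitiveRoot.of_map_of_injective (f := K₁.val) hζ K₁.val.injective
  obtain ⟨d, hd⟩ := exists_locFac_eq P K (p := p)
  have hB : (powMonoidHom p : (lf P K)ˣ →* (lf P K)ˣ).range.index = p ^ (2 + d) := by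
    rw [index_pow P K hζ₀, hd, pow_add]
  have hA : (powMonoidHom p : (lf P K₁)ˣ →* (lf P K₁)ˣ).range.index = p ^ (2 + d * p) := by
    rw [index_pow P K₁ hζ₁, ram_locFac P K K₁ hK h hram, hd, pow_add, pow_mul]
  -- Kummer generator
  obtain ⟨a₀, ha₀, ha₀0, ha₀p, hnp⟩ := exists_kummer_gen P K K₁ hζ hζK h
  have h3 : (⟨a₀, ha₀⟩ : lf P K₁) ≠ 0 := fun h0 =>
    ha₀0 (congrArg (fun z : lf P K₁ => (z : Qb)) h0)
  have h4 : (⟨a₀ ^ p, ha₀p⟩ : lf P K) ≠ 0 := fun h0 =>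
    pow_ne_zero p ha₀0 (congrArg (fun z : lf P K => (z : Qb)) h0)
  have h₀ : (Units.mk0 ⟨a₀, ha₀⟩ h3 : (lf P K₁)ˣ) ^ p = ι (Units.mk0 ⟨a₀ ^ p, ha₀p⟩ h4) := by
    apply Units.ext; apply Subtype.ext
    rfl
  have hb₀ : (Units.mk0 ⟨a₀ ^ p, ha₀p⟩ h4 : (lf P K)ˣ) ∉
      (powMonoidHom p : (lf P K)ˣ →* (lf P K)ˣ).range := by
    rintro ⟨c, hc⟩
    apply hnp ((c : lf P K) : Qb) (c : lf P K).2
    have := congrArg (fun z : (lf P K)ˣ => ((z : lf P K) : Qb)) hc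
    simpa using this
  obtain ⟨k, hk, hineq⟩ := FIalg.mul_version ι hι τ hτ hfix Nm hN H90 hA hB _ _ h₀ hb₀
  have hk1 : k ≤ 1 := NormIndex_arith hp.two_le hineq
  -- conclusion
  have ha' : (⟨a, ha⟩ : lf P K) ≠ 0 := fun h0 => ha0 (congrArg (fun z : lf P K => (z : Qb)) h0)
  have hb' : (⟨b, hb⟩ : lf P K) ≠ 0 := fun h0 => hb0 (congrArg (fun z : lf P K => (z : Qb)) h0)
  have hanot : (Units.mk0 ⟨a, ha⟩ ha' : (lf P K)ˣ) ∉ Nm.range := by
    rintro ⟨y, hy⟩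
    apply hna ((y : lf P K₁) : Qb) (y : lf P K₁).2
    rw [← hNc, hy]
    rfl
  obtain ⟨j, y, hy⟩ := NormIndex_gen Nm.range hk hk1 hanot (Units.mk0 ⟨b, hb⟩ hb')
  refine ⟨j, ((y : lf P K₁) : Qb), (y : lf P K₁).2, ?_⟩
  rw [← hNc, hy]
  have : a ^ j ≠ 0 := pow_ne_zero j ha0
  simp only [Units.val_mul, Units.val_inv_eq_inv_val, Units.val_pow_eq_pow_val, Units.val_mk0,
    IntermediateField.coe_mul, IntermediateField.coe_inv, IntermediateField.coe_pow]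
  field_simp

/-- **The norm index is at most `p`**: `F^* / N F₁^*` is generated by any non-norm. -/
theorem norm_index_le (hK : K ≤ K₁) {p : ℕ} [Fact p.Prime] {ζ : Qb} (hζ : IsPrimitiveRoot ζ p)
    (hζK : ζ ∈ K) {σ : GQ} (h : IsCyc p (lg P K) (lg P K₁) σ)
    {a : Qb} (ha : a ∈ lf P K) (ha0 : a ≠ 0) (hna : ∀ y ∈ lf P K₁, cycNorm σ p y ≠ a)
    {b : Qb} (hb : b ∈ lf P K) (hb0 : b ≠ 0) :
    ∃ j : ℕ, ∃ y ∈ lf P K₁, b = a ^ j * cycNorm σ p y := by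
  by_cases hram : li P K ≤ lg P K₁
  · exact norm_index_unr P K K₁ h hram ha ha0 hna hb hb0
  · exact norm_index_ram P K K₁ hK hζ hζK h hram ha ha0 hna hb hb0

end Fermat.Agent.PT.Local
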