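import Fermat.Agent.PT.Local.Norm

/-!
# S55, block L: chains of open normal subgroups of index `p`, Sylow (pure group theory)
-/

set_option autoImplicit false

namespace Fermat.Agent.PT.Local

/-- `W` is reached from `V` by a chain of open normal subgroups of index `p`. -/
inductive PChain (p : ℕ) : Subgroup GQ → Subgroup GQ → Prop
  | refl (V : Subgroup GQ) : PChain p V V
  | step {V V₁ W : Subgroup GQ} {σ : GQ} : IsCyc p V V₁ σ → PChain p V₁ W → PChain p V W

theorem PChain.le {p : ℕ} {V W : Subgroup GQ} (h : PChain p V W) : W ≤ V := by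
  induction h with
  | refl V => exact le_rfl
  | step h₁ _ ih => exact ih.trans h₁.le

theorem PChain.isOpenIn {p : ℕ} {V W : Subgroup GQ} (h : PChain p V W) : IsOpenIn W V := by
  induction h with
  | refl V => exact ⟨le_rfl, ⊥, inferInstance, inf_le_left⟩
  | step h₁ _ ih => exact ih.trans h₁.isOpenIn

/-- Pull back a subgroup of the quotient `V / W` to a subgroup of the ambient group. -/
theorem PChain_pullback {G : Type*} [Group G] {V W : Subgroup G} (hWV : W ≤ V)
    [(W.subgroupOf V).Normal] (H : Subgroup (V ⧸ W.subgroupOf V)) :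
    ∃ V₁ : Subgroup G, W ≤ V₁ ∧ V₁ ≤ V ∧ V₁.relIndex V = H.index ∧
      (H.Normal → ∀ g ∈ V, ∀ h ∈ V₁, g * h * g⁻¹ ∈ V₁) := by
  refine ⟨(H.comap (QuotientGroup.mk' (W.subgroupOf V))).map V.subtype, ?_, ?_, ?_, ?_⟩
  · intro w hw
    refine ⟨⟨w, hWV hw⟩, ?_, rfl⟩
    change QuotientGroup.mk' (W.subgroupOf V) ⟨w, hWV hw⟩ ∈ H
    have : QuotientGroup.mk' (W.subgroupOf V) ⟨w, hWV hw⟩ = 1 := by
      rw [QuotientGroup.mk'_apply, QuotientGroup.eq_one_iff, Subgroup.mem_subgroupOf]
      exact hw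
    rw [this]
    exact H.one_mem
  · rintro _ ⟨x, -, rfl⟩
    exact x.2
  · rw [Subgroup.relIndex, Subgroup.subgroupOf, Subgroup.comap_map_eq_self_of_injective
      V.subtype_injective, Subgroup.index_comap_of_surjective _ (QuotientGroup.mk'_surjective _)]
  · rintro hH g hg _ ⟨x, hx, rfl⟩
    refine ⟨⟨g, hg⟩ * x * ⟨g, hg⟩⁻¹, ?_, rfl⟩
    change QuotientGroup.mk' (W.subgroupOf V) (⟨g, hg⟩ * x * ⟨g, hg⟩⁻¹) ∈ H
    rw [map_mul, map_mul, map_inv]
    exact hH.conj_mem _ hx _

/-- If `W` is open and normal in `V` with `[V : W]` a power of `p`, there is a chain.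
Proof: induction on `n`.  `V / W` is a finite `p`-group; if non trivial it has a subgroup of index
`p` (`Sylow.exists_subgroup_card_pow_prime`), which is normal
(`Subgroup.normal_of_index_eq_minFac_card` or `IsPGroup`); take its preimage `V₁`
(`IsCyc.of_relIndex`); `W` is normal in `V₁` with index `p ^ (n-1)`. -/
theorem exists_pchain_of_relIndex {p : ℕ} [Fact p.Prime] (n : ℕ) {V W : Subgroup GQ}
    (hW : IsOpenIn W V) (hn : ∀ g ∈ V, ∀ h ∈ W, g * h * g⁻¹ ∈ W) (hidx : W.relIndex V = p ^ n) :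
    PChain p V W := by
  have hp : p.Prime := Fact.out
  induction n generalizing V with
  | zero =>
    rw [pow_zero, Subgroup.relIndex_eq_one] at hidx
    rw [le_antisymm hidx hW.1]
    exact PChain.refl _
  | succ n ih =>
    have hnor := Norm_normal hn
    have hcard : Nat.card (V ⧸ W.subgroupOf V) = p ^ (n + 1) := hidx
    have hfin : Finite (V ⧸ W.subgroupOf V) :=
      Nat.finite_of_card_ne_zero (by rw [hcard]; exact pow_ne_zero _ hp.pos.ne')
    obtain ⟨H, hH⟩ := Sylow.exists_subgroup_card_pow_prime (G := V ⧸ W.subgroupOf V) p (n := n)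
      (by rw [hcard]; exact pow_dvd_pow _ (Nat.le_succ n))
    have hHi : H.index = p := by
      have h := H.card_mul_index
      rw [hH, hcard, pow_succ] at h
      exact Nat.eq_of_mul_eq_mul_left (pow_pos hp.pos n) h
    have hHn : H.Normal := by
      apply Subgroup.normal_of_index_eq_minFac_card
      rw [hHi, hcard, Nat.pow_minFac (Nat.succ_ne_zero n), hp.minFac_eq]
    obtain ⟨V₁, h1, h2, h3, h4⟩ := PChain_pullback hW.1 H
    rw [hHi] at h3
    obtain ⟨ho1, ho2⟩ := hW.of_le h1 h2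
    obtain ⟨σ, hσ⟩ := IsCyc.of_relIndex hp ho2 (h4 hHn) h3
    refine PChain.step hσ (ih ho1 (fun g hg h hh => hn g (h2 hg) h hh) ?_)
    have h := Subgroup.relIndex_mul_relIndex W V₁ V h1 h2
    rw [h3, hidx, pow_succ] at h
    exact Nat.eq_of_mul_eq_mul_right hp.pos h

/-- **Sylow + chain.**  Proof: the preimage `V₀` in `V` of a Sylow `p`-subgroup of the finite group
`V / W`; then `exists_pchain_of_relIndex`. -/
theorem exists_sylow_pchain {p : ℕ} [Fact p.Prime] {V W : Subgroup GQ} (hW : IsOpenIn W V)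
    (hn : ∀ g ∈ V, ∀ h ∈ W, g * h * g⁻¹ ∈ W) :
    ∃ V₀ : Subgroup GQ, W ≤ V₀ ∧ V₀ ≤ V ∧ ¬ p ∣ V₀.relIndex V ∧ PChain p V₀ W := by
  have hp : p.Prime := Fact.out
  have hnor := Norm_normal hn
  have hfin : Finite (V ⧸ W.subgroupOf V) := Nat.finite_of_card_ne_zero hW.relIndex_ne_zero
  obtain ⟨P⟩ : Nonempty (Sylow p (V ⧸ W.subgroupOf V)) := inferInstance
  obtain ⟨V₀, h1, h2, h3, -⟩ := PChain_pullback hW.1 (P : Subgroup (V ⧸ W.subgroupOf V))
  obtain ⟨ho1, ho2⟩ := hW.of_le h1 h2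
  obtain ⟨k, hk⟩ := IsPGroup.iff_card.1 P.isPGroup'
  refine ⟨V₀, h1, h2, ?_, exists_pchain_of_relIndex k ho1 (fun g hg h hh => hn g (h2 hg) h hh) ?_⟩
  · rw [h3]
    exact P.not_dvd_index
  · have h := Subgroup.relIndex_mul_relIndex W V₀ V h1 h2
    have h' := (P : Subgroup (V ⧸ W.subgroupOf V)).card_mul_index
    rw [h3] at h
    have h'' : Nat.card (V ⧸ W.subgroupOf V) = W.relIndex V := rfl
    rw [h'', ← h] at h'
    rw [← hk]
    refine (Nat.eq_of_mul_eq_mul_right (Nat.pos_of_ne_zero ?_) h').symm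
    rw [← h3]
    exact ho2.relIndex_ne_zero

end Fermat.Agent.PT.Local
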