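import Fermat.Agent.PT.Local.Fund
import Fermat.Agent.PT.Local.NormIndex

/-!
# S55, block L: one cyclic step of degree `p`
-/

set_option autoImplicit false

namespace Fermat.Agent.PT.Local

open IntermediateField

variable {p : ℕ} [Fact p.Prime] {S : LocSym p} {P : Plc} {K : Fld} [FiniteDimensional ℚ K]
  {K₁ : Fld} [FiniteDimensional ℚ K₁]

/-- The symbol of an element of `lf P K₁` whose valuation is a `p`-th power of the valuation of an
element of `lf P K₁` vanishes against the unramified character. -/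
theorem Step_sym_eq_zero {φ : GQ} (h : IsCyc p (lg P K₁) (lg P (unr P K₁ p)) φ) {π π₁ : Qb}
    (hπ : π ∈ lf P K₁) (hπ0 : π ≠ 0) (hπ₁ : π₁ ∈ lf P K₁) (hπ₁0 : π₁ ≠ 0)
    (hv : P.v π₁ ^ p = P.v π) : S.sym (lg P K₁) (lg P (unr P K₁ p)) φ π = 0 := by
  have hpow : π₁ ^ p ∈ lf P K₁ := pow_mem hπ₁ p
  have hpow0 : π₁ ^ p ≠ 0 := pow_ne_zero p hπ₁0
  have hu : π / π₁ ^ p ∈ lf P K₁ := div_mem hπ hpow
  have hu0 : π / π₁ ^ p ≠ 0 := div_ne_zero hπ0 hpow0
  have hv0 : P.v π ≠ 0 := (P.v.ne_zero_iff).mpr hπ0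
  have hu1 : P.v (π / π₁ ^ p) = 1 := by
    rw [map_div₀, map_pow, hv, div_self hv0]
  have hdec : π = π₁ ^ p * (π / π₁ ^ p) := by
    field_simp
  rw [hdec, S.sym_mul h hpow hu hpow0 hu0, S.sym_pow h hπ₁ hπ₁0, sym_unit h hu hu1,
    ZMod.natCast_self, zero_smul, add_zero]

/-- A fundamental class dies on EVERY open normal subgroup of index `p`.
Proof: if `li P K ≤ lg P K₁` then `lg P K₁ = lg P (unr P K p)` (`eq_unr_of_li_le`).  Otherwise let
`φ₁ ∈ lg P K₁` be a Frobenius of `K₁`; `rq P K₁ = rq P K` (`ram_rq`), so `φ₁` is a Frobenius of `K`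
and `x = c • sym E E_nr φ₁ π` (`isCyc_unr`, `isFund_sym`, `IsFund.exists_smul`).  By `res_sym` and
`ram_inf_unr`: `res x = c • sym E₁ (lg P (unr P K₁ p)) φ₁ π`, and `π = π₁^p u` with `u` a unit of
`lf P K₁` (`ram_exists_unif`), `sym (π₁^p) = p • _ = 0`, `sym u = 0` (`sym_unit` for `K₁`). -/
theorem IsFund.res_eq_zero (hK : K ≤ K₁) {σ : GQ} (h : IsCyc p (lg P K) (lg P K₁) σ)
    {x : S.H (lg P K)} (hx : IsFund S P (lg P K) x) : S.res h.le x = 0 := by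
  have hp : p.Prime := Fact.out
  by_cases hli : li P K ≤ lg P K₁
  · exact hx.2 (lg P K₁) σ h (by rw [ine_inf_lg]; exact hli)
  · obtain ⟨φ₁, hφ₁, hF₁⟩ := exists_frob P K₁
    have hrq : rq P K₁ = rq P K := ram_rq P K K₁ hK hp h hli
    have hF : IsFrob P (rq P K) φ₁ := hrq ▸ hF₁
    have hc : IsCyc p (lg P K) (lg P (unr P K p)) φ₁ := isCyc_unr P K hp.pos (h.le hφ₁) hF
    have hc₁ : IsCyc p (lg P K₁) (lg P (unr P K₁ p)) φ₁ := isCyc_unr P K₁ hp.pos hφ₁ hF₁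
    obtain ⟨π', -, hπ⟩ := exists_unif P K
    have hfund : IsFund S P (lg P K) (S.sym (lg P K) (lg P (unr P K p)) φ₁ (π' : Qb)) := by
      refine isFund_sym hc hπ hπ.1 (j := 1) ?_ (by rw [zpow_one])
      intro hdvd
      have := Int.natCast_dvd_natCast.mp (by simpa using hdvd : (p : ℤ) ∣ ((1 : ℕ) : ℤ))
      exact hp.one_lt.ne' (Nat.dvd_one.mp this)
    obtain ⟨c, -, hxc⟩ := hfund.exists_smul hx
    obtain ⟨π₁, hπ₁, hv⟩ := ram_exists_unif P K K₁ hp h hli hπ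
    have hres := S.res_sym hc h.le hφ₁ hπ.1 hπ.ne_zero
    rw [ram_inf_unr P K K₁ hK hp h hli p] at hres
    rw [hxc, map_smul, hres,
      Step_sym_eq_zero hc₁ (Ram_lf_le P K K₁ h hπ.1) hπ.ne_zero hπ₁.1 hπ₁.ne_zero hv, smul_zero]

/-- The classes dying on an open normal subgroup of index `p` are multiples of the fundamental
class (needs `μ_p ⊆ K`).  Proof: `x = sym E E₁ σ a`, `y = sym E E₁ σ b` (`exists_sym`,
`IsFund.res_eq_zero`); `a` is not a norm since `x ≠ 0`; `b = a^j N(z)` by `norm_index_le`. -/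
theorem IsFund.span_of_res (hK : K ≤ K₁) {ζ : Qb} (hζ : IsPrimitiveRoot ζ p) (hζK : ζ ∈ K)
    {σ : GQ} (h : IsCyc p (lg P K) (lg P K₁) σ) {x : S.H (lg P K)} (hx : IsFund S P (lg P K) x)
    {y : S.H (lg P K)} (hy : S.res h.le y = 0) : ∃ c : ZMod p, y = c • x := by
  obtain ⟨a, ha, ha0, hxa⟩ := S.exists_sym h x (hx.res_eq_zero hK h)
  obtain ⟨b, hb, hb0, hyb⟩ := S.exists_sym h y hy
  have hna : ∀ z ∈ lf P K₁, cycNorm σ p z ≠ a := by
    intro z hz hza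
    exact hx.1 (hxa.trans ((S.sym_eq_zero_iff h ha ha0).mpr ⟨z, hz, hza⟩))
  obtain ⟨j, z, hz, hbz⟩ := norm_index_le P K K₁ hK hζ hζK h ha ha0 hna hb hb0
  have hz0 : z ≠ 0 := by
    rintro rfl
    apply hb0
    rw [hbz]
    have : cycNorm σ p (0 : Qb) = 0 := by
      unfold cycNorm
      exact Finset.prod_eq_zero (Finset.mem_range.mpr (Fact.out : p.Prime).pos) (map_zero _)
    rw [this, mul_zero]
  refine ⟨(j : ZMod p), ?_⟩
  rw [hyb, hbz, S.sym_mul_norm h (pow_mem ha j) (pow_ne_zero j ha0) hz hz0, S.sym_pow h ha ha0,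
    ← hxa]

end Fermat.Agent.PT.Local
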