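import Fermat.Agent.PT.Local.Norm

/-!
# S55, block L, cohomological part: the abstract interface `LocSym`

`LocSym p` packages what the local theory needs from the cohomological blocks F1 (res, cores) and
B (Kummer theory, cyclic step):  `H V = H²(V, μ_p)` for subgroups `V ≤ GQ`, restriction,
corestriction and the symbol `sym V V' σ b = κ(b) ∪ χ`, where `χ : V → ℤ/p` is the character with
kernel `V'` and `χ σ = 1`.   The instance is constructed in `PT/Local/SymInst.lean`.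
Everything in `PT/Local/{Fund,Step,CorStep,CorPrime,Tower,Main}.lean` is a formal consequence of
this interface and of the field-level leaves.
-/

set_option autoImplicit false

namespace Fermat.Agent.PT.Local

open IntermediateField

/-- The cohomological interface of the local theory. -/
structure LocSym (p : ℕ) [Fact p.Prime] where
  /-- `H²(V, μ_p)` -/
  H : Subgroup GQ → Type
  acg : ∀ V, AddCommGroup (H V)
  mod : ∀ V, Module (ZMod p) (H V)
  /-- restriction -/
  res : ∀ {V W : Subgroup GQ}, W ≤ V → H V →ₗ[ZMod p] H W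
  /-- corestriction (junk if the index is infinite) -/
  cor : ∀ {V W : Subgroup GQ}, W ≤ V → H W →ₗ[ZMod p] H V
  /-- the symbol `κ(b) ∪ χ_{V',σ}` -/
  sym : ∀ (V : Subgroup GQ), Subgroup GQ → GQ → Qb → H V
  res_refl : ∀ {V : Subgroup GQ} (x : H V), res (le_refl V) x = x
  res_res : ∀ {V W X : Subgroup GQ} (h1 : W ≤ V) (h2 : X ≤ W) (x : H V),
    res h2 (res h1 x) = res (h2.trans h1) x
  cor_cor : ∀ {V W X : Subgroup GQ} (h1 : W ≤ V) (h2 : X ≤ W), IsOpenIn X V → ∀ x : H X,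
    cor h1 (cor h2 x) = cor (h2.trans h1) x
  cor_res : ∀ {V W : Subgroup GQ} (h : W ≤ V), IsOpenIn W V → ∀ x : H V,
    cor h (res h x) = (W.relIndex V : ZMod p) • x
  /-- every class dies on an open subgroup -/
  die : ∀ {V : Subgroup GQ} (x : H V), ∃ N : Fld, FiniteDimensional ℚ N ∧
    res (inf_le_left : V ⊓ N.fixingSubgroup ≤ V) x = 0
  sym_mul : ∀ {V V' : Subgroup GQ} {σ : GQ}, IsCyc p V V' σ → ∀ {b c : Qb},
    b ∈ fixedField V → c ∈ fixedField V → b ≠ 0 → c ≠ 0 →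
    sym V V' σ (b * c) = sym V V' σ b + sym V V' σ c
  /-- exactness of the cyclic step at `k^×` -/
  sym_eq_zero_iff : ∀ {V V' : Subgroup GQ} {σ : GQ}, IsCyc p V V' σ → ∀ {b : Qb},
    b ∈ fixedField V → b ≠ 0 →
    (sym V V' σ b = 0 ↔ ∃ y ∈ fixedField V', cycNorm σ p y = b)
  /-- exactness of the cyclic step at `H²(V)` -/
  exists_sym : ∀ {V V' : Subgroup GQ} {σ : GQ} (h : IsCyc p V V' σ) (x : H V),
    res h.le x = 0 → ∃ b ∈ fixedField V, b ≠ 0 ∧ x = sym V V' σ b
  res_sym_self : ∀ {V V' : Subgroup GQ} {σ : GQ} (h : IsCyc p V V' σ) {b : Qb},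
    b ∈ fixedField V → b ≠ 0 → res h.le (sym V V' σ b) = 0
  /-- restriction of a symbol to a subgroup containing the generator -/
  res_sym : ∀ {V V' W : Subgroup GQ} {σ : GQ}, IsCyc p V V' σ → ∀ (hW : W ≤ V), σ ∈ W →
    ∀ {b : Qb}, b ∈ fixedField V → b ≠ 0 → res hW (sym V V' σ b) = sym W (W ⊓ V') σ b
  /-- projection formula `cores (κ'(c) ∪ res χ) = κ(N c) ∪ χ` -/
  cor_sym : ∀ {V V' W : Subgroup GQ} {σ : GQ}, IsCyc p V V' σ → ∀ (hW : W ≤ V), IsOpenIn W V →
    σ ∈ W → ∀ {c : Qb}, c ∈ fixedField W → c ≠ 0 →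
    cor hW (sym W (W ⊓ V') σ c) = sym V V' σ (relNorm W V c)
  /-- projection formula `cores (res κ(b) ∪ χ') = κ(b) ∪ cores χ'` and `cores χ' = χ` (transfer) for
  a cyclic quotient of order `p²` -/
  cor_sym_tower : ∀ {V V' V'' : Subgroup GQ} {σ : GQ}, IsCyc (p * p) V V'' σ →
    ∀ (h : IsCyc p V V' σ), V'' ≤ V' → ∀ {b : Qb}, b ∈ fixedField V → b ≠ 0 →
    cor h.le (sym V' V'' (σ ^ p) b) = sym V V' σ b

attribute [instance] LocSym.acg LocSym.mod

namespace LocSym

variable {p : ℕ} [Fact p.Prime] (S : LocSym p)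

theorem sym_one {V V' : Subgroup GQ} {σ : GQ} (h : IsCyc p V V' σ) : S.sym V V' σ 1 = 0 := by
  have h1 := S.sym_mul h (b := 1) (c := 1) (one_mem _) (one_mem _) one_ne_zero one_ne_zero
  rw [mul_one] at h1
  exact left_eq_add.mp h1

theorem sym_inv {V V' : Subgroup GQ} {σ : GQ} (h : IsCyc p V V' σ) {b : Qb}
    (hb : b ∈ fixedField V) (hb0 : b ≠ 0) : S.sym V V' σ b⁻¹ = - S.sym V V' σ b := by
  have h1 := S.sym_mul h hb (inv_mem hb) hb0 (inv_ne_zero hb0)
  rw [mul_inv_cancel₀ hb0, S.sym_one h] at h1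
  exact eq_neg_of_add_eq_zero_right h1.symm

theorem sym_pow {V V' : Subgroup GQ} {σ : GQ} (h : IsCyc p V V' σ) {b : Qb}
    (hb : b ∈ fixedField V) (hb0 : b ≠ 0) (n : ℕ) :
    S.sym V V' σ (b ^ n) = (n : ZMod p) • S.sym V V' σ b := by
  induction n with
  | zero => rw [pow_zero, S.sym_one h, Nat.cast_zero, zero_smul]
  | succ n ih =>
    rw [pow_succ, S.sym_mul h (pow_mem hb n) hb (pow_ne_zero n hb0) hb0, ih, Nat.cast_succ,
      add_smul, one_smul]

theorem sym_zpow {V V' : Subgroup GQ} {σ : GQ} (h : IsCyc p V V' σ) {b : Qb}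
    (hb : b ∈ fixedField V) (hb0 : b ≠ 0) (n : ℤ) :
    S.sym V V' σ (b ^ n) = (n : ZMod p) • S.sym V V' σ b := by
  cases n with
  | ofNat n => simpa using S.sym_pow h hb hb0 n
  | negSucc n =>
    rw [zpow_negSucc, S.sym_inv h (pow_mem hb _) (pow_ne_zero _ hb0), S.sym_pow h hb hb0,
      Int.cast_negSucc, neg_smul]

/-- multiplying by a norm does not change the symbol -/
theorem sym_mul_norm {V V' : Subgroup GQ} {σ : GQ} (h : IsCyc p V V' σ) {b y : Qb}
    (hb : b ∈ fixedField V) (hb0 : b ≠ 0) (hy : y ∈ fixedField V') (hy0 : y ≠ 0) :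
    S.sym V V' σ (b * cycNorm σ p y) = S.sym V V' σ b := by
  have hN : cycNorm σ p y ∈ fixedField V := h.cycNorm_mem hy
  have hN0 : cycNorm σ p y ≠ 0 := cycNorm_ne_zero σ p hy0
  rw [S.sym_mul h hb hN hb0 hN0, (S.sym_eq_zero_iff h hN hN0).2 ⟨y, hy, rfl⟩, add_zero]

/-- transport of `res` along an equality of subgroups -/
theorem res_eq_zero_congr {V W W' : Subgroup GQ} (hW : W ≤ V) (hW' : W' ≤ V) (h : W = W')
    {x : S.H V} (hx : S.res hW x = 0) : S.res hW' x = 0 := by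
  subst h; exact hx

/-- if `x` dies on `W` it dies on every smaller subgroup -/
theorem res_eq_zero_of_le {V W X : Subgroup GQ} (hW : W ≤ V) (hX : X ≤ W) {x : S.H V}
    (hx : S.res hW x = 0) : S.res (hX.trans hW) x = 0 := by
  rw [← S.res_res hW hX, hx, map_zero]

end LocSym

end Fermat.Agent.PT.Local
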