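import Fermat.Agent.PT.Local.SymDefs
import Fermat.Agent.PT.Bridge.GalLevels

/-!
# S55, block L: the character `chi V V' σ` of a cyclic quotient
-/

set_option autoImplicit false

namespace Fermat.Agent.PT.Local

open IntermediateField Fermat.Agent.PT

noncomputable section

variable {p : ℕ} [Fact p.Prime]

theorem SymChar_normal {V V' : Subgroup GQ} {σ : GQ} (h : IsCyc p V V' σ) :
    (V'.subgroupOf V).Normal := by
  constructor
  intro n hn g
  rw [Subgroup.mem_subgroupOf] at hn ⊢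
  exact h.normal g g.2 n hn

theorem SymChar_relIndex {V V' : Subgroup GQ} {σ : GQ} (h : IsCyc p V V' σ) :
    V'.relIndex V = p := by
  have hp : p.Prime := Fact.out
  have hn := SymChar_normal h
  set s : ↥V ⧸ V'.subgroupOf V := QuotientGroup.mk (⟨σ, h.mem⟩ : ↥V) with hs
  have hsp : s ^ p = 1 := by
    rw [hs, ← QuotientGroup.mk_pow, QuotientGroup.eq_one_iff, Subgroup.mem_subgroupOf]
    exact (h.pow_mem_iff p).2 dvd_rfl
  have hs1 : s ≠ 1 := by
    rw [hs, Ne, QuotientGroup.eq_one_iff, Subgroup.mem_subgroupOf]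
    intro hmem
    have h1 : σ ^ 1 ∈ V' := by rwa [pow_one]
    exact hp.one_lt.ne' (Nat.dvd_one.1 ((h.pow_mem_iff 1).1 h1))
  have hord : orderOf s = p := orderOf_eq_prime hsp hs1
  have hgen : ∀ q : ↥V ⧸ V'.subgroupOf V, q ∈ Subgroup.zpowers s := by
    intro q
    obtain ⟨g, rfl⟩ := QuotientGroup.mk_surjective q
    obtain ⟨j, -, hj⟩ := h.gen g g.2
    refine ⟨(j : ℤ), ?_⟩
    change s ^ (j : ℤ) = _
    rw [zpow_natCast, hs, ← QuotientGroup.mk_pow, QuotientGroup.eq, Subgroup.mem_subgroupOf]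
    exact hj
  rw [Subgroup.relIndex, Subgroup.index, ← orderOf_eq_card_of_forall_mem_zpowers hgen, hord]

/-- Existence of the character attached to a cyclic quotient
(`exists_Z1_of_hom` / `exists_Z1_of_relIndex`, then rescale so that `x 1 σ = 1`; an `N` as in
`IsOpenIn` can be enlarged to a finite Galois extension, which gives a level `U ∈ Lall`). -/
theorem exists_chi {V V' : Subgroup GQ} {σ : GQ} (h : IsCyc p V V' σ) :
    ∃ x ∈ Z1 Lall V (trivZ p GQ), kerOf V x = V' ∧ x 1 σ = 1 := by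
  have hp : p.Prime := Fact.out
  obtain ⟨hle, N, hN, hNV⟩ := h.isOpenIn
  obtain ⟨U, hU, hUN⟩ := isOpen_Lall_of_finiteDimensional hN
  obtain ⟨x, hx, hker⟩ := exists_Z1_of_relIndex (L := Lall) (p := p) hU hle
    ((inf_le_inf_left V hUN).trans hNV) (SymChar_normal h) (SymChar_relIndex h)
  have hσ : x 1 σ ≠ 0 := by
    intro h0
    have h1 : σ ∈ kerOf V x := (mem_kerOf_iff hx).2 ⟨h.mem, h0⟩
    rw [hker] at h1
    have h2 : σ ^ 1 ∈ V' := by rwa [pow_one]
    exact hp.one_lt.ne' (Nat.dvd_one.1 ((h.pow_mem_iff 1).1 h2))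
  have hx' : (x 1 σ)⁻¹ • x ∈ Z1 Lall V (trivZ p GQ) := Submodule.smul_mem _ _ hx
  refine ⟨(x 1 σ)⁻¹ • x, hx', ?_, ?_⟩
  · rw [← hker]
    ext v
    rw [mem_kerOf_iff hx', mem_kerOf_iff hx]
    refine and_congr_right fun _ => ?_
    change (x 1 σ)⁻¹ * x 1 v = 0 ↔ _
    rw [mul_eq_zero, or_iff_right (inv_ne_zero hσ)]
  · change (x 1 σ)⁻¹ * x 1 σ = 1
    exact inv_mul_cancel₀ hσ

theorem chi_spec {V V' : Subgroup GQ} {σ : GQ} (h : IsCyc p V V' σ) :
    chi p V V' σ ∈ Z1 Lall V (trivZ p GQ) ∧ kerOf V (chi p V V' σ) = V' ∧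
      chi p V V' σ 1 σ = 1 := by
  have hex := exists_chi h
  have : chi p V V' σ = hex.choose := by
    unfold chi
    rw [dif_pos hex]
  rw [this]
  exact hex.choose_spec

/-- the values of the character: `χ (σ^j v') = j`. -/
theorem chi_apply {V V' : Subgroup GQ} {σ : GQ} (h : IsCyc p V V' σ) (j : ℕ) {v' : GQ}
    (hv' : v' ∈ V') : chi p V V' σ 1 (σ ^ j * v') = j := by
  obtain ⟨hx, hker, h1⟩ := chi_spec h
  rw [x_one_pow hx h.mem, h1, mul_one]
  rw [← hker] at hv'
  rw [((mem_kerOf_iff hx).1 hv').2, add_zero]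

theorem finite_cosetsIn {V W : Subgroup GQ} (h : IsOpenIn W V) : Finite (CosetsIn V W) := by
  obtain ⟨hle, N, hN, hNV⟩ := h
  have h1 : N.fixingSubgroup.FiniteIndex := finiteIndex_fixingSubgroup' N hN
  have h2 : (N.fixingSubgroup.subgroupOf V).FiniteIndex := inferInstance
  have h3 : N.fixingSubgroup.subgroupOf V ≤ W.subgroupOf V := by
    intro g hg
    rw [Subgroup.mem_subgroupOf] at hg ⊢
    exact hNV ⟨g.2, hg⟩
  have h4 : (W.subgroupOf V).FiniteIndex := Subgroup.finiteIndex_of_le h3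
  exact Subgroup.finite_quotient_of_finiteIndex

end

end Fermat.Agent.PT.Local
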