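import Fermat.Agent.PT.B.Cyclic
import Fermat.Agent.PT.Coh.Cores
import Fermat.Agent.PT.Coh.DictV

/-!
# S55, block L: projection formulas for `cupT` (generic cochain identities)

Setting of `PT/B`: characters are cocycles `x ∈ Z1 L V (trivZ p G)`;
`cupT f x g₀ g₁ g₂ = x g₁ g₂ • f g₀ g₁`; corestriction
`cor_n τ V W = ∑_{q ∈ V/W} tw_n τ q.rep` (`PT/Coh/Cores.lean`).
-/

set_option autoImplicit false

namespace Fermat.Agent.PT

variable {G : Type*} [Group G] {L : LevelSystem G} {p : ℕ} [Fact p.Prime]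
variable {A : Type*} [AddCommGroup A] {ρ : Representation ℤ G A}
variable {T : Type*} [AddCommGroup T] [Module (ZMod p) T] {τ : Representation (ZMod p) G T}
variable {ι : T →+ A}

/-- Projection formula, first form (equality of functions): `x` is `V`-invariant, so
`tw2 τ q (cupT f x) = cupT (tw1 τ q f) x` for `q ∈ V`. -/
theorem cor2_cupT_left {V W : Subgroup G} [Finite (CosetsIn V W)] {x : G → G → ZMod p}
    (hx : x ∈ X1 L V (trivZ p G)) (f : G → G → T) :
    cor2 τ V W (cupT f x) = cupT (cor1 τ V W f) x := by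
  funext g₀ g₁ g₂
  simp only [cor2, cor1, cupT, LinearMap.sum_apply, Finset.sum_apply, tw2_apply, tw1_apply,
    map_smul, Finset.smul_sum]
  refine Finset.sum_congr rfl fun q _ => ?_
  congr 1
  exact hx.1 _ (V.inv_mem q.rep_mem) g₁ g₂

/-- Projection formula, second form (equality of functions): `f` is `V`-equivariant, so
`tw2 τ q (cupT f x) = cupT f (tw1 triv q x)` for `q ∈ V`. -/
theorem cor2_cupT_right {V W : Subgroup G} [Finite (CosetsIn V W)] {f : G → G → T}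
    (hf : f ∈ X1 L V τ) (x : G → G → ZMod p) :
    cor2 τ V W (cupT f x) = cupT f (cor1 (trivZ p G) V W x) := by
  funext g₀ g₁ g₂
  simp only [cor2, cor1, cupT, LinearMap.sum_apply, Finset.sum_apply, tw2_apply, tw1_apply,
    map_smul, Finset.sum_smul]
  refine Finset.sum_congr rfl fun q _ => ?_
  rw [hf.1 _ (V.inv_mem q.rep_mem) g₀ g₁, ← Module.End.mul_apply, ← map_mul, mul_inv_cancel,
    map_one, Module.End.one_apply]
  rfl

omit [Group G] in
theorem SymCohA_cupT_sub_right (f : G → G → T) (x x' : G → G → ZMod p) :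
    cupT f (x - x') = cupT f x - cupT f x' := by
  funext g₀ g₁ g₂
  simp [cupT, sub_smul]

/-- Two characters with the same values on `V` give cohomologous cup products
(`sub_mem_B1_of_inh_eq`, `cupT_mem_B2_right`). -/
theorem cupT_congr_right {V : Subgroup G} {f : G → G → T} (hf : f ∈ Z1 L V τ)
    {x x' : G → G → ZMod p} (hx : x ∈ Z1 L V (trivZ p G)) (hx' : x' ∈ Z1 L V (trivZ p G))
    (h : ∀ v ∈ V, x 1 v = x' 1 v) : cupT f x - cupT f x' ∈ B2 L V τ := by
  rw [← SymCohA_cupT_sub_right]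
  exact cupT_mem_B2_right hf (sub_mem_B1_of_inh_eq hx hx' h)

/-- Anticommutativity of the cup product of two characters with values in `ZMod p`:
`x ∪ y + y ∪ x = - d (x · y)`. -/
theorem cupT_anticomm {V : Subgroup G} {x y : G → G → ZMod p}
    (hx : x ∈ Z1 L V (trivZ p G)) (hy : y ∈ Z1 L V (trivZ p G)) :
    cupT x y + cupT y x ∈ B2 L V (trivZ p G) := by
  obtain ⟨⟨hxe, U, hU, hxs⟩, hxd⟩ := mem_Z1.mp hx
  obtain ⟨⟨hye, U', hU', hys⟩, hyd⟩ := mem_Z1.mp hy
  obtain ⟨W, hW, h1, h2⟩ := L.directed' U hU U' hU'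
  refine mem_B2.mpr ⟨fun g₀ g₁ => -(x g₀ g₁ * y g₀ g₁),
    ⟨fun v hv g₀ g₁ => ?_, W, hW, fun g₀ g₁ u₀ h₀ u₁ h₁ => ?_⟩, ?_⟩
  · show -(x (v * g₀) (v * g₁) * y (v * g₀) (v * g₁)) = -(x g₀ g₁ * y g₀ g₁)
    have e1 : x (v * g₀) (v * g₁) = x g₀ g₁ := hxe v hv g₀ g₁
    have e2 : y (v * g₀) (v * g₁) = y g₀ g₁ := hye v hv g₀ g₁
    rw [e1, e2]
  · show -(x (g₀ * u₀) (g₁ * u₁) * y (g₀ * u₀) (g₁ * u₁)) = -(x g₀ g₁ * y g₀ g₁)
    rw [hxs _ _ _ (h1 h₀) _ (h1 h₁), hys _ _ _ (h2 h₀) _ (h2 h₁)]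
  · funext g₀ g₁ g₂
    have e1 := congrFun (congrFun (congrFun hxd g₀) g₁) g₂
    have e2 := congrFun (congrFun (congrFun hyd g₀) g₁) g₂
    simp only [d1_apply, Pi.zero_apply] at e1 e2
    simp only [d1_apply, cupT, Pi.add_apply, smul_eq_mul]
    have e1' : x g₀ g₂ = x g₁ g₂ + x g₀ g₁ := by linear_combination (-1 : ZMod p) * e1
    have e2' : y g₀ g₂ = y g₁ g₂ + y g₀ g₁ := by linear_combination (-1 : ZMod p) * e2
    rw [e1', e2']
    ring

end Fermat.Agent.PT
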