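import Fermat.Agent.PT.Local.SymCohA

/-!
# S55, block L: corestriction of Kummer classes, projection formula 1
-/

set_option autoImplicit false
set_option linter.style.haveILetI false
set_option linter.unusedVariables false

namespace Fermat.Agent.PT

variable {G : Type*} [Group G] {L : LevelSystem G} {p : ℕ} [Fact p.Prime]
variable {A : Type*} [AddCommGroup A] {ρ : Representation ℤ G A}
variable {T : Type*} [AddCommGroup T] [Module (ZMod p) T] {τ : Representation (ZMod p) G T}
variable {ι : T →+ A}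

/-- The norm of a `W`-fixed vector (sum over `V / W`). -/
noncomputable def relNormA (ρ : Representation ℤ G A) (V W : Subgroup G) (c : A) : A :=
  ∑ᶠ q : CosetsIn V W, ρ q.rep c

theorem SymCohB_cor0_apply {k B : Type*} [CommRing k] [AddCommGroup B] [Module k B]
    (σ : Representation k G B) (V W : Subgroup G) [Finite (CosetsIn V W)] (f : G → B) (g : G) :
    cor0 σ V W f g = ∑ᶠ q : CosetsIn V W, σ q.rep (f (q.rep⁻¹ * g)) := by
  letI := Fintype.ofFinite (CosetsIn V W)
  rw [finsum_eq_sum_of_fintype, cor0, LinearMap.sum_apply, Finset.sum_apply]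
  exact Finset.sum_congr (by ext; simp) fun _ _ => rfl

theorem SymCohB_cor1_apply {k B : Type*} [CommRing k] [AddCommGroup B] [Module k B]
    (σ : Representation k G B) (V W : Subgroup G) [Finite (CosetsIn V W)] (f : G → G → B)
    (g₀ g₁ : G) :
    cor1 σ V W f g₀ g₁ = ∑ᶠ q : CosetsIn V W, σ q.rep (f (q.rep⁻¹ * g₀) (q.rep⁻¹ * g₁)) := by
  letI := Fintype.ofFinite (CosetsIn V W)
  rw [finsum_eq_sum_of_fintype, cor1, LinearMap.sum_apply, Finset.sum_apply, Finset.sum_apply]
  exact Finset.sum_congr (by ext; simp) fun _ _ => rfl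

/-- the level system `{⊤}`. -/
def SymCohB_topLevel (G : Type*) [Group G] : LevelSystem G where
  carrier := {⊤}
  normal' := by rintro U rfl; infer_instance
  finiteIndex' := by rintro U rfl; infer_instance
  nonempty' := ⟨⊤, rfl⟩
  directed' := by rintro U rfl U' rfl; exact ⟨⊤, rfl, le_rfl, le_rfl⟩

theorem relNormA_fixed {V W : Subgroup G} [Finite (CosetsIn V W)] (hWV : W ≤ V) {c : A}
    (hc : ∀ w ∈ W, ρ w c = c) : ∀ v ∈ V, ρ v (relNormA ρ V W c) = relNormA ρ V W c := by
  intro v hv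
  have h1 : (fun _ : G => c) ∈ X0 (SymCohB_topLevel G) W ρ :=
    ⟨fun w hw _ => (hc w hw).symm, ⊤, rfl, fun _ _ _ => rfl⟩
  have h2 := (cor0_mem (V := V) h1).1 v hv 1
  rw [SymCohB_cor0_apply, SymCohB_cor0_apply] at h2
  exact h2.symm

/-- **Corestriction of a Kummer class**: `cores κ_W(c) = κ_V(N c)`. -/
theorem KummerSetup.cor1_kum (K : KummerSetup L p ρ τ ι) {V W : Subgroup G}
    [Finite (CosetsIn V W)] (hWV : W ≤ V) {c : A} (hc : ∀ w ∈ W, ρ w c = c) :
    cor1 τ V W (K.kum c) - K.kum (relNormA ρ V W c) ∈ B1 L V τ := by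
  letI := Fintype.ofFinite (CosetsIn V W)
  refine K.kum_char (V := V) (e := cor0 ρ V W (K.eK c)) (cor0_mem (K.eK_mem_X0 hc)) ?_ ?_
  · intro g
    rw [SymCohB_cor0_apply, relNormA, finsum_eq_sum_of_fintype, finsum_eq_sum_of_fintype,
      Finset.smul_sum]
    refine Finset.sum_congr rfl fun q _ => ?_
    rw [← map_nsmul, K.p_smul_eK]
  · intro g₀ g₁
    rw [SymCohB_cor1_apply, SymCohB_cor0_apply, SymCohB_cor0_apply, finsum_eq_sum_of_fintype,
      finsum_eq_sum_of_fintype, finsum_eq_sum_of_fintype, map_sum, ← Finset.sum_sub_distrib]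
    refine Finset.sum_congr rfl fun q _ => ?_
    rw [K.equiv, K.ι_kum, map_sub]

/-- **Projection formula 1**: `cores (κ_W(c) ∪ res χ) = κ_V(N c) ∪ χ`. -/
theorem KummerSetup.cor2_theta_left (K : KummerSetup L p ρ τ ι) {V W : Subgroup G}
    [Finite (CosetsIn V W)] (hWV : W ≤ V) {c : A} (hc : ∀ w ∈ W, ρ w c = c)
    {x : G → G → ZMod p} (hx : x ∈ Z1 L V (trivZ p G)) :
    cor2 τ V W (K.theta c x) - K.theta (relNormA ρ V W c) x ∈ B2 L V τ := by
  rw [KummerSetup.theta, KummerSetup.theta, cor2_cupT_left hx.1, ← cupT_sub_left]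
  exact cupT_mem_B2_left (K.cor1_kum hWV hc) hx

end Fermat.Agent.PT
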