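import Fermat.Agent.PT.Local.Sym
import Fermat.Agent.PT.Local.SymCohA
import Fermat.Agent.PT.B.Galois
import Fermat.Agent.PT.B.CharExists
import Fermat.Agent.PT.Coh.IsoCrit

/-!
# S55, block L: definitions for the instance `locSymQ p : LocSym p`

`H V = H2 Lall V (cycRep p)`, `res = (resC ..).H2`, `cor = (coresC ..).H2`,
`sym V V' σ b = [ (kummerQbar p).theta b χ ]` with `χ` a cocycle of `V` with kernel `V'`, `χ σ = 1`.
-/

set_option autoImplicit false

namespace Fermat.Agent.PT.Local

open IntermediateField Fermat.Agent.PT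

noncomputable section

variable (p : ℕ) [Fact p.Prime]

/-- `H²(V, μ_p)` -/
abbrev HQ (V : Subgroup GQ) : Type := H2 Lall V (cycRep p)

/-- restriction -/
def resQ {V W : Subgroup GQ} (h : W ≤ V) : HQ p V →ₗ[ZMod p] HQ p W :=
  (resC Lall (cycRep p) h).H2

open Classical in
/-- corestriction (zero if the index is infinite) -/
def corQ (V W : Subgroup GQ) : HQ p W →ₗ[ZMod p] HQ p V :=
  if h : Finite (CosetsIn V W) then (@coresC _ _ _ _ _ _ _ Lall (cycRep p) V W h).H2 else 0

/-- an element of `Qb` as an element of `Additive Qbarˣ` (junk value at `0`) -/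
def uu (b : Qb) : Additive Qbarˣ :=
  open Classical in if h : b ≠ 0 then Additive.ofMul (Units.mk0 b h) else 0

open Classical in
/-- the chosen character of `V` with kernel `V'` and value `1` at `σ` -/
def chi (V V' : Subgroup GQ) (σ : GQ) : GQ → GQ → ZMod p :=
  if h : ∃ x ∈ Z1 Lall V (trivZ p GQ), kerOf V x = V' ∧ x 1 σ = 1 then h.choose else 0

/-- the cocycle of the symbol -/
def symZ (V V' : Subgroup GQ) (σ : GQ) (b : Qb) : GQ → GQ → GQ → ZMod p :=
  (kummerQbar p).theta (uu b) (chi p V V' σ)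

open Classical in
/-- the symbol -/
def symQ (V V' : Subgroup GQ) (σ : GQ) (b : Qb) : HQ p V :=
  if h : symZ p V V' σ b ∈ Z2 Lall V (cycRep p) then H2.mk Lall V (cycRep p) ⟨_, h⟩ else 0

end

end Fermat.Agent.PT.Local
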