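import Fermat.Agent.PT.Local.SymChar

/-!
# S55, block L: the functorial axioms of `LocSym` (res, cor, die)
-/

set_option autoImplicit false

namespace Fermat.Agent.PT.Local

open IntermediateField Fermat.Agent.PT

noncomputable section

variable {p : ℕ} [Fact p.Prime]

theorem resQ_refl {V : Subgroup GQ} (x : HQ p V) : resQ p (le_refl V) x = x := by
  obtain ⟨z, rfl⟩ := H2.mk_surjective Lall V (cycRep p) x
  rfl

theorem resQ_resQ {V W X : Subgroup GQ} (h1 : W ≤ V) (h2 : X ≤ W) (x : HQ p V) :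
    resQ p h2 (resQ p h1 x) = resQ p (h2.trans h1) x := by
  obtain ⟨z, rfl⟩ := H2.mk_surjective Lall V (cycRep p) x
  rfl

theorem corQ_corQ {V W X : Subgroup GQ} (h1 : W ≤ V) (h2 : X ≤ W) (ho : IsOpenIn X V)
    (x : HQ p X) : corQ p V W (corQ p W X x) = corQ p V X x := by
  obtain ⟨hXV, N, hN, hle⟩ := ho
  have f1 : Finite (CosetsIn V W) := finite_cosetsIn ⟨h1, N, hN, hle.trans h2⟩
  have f2 : Finite (CosetsIn W X) :=
    finite_cosetsIn ⟨h2, N, hN, (inf_le_inf_right _ h1).trans hle⟩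
  have f3 : Finite (CosetsIn V X) := finite_cosetsIn ⟨hXV, N, hN, hle⟩
  obtain ⟨z, rfl⟩ := H2.mk_surjective Lall X (cycRep p) x
  unfold corQ
  rw [dif_pos f1, dif_pos f2, dif_pos f3, CMap.H2_mk, CMap.H2_mk, CMap.H2_mk]
  exact congrArg _ (Subtype.ext (cor_cor2 Lall (cycRep p) h2 h1 z.2.1))

theorem corQ_resQ {V W : Subgroup GQ} (h : W ≤ V) (ho : IsOpenIn W V) (x : HQ p V) :
    corQ p V W (resQ p h x) = (W.relIndex V : ZMod p) • x := by
  have f1 : Finite (CosetsIn V W) := finite_cosetsIn ho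
  unfold corQ resQ
  rw [dif_pos f1, cores_res_H2, Nat.cast_smul_eq_nsmul]

theorem dieQ {V : Subgroup GQ} (x : HQ p V) : ∃ N : Fld, FiniteDimensional ℚ N ∧
    resQ p (inf_le_left : V ⊓ N.fixingSubgroup ≤ V) x = 0 := by
  obtain ⟨U, ⟨-, F, hF, rfl⟩, h0⟩ := exists_res_H2_eq_zero x
  exact ⟨F, hF, h0⟩

end

end Fermat.Agent.PT.Local
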