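import Fermat.Agent.PT.Local.SymChar
import Fermat.Agent.PT.Local.SymCohB

/-!
# S55, block L: bridge `Qb` <-> `Additive Qbarˣ`, the symbol is a cocycle
-/

set_option autoImplicit false

namespace Fermat.Agent.PT.Local

open IntermediateField Fermat.Agent.PT

noncomputable section

variable {p : ℕ} [Fact p.Prime]

theorem SymUU_uu_of_ne {b : Qb} (hb : b ≠ 0) : uu b = Additive.ofMul (Units.mk0 b hb) := by
  rw [uu, dif_pos hb]

theorem SymUU_coe_toMul_uu {b : Qb} (hb : b ≠ 0) :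
    ((Additive.toMul (uu b) : Qbarˣ) : Qbar) = b := by
  rw [SymUU_uu_of_ne hb]
  rfl

theorem SymUU_eq_uu {a : Additive Qbarˣ} {b : Qb} (hb : b ≠ 0)
    (h : ((Additive.toMul a : Qbarˣ) : Qbar) = b) : a = uu b := by
  rw [SymUU_uu_of_ne hb]
  show Additive.ofMul (Additive.toMul a) = _
  congr 1
  ext
  exact h

theorem uu_fixed {V : Subgroup GQ} {b : Qb} (hb : b ∈ fixedField V) :
    ∀ v ∈ V, multRep v (uu b) = uu b := by
  by_cases h0 : b = 0
  · intro v _
    have : uu b = 0 := by rw [uu, dif_neg (not_not.2 h0)]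
    rw [this, map_zero]
  · rw [SymUU_uu_of_ne h0, multRep_fixed_iff]
    exact hb

theorem uu_mul {b c : Qb} (hb : b ≠ 0) (hc : c ≠ 0) : uu (b * c) = uu b + uu c := by
  symm
  apply SymUU_eq_uu (mul_ne_zero hb hc)
  rw [toMul_add, Units.val_mul, SymUU_coe_toMul_uu hb, SymUU_coe_toMul_uu hc]

/-- every fixed vector of `multRep` is `uu b` -/
theorem exists_uu {V : Subgroup GQ} {a : Additive Qbarˣ} (ha : ∀ v ∈ V, multRep v a = a) :
    ∃ b ∈ fixedField V, b ≠ 0 ∧ uu b = a := by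
  have ha' : ∀ v ∈ V, multRep v (Additive.ofMul (Additive.toMul a)) =
      Additive.ofMul (Additive.toMul a) := ha
  rw [multRep_fixed_iff] at ha'
  exact ⟨_, ha', (Additive.toMul a).ne_zero, (SymUU_eq_uu (Additive.toMul a).ne_zero rfl).symm⟩

theorem normOf_uu (σ : GQ) {y : Qb} (hy : y ≠ 0) :
    normOf multRep p σ (uu y) = uu (cycNorm σ p y) := by
  apply SymUU_eq_uu (cycNorm_ne_zero σ p hy)
  rw [normOf, toMul_sum_multRep, SymUU_coe_toMul_uu hy]
  rfl

theorem relNormA_uu {V W : Subgroup GQ} [Finite (CosetsIn V W)] {c : Qb} (hc : c ≠ 0) :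
    relNormA multRep V W (uu c) = uu (relNorm W V c) := by
  letI := Fintype.ofFinite (CosetsIn V W)
  have h1 : relNorm W V c = ∏ x : CosetsIn V W, (x.rep : GQ) c := by
    rw [relNorm, finprod_eq_prod_of_fintype]
    rfl
  have h0 : relNorm W V c ≠ 0 := by
    rw [h1, Finset.prod_ne_zero_iff]
    intro x _
    exact (map_ne_zero _).2 hc
  apply SymUU_eq_uu h0
  rw [relNormA, finsum_eq_sum_of_fintype, toMul_sum, Units.coe_prod, h1]
  refine Finset.prod_congr rfl fun x _ => ?_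
  rw [toMul_multRep, SymUU_coe_toMul_uu hc]

theorem symZ_mem {V V' : Subgroup GQ} {σ : GQ} (h : IsCyc p V V' σ) {b : Qb}
    (hb : b ∈ fixedField V) : symZ p V V' σ b ∈ Z2 Lall V (cycRep p) := by
  exact (kummerQbar p).theta_mem_Z2 (uu_fixed hb) (chi_spec h).1

theorem symQ_eq {V V' : Subgroup GQ} {σ : GQ} (h : IsCyc p V V' σ) {b : Qb}
    (hb : b ∈ fixedField V) :
    symQ p V V' σ b = H2.mk Lall V (cycRep p) ⟨_, symZ_mem h hb⟩ := by
  rw [symQ, dif_pos (symZ_mem h hb)]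

end

end Fermat.Agent.PT.Local
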