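import Fermat.Agent.PT.Local.PChain
import Fermat.Agent.PT.Local.Step
import Fermat.Agent.PT.Local.CorStep

/-!
# S55, block L: induction along chains of cyclic steps of degree `p`
-/

set_option autoImplicit false

namespace Fermat.Agent.PT.Local

open IntermediateField

variable {p : ℕ} [Fact p.Prime] {S : LocSym p} {P : Plc}

theorem Tower_isOpenIn_refl (V : Subgroup GQ) : IsOpenIn V V :=
  ⟨le_rfl, ⊥, inferInstance, inf_le_left⟩

theorem Tower_cor_refl (S : LocSym p) {V : Subgroup GQ} (x : S.H V) : S.cor (le_refl V) x = x := by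
  have h := S.cor_res (le_refl V) (Tower_isOpenIn_refl V) x
  rw [S.res_refl, Subgroup.relIndex_self, Nat.cast_one, one_smul] at h
  exact h

theorem Tower_cor_aux {V W : Subgroup GQ} (h : PChain p V W) :
    ∀ (K : Fld) [FiniteDimensional ℚ K], lg P K = V → ∀ {x' : S.H W}, IsFund S P W x' →
      IsFund S P V (S.cor h.le x') := by
  induction h with
  | refl V =>
    intro K _ _ x' hx'
    rw [Tower_cor_refl]
    exact hx'
  | @step V V₁ W σ h₁ h₂ ih =>
    intro K _ hK x' hx'
    subst hK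
    obtain ⟨K₁, hK₁, hle, hEq⟩ := exists_lg_eq P K h₁.isOpenIn
    subst hEq
    have h3 := IsFund.cor_step hle h₁ (ih K₁ rfl hx')
    rw [S.cor_cor h₁.le h₂.le (PChain.step h₁ h₂).isOpenIn] at h3
    exact h3

/-- Corestriction along a chain maps fundamental classes to fundamental classes.
Proof: induction on the chain (generalise `lg P K = V`, all `K`); in the step `V₁ = lg P K₁` with
`K ≤ K₁` by `exists_lg_eq`; `IsFund.cor_step` and `cor_cor`. -/
theorem PChain.cor_isFund {K : Fld} [FiniteDimensional ℚ K] {W : Subgroup GQ}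
    (h : PChain p (lg P K) W) {x' : S.H W} (hx' : IsFund S P W x') :
    IsFund S P (lg P K) (S.cor h.le x') :=
  Tower_cor_aux h K rfl hx'

theorem Tower_span_aux {ζ : Qb} (hζ : IsPrimitiveRoot ζ p) {V W : Subgroup GQ}
    (h : PChain p V W) :
    ∀ (K : Fld) [FiniteDimensional ℚ K], ζ ∈ K → lg P K = V → ∀ {x : S.H V}, IsFund S P V x →
      ∀ {y : S.H V}, S.res h.le y = 0 → ∃ c : ZMod p, y = c • x := by
  induction h with
  | refl V =>
    intro K _ _ _ x _ y hy
    rw [S.res_refl] at hy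
    exact ⟨0, by rw [hy, zero_smul]⟩
  | @step V V₁ W σ h₁ h₂ ih =>
    intro K _ hζK hK x hx y hy
    subst hK
    obtain ⟨K₁, hK₁, hle, hEq⟩ := exists_lg_eq P K h₁.isOpenIn
    subst hEq
    obtain ⟨x₁, hx₁⟩ := exists_isFund (S := S) (P := P) (K := K₁)
    have hy₁ : S.res h₂.le (S.res h₁.le y) = 0 := by
      rw [S.res_res]; exact hy
    obtain ⟨a, ha⟩ := ih K₁ (hle hζK) rfl hx₁ hy₁
    have hcor := S.cor_res h₁.le h₁.isOpenIn y
    rw [h₁.relIndex (Fact.out : p.Prime).pos, ZMod.natCast_self, zero_smul, ha, map_smul] at hcor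
    have hne : S.cor h₁.le x₁ ≠ 0 := (IsFund.cor_step hle h₁ hx₁).1
    have ha0 : a = 0 := (smul_eq_zero.mp hcor).resolve_right hne
    rw [ha0, zero_smul] at ha
    exact IsFund.span_of_res hle hζ hζK h₁ hx ha

/-- A class dying at the end of a chain is a multiple of the fundamental class (`μ_p ⊆ K`).
Proof: induction on the chain.  Step `V ▷ V₁ = lg P K₁`, `x₁` fundamental for `K₁`
(`exists_isFund`): `res_{V₁} y = a • x₁` by induction; applying `cor`:
`0 = p • y = cor (res y) = a • cor x₁` (`cor_res`, `IsCyc.relIndex`) and `cor x₁ ≠ 0`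
(`IsFund.cor_step`), so `a = 0`, `res_{V₁} y = 0`; conclude by `IsFund.span_of_res`. -/
theorem PChain.span {K : Fld} [FiniteDimensional ℚ K] {ζ : Qb} (hζ : IsPrimitiveRoot ζ p)
    (hζK : ζ ∈ K) {W : Subgroup GQ} (h : PChain p (lg P K) W) {x : S.H (lg P K)}
    (hx : IsFund S P (lg P K) x) {y : S.H (lg P K)} (hy : S.res h.le y = 0) :
    ∃ c : ZMod p, y = c • x :=
  Tower_span_aux hζ h K hζK rfl hx hy

end Fermat.Agent.PT.Local
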