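import Fermat.Agent.PT.Local.Dense
import Fermat.Agent.CFT.LPMap

/-!
# S55, block L, leaf L05: uniformizers and residue fields of the local fields
-/

set_option autoImplicit false

namespace Fermat.Agent.PT.Local

open IsDedekindDomain NumberField Fermat.Agent.CFT

open scoped Classical in
noncomputable local instance unifDecEq (P : Plc) : DecidableEq (IsLocalRing.ResidueField P.A) :=
  inferInstance

variable (P : Plc) (K : Fld) [FiniteDimensional ℚ K]

/-! ### helpers -/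

/-- `𝓞 K → ` residue field of `P.A`. -/
noncomputable def unifRes : 𝓞 K →+* IsLocalRing.ResidueField P.A :=
  (IsLocalRing.residue P.A).comp (toA P K)

lemma unifRes_eq_zero_iff (a : 𝓞 K) : unifRes P K a = 0 ↔ a ∈ (pl P K).asIdeal := by
  rw [unifRes, RingHom.comp_apply, IsLocalRing.residue_eq_zero_iff]
  rfl

lemma unif_residue_eq_zero_iff (X : P.A) :
    IsLocalRing.residue P.A X = 0 ↔ P.v (X : Qb) < 1 := by
  rw [IsLocalRing.residue_eq_zero_iff]
  exact P.A.valuation_lt_one_iff X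

lemma unif_residue_eq_iff (X Y : P.A) :
    IsLocalRing.residue P.A X = IsLocalRing.residue P.A Y ↔ P.v ((X : Qb) - (Y : Qb)) < 1 := by
  rw [← sub_eq_zero, ← map_sub, unif_residue_eq_zero_iff]
  rfl

lemma unif_ncard_range : (Set.range (unifRes P K)).ncard = rq P K := by
  have e := RingHom.quotientKerEquivRange (unifRes P K)
  have h1 : Nat.card (𝓞 K ⧸ RingHom.ker (unifRes P K)) = Nat.card (unifRes P K).range :=
    Nat.card_congr e.toEquiv
  have hker : RingHom.ker (unifRes P K) = (pl P K).asIdeal := by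
    ext a
    rw [RingHom.mem_ker, unifRes_eq_zero_iff]
  rw [hker, LPMap.card_quot] at h1
  rw [← Nat.card_coe_set_eq]
  exact h1.symm

lemma unif_pow_rq_sub_mem (a : 𝓞 K) : a ^ rq P K - a ∈ (pl P K).asIdeal := by
  classical
  have : (pl P K).asIdeal.IsMaximal := (pl P K).isMaximal
  let _ : Field (𝓞 K ⧸ (pl P K).asIdeal) := Ideal.Quotient.field _
  let _ : Fintype (𝓞 K ⧸ (pl P K).asIdeal) := Fintype.ofFinite _
  have h1 := FiniteField.pow_card (Ideal.Quotient.mk (pl P K).asIdeal a)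
  rw [← Nat.card_eq_fintype_card, LPMap.card_quot] at h1
  rw [← Ideal.Quotient.eq_zero_iff_mem, map_sub, map_pow]
  unfold rq
  rw [h1, sub_self]

lemma unifRes_pow_rq (a : 𝓞 K) : unifRes P K a ^ rq P K = unifRes P K a := by
  rw [← sub_eq_zero, ← map_pow, ← map_sub, unifRes_eq_zero_iff]
  exact unif_pow_rq_sub_mem P K a

/-- the roots of `X ^ q - X` in the residue field. -/
lemma unif_range_subset_roots {q : ℕ} (hq : 1 < q)
    (h : ∀ a : 𝓞 K, unifRes P K a ^ q = unifRes P K a) :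
    Set.range (unifRes P K) ⊆
      ((Polynomial.X ^ q - Polynomial.X :
        Polynomial (IsLocalRing.ResidueField P.A)).roots.toFinset : Set _) := by
  rintro _ ⟨a, rfl⟩
  rw [Finset.mem_coe, Multiset.mem_toFinset, Polynomial.mem_roots
    (FiniteField.X_pow_card_sub_X_ne_zero _ hq)]
  simp [h a]

lemma unif_card_roots_le {q : ℕ} (hq : 1 < q) :
    ((Polynomial.X ^ q - Polynomial.X :
        Polynomial (IsLocalRing.ResidueField P.A)).roots.toFinset).card ≤ q := by
  refine (Multiset.toFinset_card_le _).trans ((Polynomial.card_roots' _).trans ?_)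
  rw [FiniteField.X_pow_card_sub_X_natDegree_eq _ hq]

lemma unif_v_ell_pow_succ_lt (n : ℕ) : P.v (P.ℓ : Qb) ^ (n + 1) < P.v (P.ℓ : Qb) ^ n := by
  have h0 : 0 < P.v (P.ℓ : Qb) ^ n := pow_pos (zero_lt_iff.2 (v_ell_ne_zero P)) n
  calc P.v (P.ℓ : Qb) ^ (n + 1) = P.v (P.ℓ : Qb) ^ n * P.v (P.ℓ : Qb) := pow_succ _ _
    _ < P.v (P.ℓ : Qb) ^ n * 1 := by
        exact (mul_lt_mul_iff_right₀ h0).2 (v_ell_lt_one P)
    _ = P.v (P.ℓ : Qb) ^ n := mul_one _

/-- Proof: for `x ∈ lf P K`, `x ≠ 0` choose `y ∈ K` with `v (x - y) < v x` (`dense`,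
`exists_pow_le`); then `v x = v y = v π ^ ord y` (`v_eq_zpow_ord`). -/
theorem isUnif_of_ord {π : K} (hπ : ord (pl P K) π = 1) : IsUnif P K (π : Qb) := by
  refine ⟨le_lf P K π.2, v_lt_one_of_ord_pos P K (by rw [hπ]; exact one_pos), fun x hx hx0 => ?_⟩
  obtain ⟨n, hn⟩ := exists_pow_le P hx0
  obtain ⟨y, hy, hxy⟩ := dense P K hx (n + 1)
  have h1 : P.v (y - x) < P.v x := by
    rw [Valuation.map_sub_swap]
    exact lt_of_le_of_lt hxy (lt_of_lt_of_le (unif_v_ell_pow_succ_lt P n) hn)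
  have h2 : P.v y = P.v x := Valuation.map_eq_of_sub_lt _ h1
  have hy0 : y ≠ 0 := by
    rintro rfl
    rw [map_zero] at h2
    exact hx0 ((map_eq_zero P.v).1 h2.symm)
  have hy0' : (⟨y, hy⟩ : K) ≠ 0 := by
    intro h
    exact hy0 (congrArg Subtype.val h)
  exact ⟨ord (pl P K) (⟨y, hy⟩ : K), by rw [← h2]; exact v_eq_zpow_ord P K hπ hy0'⟩

theorem exists_unif : ∃ π : K, ord (pl P K) π = 1 ∧ IsUnif P K (π : Qb) := by
  obtain ⟨π, hπ⟩ := exists_uniformizer (pl P K)
  exact ⟨π, hπ, isUnif_of_ord P K hπ⟩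

/-- The residue field of `lf P K` is that of `K`. -/
theorem exists_residue_rep {x : Qb} (hx : x ∈ lf P K) (hx1 : P.v x ≤ 1) :
    ∃ a : 𝓞 K, P.v (x - ((a : K) : Qb)) < 1 := by
  obtain ⟨y, hy, hxy⟩ := dense P K hx 1
  rw [pow_one] at hxy
  have hxy1 : P.v (x - y) < 1 := lt_of_le_of_lt hxy (v_ell_lt_one P)
  have hy1 : P.v y ≤ 1 := by
    have : y = x - (x - y) := by ring
    rw [this]
    exact Valuation.map_sub_le _ hx1 hxy1.le
  by_cases hy0 : y = 0
  · refine ⟨0, ?_⟩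
    subst hy0
    simpa using hxy1
  have hy0' : (⟨y, hy⟩ : K) ≠ 0 := by
    intro h
    exact hy0 (congrArg Subtype.val h)
  have hord : 0 ≤ ord (pl P K) (⟨y, hy⟩ : K) := (v_le_one_iff P K hy0').1 hy1
  obtain ⟨a, b, hb, hab⟩ := exists_div_not_mem (pl P K) hord
  have hq := LPMap.one_lt_absNorm (pl P K)
  obtain ⟨m, hm⟩ : ∃ m, Ideal.absNorm (pl P K).asIdeal = m + 2 := ⟨_, (Nat.sub_add_cancel hq).symm⟩
  have hb1 := LPMap.pow_absNorm_sub_one_sub_one_mem (pl P K) b hb
  rw [hm, show m + 2 - 1 = m + 1 from rfl] at hb1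
  have hb2 : P.v ((((b ^ (m + 1) - 1 : 𝓞 K) : K)) : Qb) < 1 := (mem_plIdeal P K _).1 hb1
  have hb0 : ((b : K) : Qb) ≠ 0 := by
    intro h
    apply hb
    have : b = 0 := by
      have h' : (b : K) = 0 := by exact_mod_cast h
      exact_mod_cast h'
    rw [this]
    exact zero_mem _
  have hyab : y * ((b : K) : Qb) = ((a : K) : Qb) := by
    have h' : y = ((a : K) : Qb) / ((b : K) : Qb) := by
      have := congrArg (fun t : K => (t : Qb)) hab
      simpa using this
    rw [h']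
    field_simp
  refine ⟨a * b ^ m, ?_⟩
  have e : y - (((a * b ^ m : 𝓞 K) : K) : Qb) = - (y * (((b ^ (m + 1) - 1 : 𝓞 K) : K) : Qb)) := by
    push_cast
    rw [← hyab]
    ring
  have h3 : P.v (y - (((a * b ^ m : 𝓞 K) : K) : Qb)) < 1 := by
    rw [e, Valuation.map_neg, map_mul]
    calc P.v y * P.v ((((b ^ (m + 1) - 1 : 𝓞 K) : K)) : Qb)
        ≤ 1 * P.v ((((b ^ (m + 1) - 1 : 𝓞 K) : K)) : Qb) := mul_le_mul_left hy1 _
      _ < 1 := by rw [one_mul]; exact hb2
  have e2 : x - (((a * b ^ m : 𝓞 K) : K) : Qb) = (x - y) + (y - (((a * b ^ m : 𝓞 K) : K) : Qb)) := by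
    ring
  rw [e2]
  exact Valuation.map_add_lt _ hxy1 h3

/-- The residue field of `lf P K` has `rq P K` elements, part 1. -/
theorem v_pow_rq_sub {x : Qb} (hx : x ∈ lf P K) (hx1 : P.v x ≤ 1) :
    P.v (x ^ rq P K - x) < 1 := by
  obtain ⟨a, ha⟩ := exists_residue_rep P K hx hx1
  set X : P.A := ⟨x, (P.A.valuation_le_one_iff x).1 hx1⟩ with hX
  have h1 : IsLocalRing.residue P.A X = unifRes P K a :=
    (unif_residue_eq_iff P X (toA P K a)).2 ha
  have h2 : IsLocalRing.residue P.A (X ^ rq P K - X) = 0 := by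
    rw [map_sub, map_pow, h1, unifRes_pow_rq, sub_self]
  exact (unif_residue_eq_zero_iff P _).1 h2

/-- The residue field of `lf P K` has `rq P K` elements, part 2: the `rq P K` classes of `𝓞 K` are
all the roots of `X ^ q - X` in the residue field of `P.A`. -/
theorem exists_rep_of_pow_rq {x : Qb} (hx1 : P.v x ≤ 1) (h : P.v (x ^ rq P K - x) < 1) :
    ∃ a : 𝓞 K, P.v (x - ((a : K) : Qb)) < 1 := by
  have hq := one_lt_rq P K
  set X : P.A := ⟨x, (P.A.valuation_le_one_iff x).1 hx1⟩ with hX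
  have hsub := unif_range_subset_roots P K hq (unifRes_pow_rq P K)
  have heq := Set.eq_of_subset_of_ncard_le hsub (by
    rw [Set.ncard_coe_finset, unif_ncard_range]
    exact unif_card_roots_le P hq) (Finset.finite_toSet _)
  have h2 : IsLocalRing.residue P.A (X ^ rq P K - X) = 0 := (unif_residue_eq_zero_iff P _).2 h
  have h3 : IsLocalRing.residue P.A X ∈ Set.range (unifRes P K) := by
    rw [heq, Finset.mem_coe, Multiset.mem_toFinset, Polynomial.mem_roots
      (FiniteField.X_pow_card_sub_X_ne_zero _ hq)]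
    rw [map_sub, map_pow] at h2
    simpa using h2
  obtain ⟨a, ha⟩ := h3
  exact ⟨a, (unif_residue_eq_iff P X (toA P K a)).1 ha.symm⟩

/-- Characterisation of `rq`: if the integers of `lf P K` satisfy `x ^ q ≡ x` and `q ≤ rq P K`
then `q = rq P K`.  (A polynomial of degree `q` has at most `q` roots in the residue field.) -/
theorem rq_le_of_forall {q : ℕ} (hq : 1 < q)
    (h : ∀ a : 𝓞 K, P.v ((((a : K) : Qb)) ^ q - ((a : K) : Qb)) < 1) : rq P K ≤ q := by
  have h' : ∀ a : 𝓞 K, unifRes P K a ^ q = unifRes P K a := by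
    intro a
    rw [← sub_eq_zero, ← map_pow, ← map_sub, unifRes_eq_zero_iff]
    refine (mem_plIdeal P K _).2 ?_
    simpa using h a
  have hsub := unif_range_subset_roots P K hq h'
  have := Set.ncard_le_ncard hsub (Finset.finite_toSet _)
  rw [Set.ncard_coe_finset, unif_ncard_range] at this
  exact this.trans (unif_card_roots_le P hq)

omit [FiniteDimensional ℚ K] in
/-- an element of valuation `< 1` of a local field has valuation `≤ v π`. -/
lemma IsUnif.v_le_of_lt_one {P : Plc} {K : Fld} {π : Qb} (hπ : IsUnif P K π) {z : Qb}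
    (hz : z ∈ lf P K) (hz1 : P.v z < 1) : P.v z ≤ P.v π := by
  by_cases hz0 : z = 0
  · rw [hz0, map_zero]; exact zero_le'
  obtain ⟨n, hn⟩ := hπ.2.2 z hz hz0
  have h1 : 1 ≤ n := by
    by_contra hcon
    have hn0 : n ≤ 0 := by omega
    have := (v_zpow_le_iff P hπ.ne_zero hπ.2.1 (a := 0) (b := n)).2 hn0
    rw [zpow_zero, ← hn] at this
    exact absurd hz1 (not_lt.2 this)
  have := (v_zpow_le_iff P hπ.ne_zero hπ.2.1 (a := n) (b := 1)).2 h1
  rwa [zpow_one, ← hn] at this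

omit [FiniteDimensional ℚ K] in
lemma unif_approx_aux {K₁ : Fld} {π : Qb} (hπ : IsUnif P K₁ π) (hπK : π ∈ lf P K)
    (hle : lf P K ≤ lf P K₁)
    (hres : ∀ y ∈ lf P K₁, P.v y ≤ 1 → ∃ a ∈ lf P K, P.v (y - a) < 1) (j : ℕ) :
    ∀ (m : ℤ) (y : Qb), y ∈ lf P K₁ → P.v y ≤ P.v π ^ m →
      ∃ x ∈ lf P K, P.v (y - x) ≤ P.v π ^ (m + j) := by
  have hπ0 : π ≠ 0 := hπ.ne_zero
  have hvπ0 : P.v π ≠ 0 := (map_ne_zero P.v).2 hπ0
  induction j with
  | zero =>
    intro m y _ hym
    exact ⟨0, zero_mem _, by simpa using hym⟩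
  | succ j ih =>
    intro m y hy hym
    obtain ⟨x, hx, hxy⟩ := ih m y hy hym
    set t : Qb := π ^ (m + j) with ht
    have ht0 : t ≠ 0 := zpow_ne_zero _ hπ0
    have hvt : P.v t = P.v π ^ (m + j) := by rw [ht, map_zpow₀]
    have hvt0 : 0 < P.v t := zero_lt_iff.2 ((map_ne_zero P.v).2 ht0)
    have htK : t ∈ lf P K := zpow_mem hπK _
    have hz : (y - x) / t ∈ lf P K₁ := div_mem (sub_mem hy (hle hx)) (hle htK)
    have hz1 : P.v ((y - x) / t) ≤ 1 := by
      rw [map_div₀, div_le_one₀ hvt0, hvt]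
      exact hxy
    obtain ⟨a, ha, hza⟩ := hres _ hz hz1
    have hza' : P.v ((y - x) / t - a) ≤ P.v π :=
      hπ.v_le_of_lt_one (sub_mem hz (hle ha)) hza
    refine ⟨x + a * t, add_mem hx (mul_mem ha htK), ?_⟩
    have e : y - (x + a * t) = ((y - x) / t - a) * t := by
      field_simp
      ring
    rw [e, map_mul, hvt]
    calc P.v ((y - x) / t - a) * P.v π ^ (m + j) ≤ P.v π * P.v π ^ (m + j) :=
          mul_le_mul_left hza' _
      _ = P.v π ^ (m + ((j + 1 : ℕ) : ℤ)) := by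
          rw [← zpow_one_add₀ hvπ0]
          congr 1
          push_cast
          ring

omit [FiniteDimensional ℚ K] in
/-- Successive approximation: if `π` is a uniformizer of `lf P K₁` lying in `lf P K` and every
integer of `lf P K₁` is congruent to an element of `lf P K`, then `lf P K` is dense in `lf P K₁`. -/
theorem approx_of_residue {K₁ : Fld} {π : Qb} (hπ : IsUnif P K₁ π) (hπK : π ∈ lf P K)
    (hle : lf P K ≤ lf P K₁)
    (hres : ∀ y ∈ lf P K₁, P.v y ≤ 1 → ∃ a ∈ lf P K, P.v (y - a) < 1)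
    {y : Qb} (hy : y ∈ lf P K₁) (n : ℕ) : ∃ x ∈ lf P K, P.v (y - x) ≤ P.v π ^ n := by
  by_cases hy0 : y = 0
  · exact ⟨0, zero_mem _, by rw [hy0, sub_zero, map_zero]; exact zero_le'⟩
  obtain ⟨m, hm⟩ := hπ.2.2 y hy hy0
  obtain ⟨x, hx, hxy⟩ := unif_approx_aux P K hπ hπK hle hres ((n : ℤ) - m).toNat m y hy hm.le
  refine ⟨x, hx, hxy.trans ?_⟩
  rw [← zpow_natCast]
  refine (v_zpow_le_iff P hπ.ne_zero hπ.2.1).2 ?_
  have := Int.self_le_toNat ((n : ℤ) - m)
  omega

end Fermat.Agent.PT.Local
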