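import Fermat.Agent.PT.Local.Val
import Fermat.Agent.PT.Local.HensGlue
import Fermat.Agent.CFT.OrdApprox

/-!
# S55, block L, leaf L03a: the valuation of `P` on a number field `K` versus `ord (pl P K)`
-/

set_option autoImplicit false

namespace Fermat.Agent.PT.Local

open IsDedekindDomain NumberField Fermat.Agent.CFT

variable (P : Plc) (K : Fld) [FiniteDimensional ℚ K]

theorem v_le_one_iff {x : K} (hx : x ≠ 0) : P.v (x : Qb) ≤ 1 ↔ 0 ≤ ord (pl P K) x := by
  rw [pl_eq_plOf, ord_plOf_nonneg_iff (isFin P) hx, ← P.A.valuation_le_one_iff]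
  rfl

theorem v_lt_one_iff {x : K} (hx : x ≠ 0) : P.v (x : Qb) < 1 ↔ 0 < ord (pl P K) x := by
  rw [pl_eq_plOf, ord_plOf_pos_iff (isFin P) hx, ValuationSubring.mem_nonunits_iff]
  rfl

/-- Proof: `x = a / b` with `a b : 𝓞 K` outside the prime (`exists_div_not_mem_of_unit`), and
`mem_plIdeal`. -/
theorem v_eq_one_of_ord_eq_zero {x : K} (hx : x ≠ 0) (h : ord (pl P K) x = 0) :
    P.v (x : Qb) = 1 := by
  refine le_antisymm ((v_le_one_iff P K hx).mpr h.ge) (not_lt.mp fun hlt => ?_)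
  have := (v_lt_one_iff P K hx).mp hlt
  omega

theorem v_lt_one_of_ord_pos {x : K} (h : 0 < ord (pl P K) x) : P.v (x : Qb) < 1 := by
  have hx : x ≠ 0 := by
    rintro rfl
    simp at h
  exact (v_lt_one_iff P K hx).mpr h

theorem v_eq_zpow_ord {π : K} (hπ : ord (pl P K) π = 1) {x : K} (hx : x ≠ 0) :
    P.v (x : Qb) = P.v (π : Qb) ^ (ord (pl P K) x) := by
  have hπ0 : π ≠ 0 := by
    rintro rfl
    simp at hπ
  have hz : π ^ (ord (pl P K) x) ≠ 0 := zpow_ne_zero _ hπ0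
  have h1 : ord (pl P K) (x / π ^ (ord (pl P K) x)) = 0 := by
    rw [ord_div _ hx hz, ord_zpow, hπ, mul_one, sub_self]
  have h2 := v_eq_one_of_ord_eq_zero P K (div_ne_zero hx hz) h1
  have h3 : ((x / π ^ (ord (pl P K) x) : K) : Qb) = (x : Qb) / (π : Qb) ^ (ord (pl P K) x) := by
    push_cast
    rfl
  rw [h3, map_div₀, map_zpow₀] at h2
  have hne : P.v (π : Qb) ^ (ord (pl P K) x) ≠ 0 := by
    apply zpow_ne_zero
    rw [Valuation.ne_zero_iff]
    exact_mod_cast hπ0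
  exact (div_eq_one_iff_eq hne).mp h2

/-- comparison of two elements of `K` -/
theorem v_le_v_iff {x y : K} (hx : x ≠ 0) (hy : y ≠ 0) :
    P.v (x : Qb) ≤ P.v (y : Qb) ↔ ord (pl P K) y ≤ ord (pl P K) x := by
  rw [pl_eq_plOf, ord_plOf_le_iff (isFin P) hy hx]
  rfl

theorem v_lt_v_iff {x y : K} (hx : x ≠ 0) (hy : y ≠ 0) :
    P.v (x : Qb) < P.v (y : Qb) ↔ ord (pl P K) y < ord (pl P K) x := by
  rw [pl_eq_plOf, ord_plOf_lt_iff (isFin P) hy hx]
  rfl

/-- the place `pl P K` lies over `P.ℓ` -/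
theorem over_pl : Over (pl P K) P.ℓ := by
  rw [pl_eq_plOf, over_plOf_iff]
  exact P.liesOver

theorem over_pl_iff {p : ℕ} (hp : p.Prime) : Over (pl P K) p ↔ p = P.ℓ := by
  constructor
  · intro h
    exact over_unique _ hp P.prime h (over_pl P K)
  · rintro rfl
    exact over_pl P K

/-- `rq P K` is a positive power of `ℓ`. -/
theorem exists_rq_eq : ∃ f : ℕ, 0 < f ∧ rq P K = P.ℓ ^ f :=
  absNorm_eq_pow_of_over (pl P K) P.prime (over_pl P K)

theorem one_lt_rq : 1 < rq P K := by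
  obtain ⟨f, hf, h⟩ := exists_rq_eq P K
  rw [h]
  exact Nat.one_lt_pow hf.ne' P.prime.one_lt

end Fermat.Agent.PT.Local
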