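import Fermat.Agent.PT.Local.Basic

/-!
# S55, block L, leaf L01: elementary facts on the valuation, decomposition and inertia groups
-/

set_option autoImplicit false

namespace Fermat.Agent.PT.Local

open IsDedekindDomain NumberField Fermat.Agent.CFT
open scoped Pointwise

theorem mem_dec_iff (P : Plc) (σ : GQ) : σ ∈ P.dec ↔ ∀ x : Qb, σ x ∈ P.A ↔ x ∈ P.A := by
  rw [MulAction.mem_stabilizer_iff]
  constructor
  · intro h x
    have h1 : σ • x ∈ σ • P.A ↔ x ∈ P.A := ValuationSubring.smul_mem_pointwise_smul_iff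
    rw [h] at h1
    exact h1
  · intro h
    ext y
    rw [ValuationSubring.mem_pointwise_smul_iff_inv_smul_mem, ← h (σ⁻¹ • y)]
    have : σ (σ⁻¹ • y) = y := by
      change σ (σ⁻¹ y) = y
      exact σ.apply_symm_apply y
    rw [this]

theorem Val_le_iff (P : Plc) {σ : GQ} (hσ : σ ∈ P.dec) (a b : Qb) :
    P.v (σ a) ≤ P.v (σ b) ↔ P.v a ≤ P.v b := by
  by_cases hb : b = 0
  · subst hb
    simp
  · have hσb : σ b ≠ 0 := by simpa using hb
    have h1 : P.v (σ a) ≤ P.v (σ b) ↔ σ (a / b) ∈ P.A := by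
      rw [← ValuationSubring.valuation_le_one_iff, map_div₀, map_div₀,
        div_le_one₀ (zero_lt_iff.mpr ((Valuation.ne_zero_iff _).mpr hσb))]
    have h2 : P.v a ≤ P.v b ↔ a / b ∈ P.A := by
      rw [← ValuationSubring.valuation_le_one_iff, map_div₀,
        div_le_one₀ (zero_lt_iff.mpr ((Valuation.ne_zero_iff _).mpr hb))]
    rw [h1, h2]
    exact (mem_dec_iff P σ).mp hσ _

theorem Val_exists_pow_fix (σ : GQ) (x : Qb) : ∃ n : ℕ, 0 < n ∧ (σ ^ n) x = x := by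
  classical
  have hfin : ((minpoly ℚ x).rootSet Qb).Finite := Polynomial.rootSet_finite _ _
  have hmem : ∀ n : ℕ, (σ ^ n) x ∈ (minpoly ℚ x).rootSet Qb := by
    intro n
    rw [Polynomial.mem_rootSet]
    refine ⟨minpoly.ne_zero (Algebra.IsAlgebraic.isAlgebraic x).isIntegral, ?_⟩
    have h := Polynomial.aeval_algHom_apply ((σ ^ n : GQ) : Qb →ₐ[ℚ] Qb) x (minpoly ℚ x)
    rw [minpoly.aeval, map_zero] at h
    exact h
  have : Finite ((minpoly ℚ x).rootSet Qb) := hfin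
  obtain ⟨a, b, hab, h⟩ := Finite.exists_ne_map_eq_of_infinite
    (fun n : ℕ => (⟨(σ ^ n) x, hmem n⟩ : (minpoly ℚ x).rootSet Qb))
  have h' : (σ ^ a) x = (σ ^ b) x := congrArg Subtype.val h
  wlog hlt : a < b generalizing a b
  · exact this b a hab.symm h.symm h'.symm (by omega)
  refine ⟨b - a, by omega, ?_⟩
  have h2 : σ ^ b = σ ^ a * σ ^ (b - a) := by rw [← pow_add]; congr 1; omega
  rw [h2, AlgEquiv.mul_apply] at h'
  exact ((σ ^ a).injective h').symm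

/-- Elements of the decomposition group preserve the valuation (finite orbit argument). -/
theorem v_map (P : Plc) {σ : GQ} (hσ : σ ∈ P.dec) (x : Qb) : P.v (σ x) = P.v x := by
  obtain ⟨n, hn, hx⟩ := Val_exists_pow_fix σ x
  have hlt : ∀ a b : Qb, P.v (σ a) < P.v (σ b) ↔ P.v a < P.v b := by
    intro a b
    rw [← not_le, ← not_le, Val_le_iff P hσ]
  have hstep : ∀ k : ℕ, (σ ^ (k + 1)) x = σ ((σ ^ k) x) := by
    intro k
    rw [pow_succ', AlgEquiv.mul_apply]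
  rcases lt_trichotomy (P.v (σ x)) (P.v x) with h | h | h
  · exfalso
    have h1 : ∀ k : ℕ, P.v ((σ ^ (k + 1)) x) < P.v x := by
      intro k
      induction k with
      | zero => simpa using h
      | succ k ih =>
        rw [hstep]
        exact lt_trans ((hlt _ _).mpr ih) h
    have := h1 (n - 1)
    rw [show n - 1 + 1 = n by omega, hx] at this
    exact lt_irrefl _ this
  · exact h
  · exfalso
    have h1 : ∀ k : ℕ, P.v x < P.v ((σ ^ (k + 1)) x) := by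
      intro k
      induction k with
      | zero => simpa using h
      | succ k ih =>
        rw [hstep]
        exact lt_trans h ((hlt _ _).mpr ih)
    have := h1 (n - 1)
    rw [show n - 1 + 1 = n by omega, hx] at this
    exact lt_irrefl _ this

theorem mem_ine_iff (P : Plc) (σ : GQ) :
    σ ∈ P.ine ↔ σ ∈ P.dec ∧ ∀ x ∈ P.A, P.v (σ x - x) < 1 := by
  constructor
  · rintro ⟨⟨g, hdec⟩, hker, rfl⟩
    refine ⟨hdec, fun x hx => ?_⟩
    change (⟨g, hdec⟩ : P.A.decompositionSubgroup ℚ) ∈ MonoidHom.ker _ at hker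
    rw [MonoidHom.mem_ker] at hker
    have h1 := DFunLike.congr_fun hker (IsLocalRing.residue P.A ⟨x, hx⟩)
    change (⟨g, hdec⟩ : P.A.decompositionSubgroup ℚ) • (IsLocalRing.residue P.A ⟨x, hx⟩) =
      IsLocalRing.residue P.A ⟨x, hx⟩ at h1
    rw [← IsLocalRing.ResidueField.residue_smul, ← sub_eq_zero, ← map_sub,
      IsLocalRing.residue_eq_zero_iff, P.A.valuation_lt_one_iff] at h1
    exact h1
  · rintro ⟨hdec, h⟩
    refine ⟨⟨σ, hdec⟩, ?_, rfl⟩
    change (⟨σ, hdec⟩ : P.A.decompositionSubgroup ℚ) ∈ MonoidHom.ker _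
    rw [MonoidHom.mem_ker]
    ext xbar
    obtain ⟨x, rfl⟩ := IsLocalRing.residue_surjective xbar
    change (⟨σ, hdec⟩ : P.A.decompositionSubgroup ℚ) • (IsLocalRing.residue P.A x) =
      IsLocalRing.residue P.A x
    rw [← IsLocalRing.ResidueField.residue_smul, ← sub_eq_zero, ← map_sub,
      IsLocalRing.residue_eq_zero_iff, P.A.valuation_lt_one_iff]
    exact h x x.2

theorem ine_le_dec (P : Plc) : P.ine ≤ P.dec := fun _ h => ((mem_ine_iff P _).mp h).1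

theorem ine_normal (P : Plc) {g h : GQ} (hg : g ∈ P.dec) (hh : h ∈ P.ine) :
    g * h * g⁻¹ ∈ P.ine := by
  rw [mem_ine_iff] at hh ⊢
  refine ⟨P.dec.mul_mem (P.dec.mul_mem hg hh.1) (P.dec.inv_mem hg), fun x hx => ?_⟩
  have hginv : g⁻¹ ∈ P.dec := P.dec.inv_mem hg
  have hy : g⁻¹ x ∈ P.A := ((mem_dec_iff P g⁻¹).mp hginv x).mpr hx
  have h1 := hh.2 _ hy
  rw [← v_map P hg] at h1
  have h2 : g (h (g⁻¹ x) - g⁻¹ x) = (g * h * g⁻¹) x - x := by
    rw [map_sub]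
    congr 1
    change g (g.symm x) = x
    exact g.apply_symm_apply x
  rwa [h2] at h1

theorem mem_lg_iff (P : Plc) (K : Fld) (σ : GQ) :
    σ ∈ lg P K ↔ σ ∈ P.dec ∧ ∀ x ∈ K, σ x = x := by
  rw [lg, Subgroup.mem_inf, IntermediateField.mem_fixingSubgroup_iff]

theorem mem_li_iff (P : Plc) (K : Fld) (σ : GQ) :
    σ ∈ li P K ↔ σ ∈ P.ine ∧ ∀ x ∈ K, σ x = x := by
  rw [li, Subgroup.mem_inf, IntermediateField.mem_fixingSubgroup_iff]

theorem mem_lf_iff (P : Plc) (K : Fld) (x : Qb) : x ∈ lf P K ↔ ∀ σ ∈ lg P K, σ x = x := by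
  rw [lf, IntermediateField.mem_fixedField_iff]

theorem le_lf (P : Plc) (K : Fld) : K ≤ lf P K := by
  intro x hx
  rw [mem_lf_iff]
  intro σ hσ
  exact ((mem_lg_iff P K σ).mp hσ).2 x hx

theorem lg_le_dec (P : Plc) (K : Fld) : lg P K ≤ P.dec := inf_le_left

theorem li_le_lg (P : Plc) (K : Fld) : li P K ≤ lg P K :=
  inf_le_inf_right _ (ine_le_dec P)

theorem lg_anti (P : Plc) {K K' : Fld} (h : K ≤ K') : lg P K' ≤ lg P K :=
  inf_le_inf_left _ (IntermediateField.fixingSubgroup_antitone h)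

theorem li_anti (P : Plc) {K K' : Fld} (h : K ≤ K') : li P K' ≤ li P K :=
  inf_le_inf_left _ (IntermediateField.fixingSubgroup_antitone h)

theorem lf_mono (P : Plc) {K K' : Fld} (h : K ≤ K') : lf P K ≤ lf P K' := by
  intro x hx
  rw [mem_lf_iff] at hx ⊢
  exact fun σ hσ => hx σ (lg_anti P h hσ)

theorem lg_sup (P : Plc) (K K' : Fld) : lg P (K ⊔ K') = lg P K ⊓ K'.fixingSubgroup := by
  rw [lg, lg, IntermediateField.fixingSubgroup_sup, inf_assoc]

theorem li_normal (P : Plc) (K : Fld) {g h : GQ} (hg : g ∈ lg P K) (hh : h ∈ li P K) :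
    g * h * g⁻¹ ∈ li P K := by
  rw [mem_lg_iff] at hg
  rw [mem_li_iff] at hh ⊢
  refine ⟨ine_normal P hg.1 hh.1, fun x hx => ?_⟩
  have h1 : g⁻¹ x = x := by
    have := hg.2 x hx
    conv_lhs => rw [← this]
    change g.symm (g x) = x
    exact g.symm_apply_apply x
  change g (h (g⁻¹ x)) = x
  rw [h1, hh.2 x hx, hg.2 x hx]

theorem v_ell_lt_one (P : Plc) : P.v (P.ℓ : Qb) < 1 :=
  (P.A.mem_nonunits_iff).mp P.liesOver

theorem v_ell_ne_zero (P : Plc) : P.v (P.ℓ : Qb) ≠ 0 := by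
  rw [Valuation.ne_zero_iff]
  exact_mod_cast P.prime.ne_zero

theorem v_le_one_of_isIntegral (P : Plc) {x : Qb} (hx : IsIntegral ℤ x) : P.v x ≤ 1 :=
  (P.A.valuation_le_one_iff x).mpr (Fermat.Agent.Lib.Frobenius.mem_of_isIntegral P.A hx)

theorem v_natCast_eq_one (P : Plc) {n : ℕ} (h : ¬ P.ℓ ∣ n) : P.v (n : Qb) = 1 := by
  have h1 : P.v (n : Qb) ≤ 1 := v_le_one_of_isIntegral P (isIntegral_natCast n)
  refine le_antisymm h1 (not_lt.mp fun hlt => h ?_)
  have h2 : (((n : ℤ) : Qb)) ∈ P.A.nonunits := by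
    rw [P.A.mem_nonunits_iff]
    simpa using hlt
  have := Fermat.Agent.Lib.Frobenius.int_dvd_of_mem_nonunits P.A P.prime P.liesOver h2
  exact_mod_cast this

/-- The valuation has rank one. -/
theorem exists_pow_le (P : Plc) {z : Qb} (hz : z ≠ 0) : ∃ n : ℕ, P.v (P.ℓ : Qb) ^ n ≤ P.v z := by
  have halg : IsAlgebraic ℤ z⁻¹ :=
    (IsFractionRing.isAlgebraic_iff ℤ ℚ Qb).mpr (Algebra.IsAlgebraic.isAlgebraic z⁻¹)
  obtain ⟨m, hm, hint⟩ := halg.exists_integral_multiple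
  have h1 := v_le_one_of_isIntegral P hint
  rw [zsmul_eq_mul, map_mul, map_inv₀, ← div_eq_mul_inv,
    div_le_one₀ (zero_lt_iff.mpr ((Valuation.ne_zero_iff _).mpr hz))] at h1
  obtain ⟨n, m', hm', hmm⟩ := Nat.exists_eq_pow_mul_and_not_dvd (n := m.natAbs)
    (by simpa using hm) P.ℓ P.prime.ne_one
  refine ⟨n, le_trans (le_of_eq ?_) h1⟩
  have h2 : P.v ((m : ℤ) : Qb) = P.v ((m.natAbs : ℕ) : Qb) := by
    rcases Int.natAbs_eq m with h | h
    · conv_lhs => rw [h]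
      simp
    · conv_lhs => rw [h]
      simp
  rw [h2, hmm]
  push_cast
  rw [map_mul, map_pow, v_natCast_eq_one P hm', mul_one]

/-- An element which is arbitrarily small is zero. -/
theorem eq_zero_of_forall_le (P : Plc) {z : Qb} (h : ∀ n : ℕ, P.v z ≤ P.v (P.ℓ : Qb) ^ n) :
    z = 0 := by
  by_contra hz
  obtain ⟨n, hn⟩ := exists_pow_le P hz
  have h1 := h (n + 1)
  have h2 : P.v (P.ℓ : Qb) ^ (n + 1) < P.v (P.ℓ : Qb) ^ n :=
    pow_lt_pow_right_of_lt_one₀ (zero_lt_iff.mpr (v_ell_ne_zero P)) (v_ell_lt_one P) (by omega)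
  exact absurd (le_trans hn h1) (not_le.mpr h2)

theorem v_zpow_le_iff (P : Plc) {π : Qb} (h0 : π ≠ 0) (h1 : P.v π < 1) {a b : ℤ} :
    P.v π ^ a ≤ P.v π ^ b ↔ b ≤ a :=
  zpow_le_zpow_iff_right_of_lt_one₀ (zero_lt_iff.mpr ((Valuation.ne_zero_iff _).mpr h0)) h1

theorem v_zpow_injective (P : Plc) {π : Qb} (h0 : π ≠ 0) (h1 : P.v π < 1) {a b : ℤ}
    (h : P.v π ^ a = P.v π ^ b) : a = b :=
  le_antisymm ((v_zpow_le_iff P h0 h1).mp h.ge) ((v_zpow_le_iff P h0 h1).mp h.le)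

theorem IsUnif.ne_zero {P : Plc} {K : Fld} {π : Qb} (h : IsUnif P K π) : π ≠ 0 := by
  rintro rfl
  obtain ⟨n, hn⟩ := h.2.2 (P.ℓ : Qb) (natCast_mem _ _) (by exact_mod_cast P.prime.ne_zero)
  rw [map_zero] at hn
  by_cases hn0 : n = 0
  · subst hn0
    rw [zpow_zero] at hn
    exact absurd hn (v_ell_lt_one P).ne
  · rw [zero_zpow n hn0] at hn
    exact v_ell_ne_zero P hn

/-- Two uniformizers have the same valuation. -/
theorem IsUnif.v_eq {P : Plc} {K : Fld} {π π' : Qb} (h : IsUnif P K π) (h' : IsUnif P K π') :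
    P.v π = P.v π' := by
  obtain ⟨a, ha⟩ := h.2.2 π' h'.1 h'.ne_zero
  obtain ⟨b, hb⟩ := h'.2.2 π h.1 h.ne_zero
  have h1 : P.v π ^ (1 : ℤ) = P.v π ^ (a * b) := by
    rw [zpow_one, zpow_mul, ← ha, ← hb]
  have h2 : (1 : ℤ) = a * b := v_zpow_injective P h.ne_zero h.2.1 h1
  have ha0 : 0 < a := by
    have h3 : P.v π ^ a < P.v π ^ (0 : ℤ) := by
      rw [← ha, zpow_zero]; exact h'.2.1
    by_contra hcon
    exact absurd ((v_zpow_le_iff P h.ne_zero h.2.1).mpr (not_lt.mp hcon)) (not_le.mpr h3)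
  have ha1 : a = 1 := by
    rcases Int.eq_one_or_neg_one_of_mul_eq_one h2.symm with h | h
    · exact h
    · omega
  rw [ha, ha1, zpow_one]

theorem IsUnif.of_v_eq {P : Plc} {K : Fld} {π π' : Qb} (h : IsUnif P K π) (hπ' : π' ∈ lf P K)
    (hv : P.v π' = P.v π) : IsUnif P K π' :=
  ⟨hπ', hv ▸ h.2.1, fun x hx hx0 => by rw [hv]; exact h.2.2 x hx hx0⟩

/-- Every nonzero element of the local field is a power of the uniformizer times a unit. -/
theorem IsUnif.exists_eq {P : Plc} {K : Fld} {π : Qb} (h : IsUnif P K π) {x : Qb}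
    (hx : x ∈ lf P K) (hx0 : x ≠ 0) :
    ∃ (n : ℤ) (u : Qb), u ∈ lf P K ∧ P.v u = 1 ∧ x = π ^ n * u := by
  obtain ⟨n, hn⟩ := h.2.2 x hx hx0
  have hπ := h.ne_zero
  refine ⟨n, x / π ^ n, div_mem hx (zpow_mem h.1 n), ?_, ?_⟩
  · rw [map_div₀, map_zpow₀, hn]
    exact div_self (zpow_ne_zero _ ((Valuation.ne_zero_iff _).mpr hπ))
  · field_simp

theorem IsFrob.pow {P : Plc} {q : ℕ} {φ : GQ} (h : IsFrob P q φ) (m : ℕ) :
    IsFrob P (q ^ m) (φ ^ m) := by
  induction m with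
  | zero =>
    refine ⟨P.dec.one_mem, fun x _ => ?_⟩
    simp
  | succ m ih =>
    refine ⟨P.dec.pow_mem h.1 _, fun x hx => ?_⟩
    have h1 := ih.2 x hx
    have h2 : P.v (φ ((φ ^ m) x - x ^ q ^ m)) < 1 := by rwa [v_map P h.1]
    have h3 := h.2 (x ^ q ^ m) (pow_mem hx _)
    have h4 : (φ ^ (m + 1)) x - x ^ q ^ (m + 1) =
        φ ((φ ^ m) x - x ^ q ^ m) + (φ (x ^ q ^ m) - (x ^ q ^ m) ^ q) := by
      rw [pow_succ' φ, AlgEquiv.mul_apply, map_sub, pow_succ q, pow_mul]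
      ring
    rw [h4]
    exact lt_of_le_of_lt (P.v.map_add _ _) (max_lt h2 h3)

/-- Two Frobenius elements for the same `q` differ by an element of inertia. -/
theorem IsFrob.inv_mul_mem {P : Plc} {q : ℕ} {φ φ' : GQ} (h : IsFrob P q φ) (h' : IsFrob P q φ') :
    φ⁻¹ * φ' ∈ P.ine := by
  rw [mem_ine_iff]
  refine ⟨P.dec.mul_mem (P.dec.inv_mem h.1) h'.1, fun x hx => ?_⟩
  have h1 : P.v (φ' x - φ x) < 1 := by
    have : φ' x - φ x = (φ' x - x ^ q) - (φ x - x ^ q) := by ring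
    rw [this]
    exact lt_of_le_of_lt (P.v.map_sub _ _) (max_lt (h'.2 x hx) (h.2 x hx))
  rw [← v_map P (P.dec.inv_mem h.1)] at h1
  have h2 : φ⁻¹ (φ' x - φ x) = (φ⁻¹ * φ') x - x := by
    rw [map_sub]
    congr 1
    change φ.symm (φ x) = x
    exact φ.symm_apply_apply x
  rwa [h2] at h1

end Fermat.Agent.PT.Local
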